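/-
S55 (Poitou-Tate), package [DEV] (Serre's devissage).  Owner: helper12.  Prefix `dev_`.

PUSH: functoriality of inhomogeneous cochains in the coefficients, for an equivariant linear map
`g : A → B` of representations of an arbitrary group (no category theory):
`dev_push g c = g ∘ c`, compatibility with `d₀₁, d₁₂, d₂₃` and with the cup products of `Cup.lean`.
-/
import Mathlib
import Fermat.Agent.S55.Cup

set_option autoImplicit false
open CategoryTheory groupCohomology

namespace Fermat.Agent.S55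

universe u

variable {k Γ : Type u} [CommRing k] [Group Γ] {A B C : Rep k Γ}

/-- Equivariant linear maps (the underlying maps of morphisms of representations). -/
def dev_Eqv (g : A →ₗ[k] B) : Prop :=
  ∀ (s : Γ) (a : A), g (A.ρ s a) = B.ρ s (g a)

theorem dev_Eqv_hom (f : A ⟶ B) : dev_Eqv (f.hom : A →ₗ[k] B) :=
  fun s a => Rep.hom_comm_apply f s a

theorem dev_Eqv.comp {g : A →ₗ[k] B} {h : B →ₗ[k] C} (hg : dev_Eqv g) (hh : dev_Eqv h) :
    dev_Eqv (h ∘ₗ g) := fun s a => by
  rw [LinearMap.comp_apply, hg, hh, LinearMap.comp_apply]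

/-- Push-forward of cochains (on any index type). -/
abbrev dev_push (X : Type*) (g : A →ₗ[k] B) : (X → A) →ₗ[k] (X → B) := g.compLeft X

@[simp] theorem dev_push_apply (X : Type*) (g : A →ₗ[k] B) (c : X → A) (x : X) :
    dev_push X g c x = g (c x) := rfl

theorem dev_push_d₀₁ {g : A →ₗ[k] B} (hg : dev_Eqv g) (a : A) :
    (d₀₁ B).hom (g a) = dev_push Γ g ((d₀₁ A).hom a) := by
  have e : ∀ s a, g (A.ρ s a) = B.ρ s (g a) := hg
  funext s
  simp only [d₀₁_hom_apply, dev_push_apply, map_sub, e]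

theorem dev_push_d₁₂ {g : A →ₗ[k] B} (hg : dev_Eqv g) (c : Γ → A) :
    (d₁₂ B).hom (dev_push Γ g c) = dev_push (Γ × Γ) g ((d₁₂ A).hom c) := by
  have e : ∀ s a, g (A.ρ s a) = B.ρ s (g a) := hg
  funext ⟨s, t⟩
  simp only [d₁₂_hom_apply, dev_push_apply, map_sub, map_add, e]

theorem dev_push_d₂₃ {g : A →ₗ[k] B} (hg : dev_Eqv g) (c : Γ × Γ → A) :
    (d₂₃ B).hom (dev_push (Γ × Γ) g c) = dev_push (Γ × Γ × Γ) g ((d₂₃ A).hom c) := by
  have e : ∀ s a, g (A.ρ s a) = B.ρ s (g a) := hg
  funext ⟨s, t, r⟩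
  simp only [d₂₃_hom_apply, dev_push_apply, map_sub, map_add, e]

end Fermat.Agent.S55
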