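/-
S55 (Poitou-Tate), package [DEV] (Serre's devissage).  Owner: helper12.  Prefix `dev_`.

DUAL: the Tate dual `g' : B' → A'` of an equivariant map `g : A → B`, and the maps induced by an
equivariant map on `H¹_S` and on `H⁰`.
-/
import Mathlib
import Fermat.Agent.S55.PTDev
import Fermat.Agent.S55.Dev.Push

set_option autoImplicit false
set_option maxHeartbeats 1000000
set_option synthInstance.maxHeartbeats 400000
open CategoryTheory Module groupCohomology ExtCitation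

namespace Fermat.Agent.S55

variable {p : ℕ} [Fact p.Prime] (S : Finset Nat.Primes) {A B C : Rep (ZMod p) s55_GQ}

/-- The Tate dual of a linear map. -/
noncomputable def dev_dual (g : A →ₗ[ZMod p] B) :
    (B.dualTwist (cycloChar p)) →ₗ[ZMod p] (A.dualTwist (cycloChar p)) :=
  (g.dualMap : Module.Dual (ZMod p) B →ₗ[ZMod p] Module.Dual (ZMod p) A)

theorem dev_dual_apply (g : A →ₗ[ZMod p] B) (φ : B.dualTwist (cycloChar p)) (a : A) :
    (show Module.Dual (ZMod p) A from dev_dual g φ) a =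
      (show Module.Dual (ZMod p) B from φ) (g a) := rfl

theorem dev_dual_eqv {g : A →ₗ[ZMod p] B} (hg : dev_Eqv g) : dev_Eqv (dev_dual g) := by
  intro s φ
  apply LinearMap.ext
  intro a
  change (cycloChar p s : ZMod p) • (show Module.Dual (ZMod p) B from φ) (B.ρ s⁻¹ (g a)) =
    (cycloChar p s : ZMod p) • (show Module.Dual (ZMod p) B from φ) (g (A.ρ s⁻¹ a))
  rw [hg]

/-- Adjunction for the evaluation pairings. -/
theorem dev_ev_dual (g : A →ₗ[ZMod p] B) (a : A) (φ : B.dualTwist (cycloChar p)) :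
    pt_ev B (g a) φ = pt_ev A a (dev_dual g φ) := rfl

theorem dev_evv_dual (v : extArithIndex S) (g : A →ₗ[ZMod p] B) (a : A)
    (φ : B.dualTwist (cycloChar p)) :
    pt_evv S v B (g a) φ = pt_evv S v A a (dev_dual g φ) := rfl

/-- The morphism of representations attached to an equivariant linear map. -/
noncomputable def dev_hom {h : A →ₗ[ZMod p] B} (hh : dev_Eqv h) : A ⟶ B :=
  Rep.ofHom (LinearMap.intertwiningMap_of_isIntertwiningMap (ρ := A.ρ) (σ := B.ρ) h hh)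

theorem dev_hom_hom {h : A →ₗ[ZMod p] B} (hh : dev_Eqv h) (a : A) :
    (dev_hom hh).hom a = h a := rfl

/-- The map induced on `H¹`. -/
noncomputable def dev_H1 {h : A →ₗ[ZMod p] B} (hh : dev_Eqv h) : H1 A →ₗ[ZMod p] H1 B :=
  (groupCohomology.map (MonoidHom.id s55_GQ) (dev_hom hh) 1).hom

/-- Push-forward of 1-cocycles. -/
noncomputable def dev_Z1 {h : A →ₗ[ZMod p] B} (hh : dev_Eqv h) :
    ↥(cocycles₁ A) →ₗ[ZMod p] ↥(cocycles₁ B) :=
  (dev_push s55_GQ h).restrict fun y hy => by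
    have h0 : (d₁₂ A).hom y = 0 := hy
    change (d₁₂ B).hom _ = 0
    rw [dev_push_d₁₂ hh, h0, map_zero]

theorem dev_Z1_coe {h : A →ₗ[ZMod p] B} (hh : dev_Eqv h) (y : ↥(cocycles₁ A)) :
    ((dev_Z1 hh y : ↥(cocycles₁ B)) : s55_GQ → B) = dev_push s55_GQ h y.1 := rfl

theorem dev_H1_π {h : A →ₗ[ZMod p] B} (hh : dev_Eqv h) (y : ↥(cocycles₁ A)) :
    dev_H1 hh ((H1π A).hom y) = (H1π B).hom (dev_Z1 hh y) := by
  have := congrArg (fun f => f.hom y) (H1π_comp_map (MonoidHom.id s55_GQ) (dev_hom hh))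
  exact this

theorem dev_H1_mem {h : A →ₗ[ZMod p] B} (hh : dev_Eqv h) {x : H1 A}
    (hx : x ∈ continuousH1S S A) : dev_H1 hh x ∈ continuousH1S S B := by
  obtain ⟨y, hy, rfl⟩ := (mem_continuousH1S_iff S A x).1 hx
  rw [dev_H1_π]
  exact (mem_continuousH1S_iff S B _).2 ⟨dev_Z1 hh y, hy.comp h, rfl⟩

/-- The map induced on `H¹_S`. -/
noncomputable def dev_H1S {h : A →ₗ[ZMod p] B} (hh : dev_Eqv h) :
    ↥(continuousH1S S A) →ₗ[ZMod p] ↥(continuousH1S S B) :=
  (dev_H1 hh).restrict fun _ hx => dev_H1_mem S hh hx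

theorem dev_H1S_cls {h : A →ₗ[ZMod p] B} (hh : dev_Eqv h) (y : cocycles₁ A)
    (hy : IsLevelConstantS₁ S y) :
    dev_H1S S hh (pt_cls1 S A y hy) = pt_cls1 S B (dev_Z1 hh y) (hy.comp h) := by
  apply Subtype.ext
  exact dev_H1_π hh y

/-- The map induced on `H⁰`. -/
noncomputable def dev_H0 {h : A →ₗ[ZMod p] B} (hh : dev_Eqv h) :
    ↥(A.ρ.invariants) →ₗ[ZMod p] ↥(B.ρ.invariants) :=
  h.restrict fun a ha s => by
    rw [← hh, ha s]

theorem dev_H0_coe {h : A →ₗ[ZMod p] B} (hh : dev_Eqv h) (m : ↥(A.ρ.invariants)) :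
    ((dev_H0 hh m : ↥(B.ρ.invariants)) : B) = h m.1 := rfl

end Fermat.Agent.S55
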