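/-
S55 (Poitou-Tate), package [DEV] (Serre's devissage).  Owner: helper12.  Prefix `dev_`.

MAPS: the maps induced by an equivariant linear map `g : A → B` of `G_ℚ`-modules on
`cone_Z`, `cone_H = H²_c`, the continuous local `H²`, `H²_S`, and by the dual map `g' : B' → A'`
on the Tate duals.
-/
import Mathlib
import Fermat.Agent.S55.PTDev
import Fermat.Agent.S55.Dev.Push

set_option autoImplicit false
set_option maxHeartbeats 1000000
set_option synthInstance.maxHeartbeats 400000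
open CategoryTheory Module groupCohomology ExtCitation

namespace Fermat.Agent.S55

variable {p : ℕ} [Fact p.Prime] (S : Finset Nat.Primes) {A B C : Rep (ZMod p) s55_GQ}

/-- An equivariant map is equivariant for the restricted local actions. -/
theorem dev_Eqv_res {g : A →ₗ[ZMod p] B} (hg : dev_Eqv g) (v : extArithIndex S) :
    dev_Eqv (A := Rep.res (extArithLoc S v) A) (B := Rep.res (extArithLoc S v) B) g :=
  fun s a => hg (extArithLoc S v s) a

/-- Push-forward of local 1-cochains. -/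
noncomputable abbrev dev_pushv₁ (v : extArithIndex S) (g : A →ₗ[ZMod p] B) :
    (extArithLocalGroups S v → Rep.res (extArithLoc S v) A) →ₗ[ZMod p]
      (extArithLocalGroups S v → Rep.res (extArithLoc S v) B) :=
  dev_push (A := Rep.res (extArithLoc S v) A) (B := Rep.res (extArithLoc S v) B)
    (extArithLocalGroups S v) g

/-- Push-forward of local 2-cochains. -/
noncomputable abbrev dev_pushv₂ (v : extArithIndex S) (g : A →ₗ[ZMod p] B) :
    (extArithLocalGroups S v × extArithLocalGroups S v → Rep.res (extArithLoc S v) A) →ₗ[ZMod p]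
      (extArithLocalGroups S v × extArithLocalGroups S v → Rep.res (extArithLoc S v) B) :=
  dev_push (A := Rep.res (extArithLoc S v) A) (B := Rep.res (extArithLoc S v) B)
    (extArithLocalGroups S v × extArithLocalGroups S v) g

/-- Push-forward on the ambient module of the cone. -/
noncomputable def dev_coneAmb (g : A →ₗ[ZMod p] B) : cone_Amb S A →ₗ[ZMod p] cone_Amb S B :=
  LinearMap.prodMap (dev_push (s55_GQ × s55_GQ) g)
    (LinearMap.pi fun v => (dev_pushv₁ S v g) ∘ₗ LinearMap.proj v)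

theorem dev_coneAmb_fst (g : A →ₗ[ZMod p] B) (x : cone_Amb S A) :
    (dev_coneAmb S g x).1 = dev_push (s55_GQ × s55_GQ) g x.1 := rfl

theorem dev_coneAmb_snd (g : A →ₗ[ZMod p] B) (x : cone_Amb S A) (v : extArithIndex S) :
    (dev_coneAmb S g x).2 v = dev_pushv₁ S v g (x.2 v) := rfl

theorem dev_push_mem_levelCocyclesS₂ {g : A →ₗ[ZMod p] B} (hg : dev_Eqv g)
    {c : s55_GQ × s55_GQ → A} (hc : c ∈ levelCocyclesS₂ S A) :
    dev_push (s55_GQ × s55_GQ) g c ∈ levelCocyclesS₂ S B := by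
  refine ⟨?_, hc.2.comp g⟩
  have h0 : (d₂₃ A).hom c = 0 := hc.1
  change (d₂₃ B).hom _ = 0
  rw [dev_push_d₂₃ hg, h0, map_zero]

theorem dev_coneAmb_mem {g : A →ₗ[ZMod p] B} (hg : dev_Eqv g) {x : cone_Amb S A}
    (hx : x ∈ cone_Z S A) : dev_coneAmb S g x ∈ cone_Z S B := by
  refine ⟨dev_push_mem_levelCocyclesS₂ S hg hx.1, fun v => ⟨?_, ?_⟩⟩
  · exact (hx.2 v).1.comp g
  · rw [dev_coneAmb_snd, dev_coneAmb_fst]
    have h1 := dev_push_d₁₂ (dev_Eqv_res S hg v) (x.2 v)
    rw [h1, (hx.2 v).2]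
    rfl

/-- Push-forward of cone cocycles. -/
noncomputable def dev_coneZ {g : A →ₗ[ZMod p] B} (hg : dev_Eqv g) :
    ↥(cone_Z S A) →ₗ[ZMod p] ↥(cone_Z S B) :=
  (dev_coneAmb S g).restrict fun _ hx => dev_coneAmb_mem S hg hx

theorem dev_coneZ_coe {g : A →ₗ[ZMod p] B} (hg : dev_Eqv g) (x : ↥(cone_Z S A)) :
    ((dev_coneZ S hg x : ↥(cone_Z S B)) : cone_Amb S B) = dev_coneAmb S g x := rfl

theorem dev_coneAmb_d {g : A →ₗ[ZMod p] B} (hg : dev_Eqv g) (a : ↥(levelCochainsS₁ S A))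
    (m : extArithIndex S → A) :
    dev_coneAmb S g (cone_d S A (a, m)) =
      cone_d S B (⟨dev_push s55_GQ g a.1, a.2.comp g⟩, fun v => g (m v)) := by
  refine Prod.ext ?_ ?_
  · rw [dev_coneAmb_fst, cone_d_fst, cone_d_fst]
    exact (dev_push_d₁₂ hg a.1).symm
  · funext v
    rw [dev_coneAmb_snd, cone_d_snd, cone_d_snd, map_sub]
    have h1 := dev_push_d₀₁ (dev_Eqv_res S hg v) (m v)
    rw [h1]
    rfl

/-- Push-forward on `H²_c`. -/
noncomputable def dev_coneH {g : A →ₗ[ZMod p] B} (hg : dev_Eqv g) :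
    cone_H S A →ₗ[ZMod p] cone_H S B :=
  Submodule.mapQ _ _ (dev_coneZ S hg) (by
    rintro x ⟨⟨a, m⟩, ha⟩
    rw [Submodule.mem_comap, Submodule.mem_comap]
    refine ⟨(⟨dev_push s55_GQ g a.1, a.2.comp g⟩, fun v => g (m v)), ?_⟩
    rw [← dev_coneAmb_d S hg, ha]
    rfl)

theorem dev_coneH_mk {g : A →ₗ[ZMod p] B} (hg : dev_Eqv g) (x : ↥(cone_Z S A)) :
    dev_coneH S hg (Submodule.Quotient.mk x) = Submodule.Quotient.mk (dev_coneZ S hg x) := rfl

/-- Push-forward on the continuous local `H²`. -/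
noncomputable def dev_H2v {g : A →ₗ[ZMod p] B} (hg : dev_Eqv g) (v : extArithIndex S) :
    continuousH2 (extArithLoc S v) (Rep.res (extArithLoc S v) A) →ₗ[ZMod p]
      continuousH2 (extArithLoc S v) (Rep.res (extArithLoc S v) B) :=
  continuousH2Map (rH := extArithLoc S v) (rG := extArithLoc S v)
    (MonoidHom.id (extArithLocalGroups S v)) (fun _ => rfl)
    (A := Rep.res (extArithLoc S v) A) (B := Rep.res (extArithLoc S v) B) g
    (fun s a => hg (extArithLoc S v s) a)

theorem dev_H2v_mk {g : A →ₗ[ZMod p] B} (hg : dev_Eqv g) (v : extArithIndex S)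
    (c : ↥(levelCocycles₂ (extArithLoc S v) (Rep.res (extArithLoc S v) A)))
    (hc : dev_pushv₂ S v g c.1 ∈
      levelCocycles₂ (extArithLoc S v) (Rep.res (extArithLoc S v) B)) :
    dev_H2v S hg v (continuousH2π _ _ c) = continuousH2π _ _ ⟨dev_pushv₂ S v g c.1, hc⟩ := rfl

/-- The product of the continuous local `H²`'s. -/
abbrev dev_H2locT (S : Finset Nat.Primes) (M : Rep (ZMod p) s55_GQ) : Type :=
  ∀ v : extArithIndex S, continuousH2 (extArithLoc S v) (Rep.res (extArithLoc S v) M)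

/-- Push-forward on the product of the continuous local `H²`'s. -/
noncomputable def dev_H2loc {g : A →ₗ[ZMod p] B} (hg : dev_Eqv g) :
    (∀ v : extArithIndex S, continuousH2 (extArithLoc S v) (Rep.res (extArithLoc S v) A))
      →ₗ[ZMod p]
    (∀ v : extArithIndex S, continuousH2 (extArithLoc S v) (Rep.res (extArithLoc S v) B)) :=
  LinearMap.pi fun v => (dev_H2v S hg v) ∘ₗ LinearMap.proj v

theorem dev_H2loc_apply {g : A →ₗ[ZMod p] B} (hg : dev_Eqv g)
    (η : ∀ v : extArithIndex S, continuousH2 (extArithLoc S v) (Rep.res (extArithLoc S v) A))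
    (v : extArithIndex S) : dev_H2loc S hg η v = dev_H2v S hg v (η v) := rfl

/-- Push-forward of level-`S` 2-cocycles. -/
noncomputable def dev_Z2S {g : A →ₗ[ZMod p] B} (hg : dev_Eqv g) :
    ↥(levelCocyclesS₂ S A) →ₗ[ZMod p] ↥(levelCocyclesS₂ S B) :=
  (dev_push (s55_GQ × s55_GQ) g).restrict fun _ hc => dev_push_mem_levelCocyclesS₂ S hg hc

/-- Push-forward on `H²_S`. -/
noncomputable def dev_H2S {g : A →ₗ[ZMod p] B} (hg : dev_Eqv g) :
    continuousH2S S A →ₗ[ZMod p] continuousH2S S B :=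
  Submodule.mapQ _ _ (dev_Z2S S hg) (by
    rintro c hc
    rw [Submodule.mem_comap] at hc ⊢
    obtain ⟨a, ha, hda⟩ := (mem_levelCoboundariesS₂_iff S A _).1 hc
    refine (mem_levelCoboundariesS₂_iff S B _).2 ⟨dev_push s55_GQ g a, ha.comp g, ?_⟩
    rw [dev_push_d₁₂ hg, hda]
    rfl)

theorem dev_H2S_mk {g : A →ₗ[ZMod p] B} (hg : dev_Eqv g) (c : ↥(levelCocyclesS₂ S A)) :
    dev_H2S S hg (continuousH2Sπ S A c) = continuousH2Sπ S B (dev_Z2S S hg c) := rfl

end Fermat.Agent.S55
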