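/-
S55 (Poitou-Tate), package [DEV] (Serre's devissage).  Owner: helper12.  Prefix `dev_`.

DEFS: the sub-packages of [DEV] as closed `Prop`s.  Nothing is proved here.

Notation of the comments: `M' = M.dualTwist (cycloChar p)`, `H2loc M = ∏_v H²_cts(ℚ_v, M)`,
`H0 M = M^{G_ℚ}`, `H1S M = H¹_S(M)`, `H2c M = cone_H S M`;
`Θ² : H2c M → Dual (H1S M')` with `pt_IsTheta`, `Θ₃ : H2loc M → Dual (H0 M')` with `pt_IsTheta3`.
A short exact sequence `0 → N -ι→ I -f→ X → 0` of `G_ℚ`-modules is given by two equivariant linear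
maps with `dev_SES ι f`; its Tate dual is `0 → X' -f'→ I' -ι'→ N' → 0`, `f' = dev_dual f`.
-/
import Mathlib
import Fermat.Agent.S55.PTDev
import Fermat.Agent.S55.Dev.Maps
import Fermat.Agent.S55.Dev.Dual

set_option autoImplicit false
set_option maxHeartbeats 1000000
set_option synthInstance.maxHeartbeats 400000
open CategoryTheory Module groupCohomology ExtCitation

namespace Fermat.Agent.S55

variable {p : ℕ} [Fact p.Prime]

/-- Admissible modules: smooth and unramified outside `S`. -/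
def dev_Adm (S : Finset Nat.Primes) (M : Rep (ZMod p) s55_GQ) : Prop :=
  s55_Smooth M ∧ s55_UnramOutside S M

/-- Short exact sequences `0 → N → I → X → 0` of `G_ℚ`-modules. -/
def dev_SES {N I X : Rep (ZMod p) s55_GQ} (ι : N →ₗ[ZMod p] I) (f : I →ₗ[ZMod p] X) : Prop :=
  dev_Eqv ι ∧ dev_Eqv f ∧ Function.Injective ι ∧ Function.Surjective f ∧
    ∀ x : I, f x = 0 ↔ ∃ n : N, ι n = x

/-- The type of `Θ²`. -/
abbrev dev_Th2 (S : Finset Nat.Primes) (M : Rep (ZMod p) s55_GQ) : Type :=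
  cone_H S M →ₗ[ZMod p] Module.Dual (ZMod p) ↥(continuousH1S S (M.dualTwist (cycloChar p)))

/-- The type of `Θ₃`. -/
abbrev dev_Th3 (S : Finset Nat.Primes) (M : Rep (ZMod p) s55_GQ) : Type :=
  dev_H2locT S M →ₗ[ZMod p] Module.Dual (ZMod p) ↥((M.dualTwist (cycloChar p)).ρ.invariants)

/-- The six leaves available to every sub-package of [DEV]. -/
def dev_Leaves (inv : pt_InvFamily) : Prop :=
  pt_TAdmStatement ∧ pt_DualAdmStatement ∧ pt_CupLevelStatement ∧ pt_RecStatement inv ∧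
    pt_H3VanStatement ∧ pt_LCDStatement

/-- `y ∈ H¹_S(A)` is the image of `m ∈ H⁰(C)` under the connecting map of
`0 → A -ι→ B -f→ C → 0`: there are a lift `b` of `m` and a level-`S` cocycle `z` of `A` with
`ι (z s) = s b - b` and `y = [z]`. -/
def dev_IsConn1 (S : Finset Nat.Primes) {A B C : Rep (ZMod p) s55_GQ} (ι : A →ₗ[ZMod p] B)
    (f : B →ₗ[ZMod p] C) (m : ↥(C.ρ.invariants)) (y : ↥(continuousH1S S A)) : Prop :=
  ∃ (b : B) (z : cocycles₁ A) (hz : IsLevelConstantS₁ S z),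
    f b = m.1 ∧ (∀ s : s55_GQ, ι (z.1 s) = B.ρ s b - b) ∧ y = pt_cls1 S A z hz

/-- `ν ∈ H2loc N` is a value at `w ∈ H2c X` of the connecting map `H²_c(X) → H³_c(N)` of
`0 → N -ι→ I -f→ X → 0`: there are a representative `x = (c, b)` of `w`, a level-`S` COCYCLE
`c̃` of `I` lifting `c`, continuous local cochains `b̃ v` of `I` lifting `b v`, and continuous
local 2-cocycles `n v` of `N` with `ι (n v) = loc_v c̃ - d (b̃ v)` and `ν v = [n v]`. -/
def dev_IsConn2 (S : Finset Nat.Primes) {N I X : Rep (ZMod p) s55_GQ} (ι : N →ₗ[ZMod p] I)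
    (f : I →ₗ[ZMod p] X) (w : cone_H S X) (ν : dev_H2locT S N) : Prop :=
  ∃ (x : ↥(cone_Z S X)) (ct : ↥(levelCocyclesS₂ S I))
    (bt : ∀ v : extArithIndex S, ↥(levelCochains₁ (extArithLoc S v) (Rep.res (extArithLoc S v) I)))
    (n : ∀ v : extArithIndex S, ↥(levelCocycles₂ (extArithLoc S v) (Rep.res (extArithLoc S v) N))),
    w = Submodule.Quotient.mk x ∧
    dev_push (s55_GQ × s55_GQ) f ct.1 = x.1.1 ∧
    (∀ v, dev_pushv₁ S v f (bt v).1 = x.1.2 v) ∧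
    (∀ v, dev_pushv₂ S v ι (n v).1 =
      cone_loc₂ S I v ct.1 - (d₁₂ (Rep.res (extArithLoc S v) I)).hom (bt v).1) ∧
    ν = fun v => continuousH2π _ _ (n v)

/-! ### The sub-packages -/

/-- **[KER]** the kernel of a surjection of admissible modules is admissible. -/
def dev_KerStatement : Prop :=
  ∀ {p : ℕ} [Fact p.Prime] (S : Finset Nat.Primes) (I X : Rep.{0, 0, 0} (ZMod p) s55_GQ)
    [FiniteDimensional (ZMod p) I], dev_Adm S I →
    ∀ f : I →ₗ[ZMod p] X, dev_Eqv f → Function.Surjective f →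
      ∃ (N : Rep.{0, 0, 0} (ZMod p) s55_GQ) (_ : FiniteDimensional (ZMod p) N)
        (ι : N →ₗ[ZMod p] I), dev_Adm S N ∧ dev_SES ι f

/-- **[DSES]** the Tate dual of a short exact sequence is short exact. -/
def dev_DualSESStatement : Prop :=
  ∀ {p : ℕ} [Fact p.Prime] (N I X : Rep.{0, 0, 0} (ZMod p) s55_GQ)
    (ι : N →ₗ[ZMod p] I) (f : I →ₗ[ZMod p] X), dev_SES ι f → dev_SES (dev_dual f) (dev_dual ι)

/-- **[TH3-EX]** `Θ₃` exists for every admissible module. -/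
def dev_Theta3ExStatement : Prop :=
  ∀ inv : pt_InvFamily, dev_Leaves inv →
  ∀ {p : ℕ} [Fact p.Prime], p ≠ 2 → ∀ (S : Finset Nat.Primes), pPrime p ∈ S →
    ∀ (M : Rep.{0, 0, 0} (ZMod p) s55_GQ) [FiniteDimensional (ZMod p) M], dev_Adm S M →
      ∃ Θ : dev_Th3 S M, pt_IsTheta3 inv S M Θ

/-- **[N2]** naturality of `Θ²`: `Θ²_B (g_* w) y = Θ²_A w (g'_* y)`. -/
def dev_Nat2Statement : Prop :=
  ∀ inv : pt_InvFamily, dev_Leaves inv →
  ∀ {p : ℕ} [Fact p.Prime], p ≠ 2 → ∀ (S : Finset Nat.Primes), pPrime p ∈ S →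
    ∀ (A B : Rep.{0, 0, 0} (ZMod p) s55_GQ) [FiniteDimensional (ZMod p) A]
      [FiniteDimensional (ZMod p) B], dev_Adm S A → dev_Adm S B →
    ∀ (g : A →ₗ[ZMod p] B) (hg : dev_Eqv g) (ΘA : dev_Th2 S A) (ΘB : dev_Th2 S B),
      pt_IsTheta inv S A ΘA → pt_IsTheta inv S B ΘB →
      ∀ (w : cone_H S A) (y : ↥(continuousH1S S (B.dualTwist (cycloChar p)))),
        ΘB (dev_coneH S hg w) y = ΘA w (dev_H1S S (dev_dual_eqv hg) y)

/-- **[N3]** naturality of `Θ₃`: `Θ₃^B (g_* η) m = Θ₃^A η (g' m)`. -/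
def dev_Nat3Statement : Prop :=
  ∀ inv : pt_InvFamily, dev_Leaves inv →
  ∀ {p : ℕ} [Fact p.Prime], p ≠ 2 → ∀ (S : Finset Nat.Primes), pPrime p ∈ S →
    ∀ (A B : Rep.{0, 0, 0} (ZMod p) s55_GQ) [FiniteDimensional (ZMod p) A]
      [FiniteDimensional (ZMod p) B], dev_Adm S A → dev_Adm S B →
    ∀ (g : A →ₗ[ZMod p] B) (hg : dev_Eqv g) (ΘA : dev_Th3 S A) (ΘB : dev_Th3 S B),
      pt_IsTheta3 inv S A ΘA → pt_IsTheta3 inv S B ΘB →
      ∀ (η : dev_H2locT S A) (m : ↥((B.dualTwist (cycloChar p)).ρ.invariants)),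
        ΘB (dev_H2loc S hg η) m = ΘA η (dev_H0 (dev_dual_eqv hg) m)

/-- **[REC3]** `Θ₃` kills the image of `H²_S` (global reciprocity). -/
def dev_Rec3Statement : Prop :=
  ∀ inv : pt_InvFamily, dev_Leaves inv →
  ∀ {p : ℕ} [Fact p.Prime], p ≠ 2 → ∀ (S : Finset Nat.Primes), pPrime p ∈ S →
    ∀ (M : Rep.{0, 0, 0} (ZMod p) s55_GQ) [FiniteDimensional (ZMod p) M], dev_Adm S M →
    ∀ Θ : dev_Th3 S M, pt_IsTheta3 inv S M Θ →
      ∀ z : continuousH2S S M, Θ (locTotal₂S S M z) = 0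

/-- **[E1]** the connecting map `δ : H⁰(C) → H¹_S(A)` of `0 → A → B → C → 0` and exactness of
`H⁰(B) → H⁰(C) → H¹_S(A) → H¹_S(B) → H¹_S(C)` at the three middle terms. -/
def dev_E1Statement : Prop :=
  ∀ {p : ℕ} [Fact p.Prime] (S : Finset Nat.Primes) (A B C : Rep.{0, 0, 0} (ZMod p) s55_GQ)
    [FiniteDimensional (ZMod p) A] [FiniteDimensional (ZMod p) B]
    [FiniteDimensional (ZMod p) C], dev_Adm S A → dev_Adm S B → dev_Adm S C →
    ∀ (ι : A →ₗ[ZMod p] B) (f : B →ₗ[ZMod p] C) (h : dev_SES ι f),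
      ∃ δ : ↥(C.ρ.invariants) →ₗ[ZMod p] ↥(continuousH1S S A),
        (∀ m, dev_IsConn1 S ι f m (δ m)) ∧
        (∀ m y, dev_IsConn1 S ι f m y → y = δ m) ∧
        (∀ b : ↥(B.ρ.invariants), δ (dev_H0 h.2.1 b) = 0) ∧
        (∀ y : ↥(continuousH1S S A), dev_H1S S h.1 y = 0 → ∃ m, δ m = y) ∧
        (∀ y : ↥(continuousH1S S B), dev_H1S S h.2.1 y = 0 →
          ∃ x : ↥(continuousH1S S A), dev_H1S S h.1 x = y)

/-- **[E2]** `H2loc I → H2loc X` is onto (uses [LCD] for the kernel). -/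
def dev_E2Statement : Prop :=
  ∀ inv : pt_InvFamily, dev_Leaves inv →
  ∀ {p : ℕ} [Fact p.Prime], p ≠ 2 → ∀ (S : Finset Nat.Primes), pPrime p ∈ S →
    ∀ (N I X : Rep.{0, 0, 0} (ZMod p) s55_GQ) [FiniteDimensional (ZMod p) N]
      [FiniteDimensional (ZMod p) I] [FiniteDimensional (ZMod p) X],
      dev_Adm S N → dev_Adm S I → dev_Adm S X →
    ∀ (ι : N →ₗ[ZMod p] I) (f : I →ₗ[ZMod p] X) (h : dev_SES ι f),
      Function.Surjective (dev_H2loc S h.2.1)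

/-- **[Δ0]** the connecting map `H²_c(X) → H³_c(N)` is defined everywhere (uses [H3VAN] for the
kernel to lift a cocycle to a cocycle). -/
def dev_Conn2ExStatement : Prop :=
  ∀ inv : pt_InvFamily, dev_Leaves inv →
  ∀ {p : ℕ} [Fact p.Prime], p ≠ 2 → ∀ (S : Finset Nat.Primes), pPrime p ∈ S →
    ∀ (N I X : Rep.{0, 0, 0} (ZMod p) s55_GQ) [FiniteDimensional (ZMod p) N]
      [FiniteDimensional (ZMod p) I] [FiniteDimensional (ZMod p) X],
      dev_Adm S N → dev_Adm S I → dev_Adm S X →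
    ∀ (ι : N →ₗ[ZMod p] I) (f : I →ₗ[ZMod p] X), dev_SES ι f →
      ∀ w : cone_H S X, ∃ ν : dev_H2locT S N, dev_IsConn2 S ι f w ν

/-- **[Δ1]** exactness of `H²_c(I) → H²_c(X) → H³_c(N)` at the middle. -/
def dev_Conn2KerStatement : Prop :=
  ∀ {p : ℕ} [Fact p.Prime] (S : Finset Nat.Primes)
    (N I X : Rep.{0, 0, 0} (ZMod p) s55_GQ)
    (ι : N →ₗ[ZMod p] I) (f : I →ₗ[ZMod p] X) (h : dev_SES ι f)
    (w : cone_H S X) (ν : dev_H2locT S N), dev_IsConn2 S ι f w ν →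
      ν ∈ LinearMap.range (locTotal₂S S N) → ∃ u : cone_H S I, dev_coneH S h.2.1 u = w

/-- **[Δ2]** the connecting maps are adjoint up to sign:
`Θ₃^N ν m = - Θ²_X w (δ' m)`. -/
def dev_Conn2AdjStatement : Prop :=
  ∀ inv : pt_InvFamily, dev_Leaves inv →
  ∀ {p : ℕ} [Fact p.Prime], p ≠ 2 → ∀ (S : Finset Nat.Primes), pPrime p ∈ S →
    ∀ (N I X : Rep.{0, 0, 0} (ZMod p) s55_GQ) [FiniteDimensional (ZMod p) N]
      [FiniteDimensional (ZMod p) I] [FiniteDimensional (ZMod p) X],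
      dev_Adm S N → dev_Adm S I → dev_Adm S X →
    ∀ (ι : N →ₗ[ZMod p] I) (f : I →ₗ[ZMod p] X), dev_SES ι f →
    ∀ (ΘX : dev_Th2 S X) (ΘN : dev_Th3 S N), pt_IsTheta inv S X ΘX → pt_IsTheta3 inv S N ΘN →
    ∀ (w : cone_H S X) (ν : dev_H2locT S N), dev_IsConn2 S ι f w ν →
    ∀ (m : ↥((N.dualTwist (cycloChar p)).ρ.invariants))
      (y : ↥(continuousH1S S (X.dualTwist (cycloChar p)))),
      dev_IsConn1 S (dev_dual f) (dev_dual ι) m y → ΘN ν m = - ΘX w y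

/-- **[Δ3]** exactness of `H²_c(X) → H³_c(N) → H³_c(I)` at the middle. -/
def dev_Conn2RangeStatement : Prop :=
  ∀ {p : ℕ} [Fact p.Prime] (S : Finset Nat.Primes)
    (N I X : Rep.{0, 0, 0} (ZMod p) s55_GQ)
    (ι : N →ₗ[ZMod p] I) (f : I →ₗ[ZMod p] X) (h : dev_SES ι f)
    (η : dev_H2locT S N), dev_H2loc S h.1 η ∈ LinearMap.range (locTotal₂S S I) →
      ∃ w : cone_H S X, dev_IsConn2 S ι f w η

end Fermat.Agent.S55
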