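/-
S55 (Poitou-Tate), package [DEV] (Serre's devissage).  Owner: helper12.  Prefix `dev_`.

FUNCT: the functorial laws of the maps of `Dev/Maps.lean` and `Dev/Dual.lean`:
identity, composition, zero, additivity, finite sums, scalars (all statements are with ARBITRARY
proofs of equivariance, so that they can be used as rewrite rules).
-/
import Mathlib
import Fermat.Agent.S55.PTDev
import Fermat.Agent.S55.Dev.Maps
import Fermat.Agent.S55.Dev.Dual

set_option autoImplicit false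
set_option maxHeartbeats 1000000
set_option synthInstance.maxHeartbeats 400000
open CategoryTheory Module groupCohomology ExtCitation

namespace Fermat.Agent.S55

section Eqv

universe u

variable {k Γ : Type u} [CommRing k] [Group Γ] {A B C : Rep k Γ}

theorem dev_Eqv_id : dev_Eqv (LinearMap.id : A →ₗ[k] A) := fun _ _ => rfl

theorem dev_Eqv_zero : dev_Eqv (0 : A →ₗ[k] B) := fun s a => by
  rw [LinearMap.zero_apply, LinearMap.zero_apply, map_zero]

theorem dev_Eqv.add {g h : A →ₗ[k] B} (hg : dev_Eqv g) (hh : dev_Eqv h) : dev_Eqv (g + h) :=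
  fun s a => by
    rw [LinearMap.add_apply, LinearMap.add_apply, hg, hh, map_add]

theorem dev_Eqv.neg {g : A →ₗ[k] B} (hg : dev_Eqv g) : dev_Eqv (-g) := fun s a => by
  rw [LinearMap.neg_apply, LinearMap.neg_apply, hg, map_neg]

theorem dev_Eqv.sub {g h : A →ₗ[k] B} (hg : dev_Eqv g) (hh : dev_Eqv h) : dev_Eqv (g - h) :=
  fun s a => by
    rw [LinearMap.sub_apply, LinearMap.sub_apply, hg, hh, map_sub]

theorem dev_Eqv.smul {g : A →ₗ[k] B} (hg : dev_Eqv g) (c : k) : dev_Eqv (c • g) := fun s a => by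
  rw [LinearMap.smul_apply, LinearMap.smul_apply, hg, map_smul]

theorem dev_Eqv_sum {ι : Type*} (s : Finset ι) {g : ι → (A →ₗ[k] B)}
    (hg : ∀ i ∈ s, dev_Eqv (g i)) : dev_Eqv (∑ i ∈ s, g i) := by
  classical
  induction s using Finset.induction_on with
  | empty => simpa using (dev_Eqv_zero (A := A) (B := B))
  | insert a s ha ih =>
    rw [Finset.sum_insert ha]
    exact (hg a (Finset.mem_insert_self a s)).add
      (ih fun i hi => hg i (Finset.mem_insert_of_mem hi))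

end Eqv

variable {p : ℕ} [Fact p.Prime] (S : Finset Nat.Primes) {A B C : Rep (ZMod p) s55_GQ}

/-! ### `H²_c` -/

theorem dev_coneH_congr {g h : A →ₗ[ZMod p] B} (e : g = h) (hg : dev_Eqv g) (hh : dev_Eqv h) :
    dev_coneH S hg = dev_coneH S hh := by
  subst e
  rfl

theorem dev_coneH_id (h : dev_Eqv (LinearMap.id : A →ₗ[ZMod p] A)) (w : cone_H S A) :
    dev_coneH S h w = w := by
  obtain ⟨x, rfl⟩ := Submodule.Quotient.mk_surjective _ w
  rfl

theorem dev_coneH_comp {g : A →ₗ[ZMod p] B} {h : B →ₗ[ZMod p] C} (hg : dev_Eqv g)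
    (hh : dev_Eqv h) (hhg : dev_Eqv (h ∘ₗ g)) (w : cone_H S A) :
    dev_coneH S hhg w = dev_coneH S hh (dev_coneH S hg w) := by
  obtain ⟨x, rfl⟩ := Submodule.Quotient.mk_surjective _ w
  rfl

theorem dev_coneH_zero (h : dev_Eqv (0 : A →ₗ[ZMod p] B)) (w : cone_H S A) :
    dev_coneH S h w = 0 := by
  obtain ⟨x, rfl⟩ := Submodule.Quotient.mk_surjective _ w
  rw [dev_coneH_mk]
  have : dev_coneZ S h x = 0 := by
    apply Subtype.ext
    rw [dev_coneZ_coe]
    rfl
  rw [this]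
  rfl

theorem dev_coneH_add {g h : A →ₗ[ZMod p] B} (hg : dev_Eqv g) (hh : dev_Eqv h)
    (hgh : dev_Eqv (g + h)) (w : cone_H S A) :
    dev_coneH S hgh w = dev_coneH S hg w + dev_coneH S hh w := by
  obtain ⟨x, rfl⟩ := Submodule.Quotient.mk_surjective _ w
  rw [dev_coneH_mk, dev_coneH_mk, dev_coneH_mk]
  have : dev_coneZ S hgh x = dev_coneZ S hg x + dev_coneZ S hh x := by
    apply Subtype.ext
    rfl
  rw [this]
  rfl

theorem dev_coneH_smul {g : A →ₗ[ZMod p] B} (hg : dev_Eqv g) (c : ZMod p)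
    (hcg : dev_Eqv (c • g)) (w : cone_H S A) :
    dev_coneH S hcg w = c • dev_coneH S hg w := by
  obtain ⟨x, rfl⟩ := Submodule.Quotient.mk_surjective _ w
  rw [dev_coneH_mk, dev_coneH_mk]
  have : dev_coneZ S hcg x = c • dev_coneZ S hg x := by
    apply Subtype.ext
    rfl
  rw [this]
  rfl

theorem dev_coneH_sum {ι : Type*} (s : Finset ι) {g : ι → (A →ₗ[ZMod p] B)}
    (hg : ∀ i, dev_Eqv (g i)) (hs : dev_Eqv (∑ i ∈ s, g i)) (w : cone_H S A) :
    dev_coneH S hs w = ∑ i ∈ s, dev_coneH S (hg i) w := by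
  classical
  induction s using Finset.induction_on with
  | empty =>
    have e : (∑ i ∈ (∅ : Finset ι), g i) = 0 := Finset.sum_empty
    rw [dev_coneH_congr S e hs dev_Eqv_zero, dev_coneH_zero, Finset.sum_empty]
  | insert a s ha ih =>
    have e : (∑ i ∈ insert a s, g i) = g a + ∑ i ∈ s, g i := Finset.sum_insert ha
    have h2 : dev_Eqv (∑ i ∈ s, g i) := dev_Eqv_sum s fun i _ => hg i
    rw [dev_coneH_congr S e hs ((hg a).add h2), dev_coneH_add S (hg a) h2, ih h2,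
      Finset.sum_insert ha]

/-! ### `∏_v H²_v` -/

theorem dev_H2loc_congr {g h : A →ₗ[ZMod p] B} (e : g = h) (hg : dev_Eqv g) (hh : dev_Eqv h) :
    dev_H2loc S hg = dev_H2loc S hh := by
  subst e
  rfl

theorem dev_H2v_π {g : A →ₗ[ZMod p] B} (hg : dev_Eqv g) (v : extArithIndex S)
    (c : ↥(levelCocycles₂ (extArithLoc S v) (Rep.res (extArithLoc S v) A))) :
    dev_H2v S hg v (continuousH2π _ _ c) =
      continuousH2π _ _ (levelCocycles₂Map (MonoidHom.id (extArithLocalGroups S v))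
        (fun _ => rfl) (A := Rep.res (extArithLoc S v) A) (B := Rep.res (extArithLoc S v) B) g
        (fun s a => hg (extArithLoc S v s) a) c) := rfl

theorem dev_H2loc_id (h : dev_Eqv (LinearMap.id : A →ₗ[ZMod p] A)) (η : dev_H2locT S A) :
    dev_H2loc S h η = η := by
  funext v
  rw [dev_H2loc_apply]
  obtain ⟨c, hc⟩ := Submodule.Quotient.mk_surjective _ (η v)
  rw [← hc]
  rfl

theorem dev_H2loc_comp {g : A →ₗ[ZMod p] B} {h : B →ₗ[ZMod p] C} (hg : dev_Eqv g)
    (hh : dev_Eqv h) (hhg : dev_Eqv (h ∘ₗ g)) (η : dev_H2locT S A) :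
    dev_H2loc S hhg η = dev_H2loc S hh (dev_H2loc S hg η) := by
  funext v
  rw [dev_H2loc_apply, dev_H2loc_apply, dev_H2loc_apply]
  obtain ⟨c, hc⟩ := Submodule.Quotient.mk_surjective _ (η v)
  rw [← hc]
  rfl

theorem dev_H2loc_zero (h : dev_Eqv (0 : A →ₗ[ZMod p] B)) (η : dev_H2locT S A) :
    dev_H2loc S h η = 0 := by
  funext v
  rw [dev_H2loc_apply]
  obtain ⟨c, hc⟩ := Submodule.Quotient.mk_surjective _ (η v)
  rw [← hc]
  change continuousH2π _ _ _ = 0
  rw [continuousH2π_eq_zero_iff]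
  have e : ((levelCocycles₂Map (MonoidHom.id (extArithLocalGroups S v)) (fun _ => rfl)
      (A := Rep.res (extArithLoc S v) A) (B := Rep.res (extArithLoc S v) B) 0
      (fun s a => h (extArithLoc S v s) a) c)).1 = 0 := rfl
  rw [e]
  exact Submodule.zero_mem _

theorem dev_H2loc_add {g h : A →ₗ[ZMod p] B} (hg : dev_Eqv g) (hh : dev_Eqv h)
    (hgh : dev_Eqv (g + h)) (η : dev_H2locT S A) :
    dev_H2loc S hgh η = dev_H2loc S hg η + dev_H2loc S hh η := by
  funext v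
  rw [Pi.add_apply, dev_H2loc_apply, dev_H2loc_apply, dev_H2loc_apply]
  obtain ⟨c, hc⟩ := Submodule.Quotient.mk_surjective _ (η v)
  rw [← hc]
  change continuousH2π _ _ _ = continuousH2π _ _ _ + continuousH2π _ _ _
  rw [← map_add]
  congr 1

theorem dev_H2loc_sum {ι : Type*} (s : Finset ι) {g : ι → (A →ₗ[ZMod p] B)}
    (hg : ∀ i, dev_Eqv (g i)) (hs : dev_Eqv (∑ i ∈ s, g i)) (η : dev_H2locT S A) :
    dev_H2loc S hs η = ∑ i ∈ s, dev_H2loc S (hg i) η := by
  classical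
  induction s using Finset.induction_on with
  | empty =>
    have e : (∑ i ∈ (∅ : Finset ι), g i) = 0 := Finset.sum_empty
    rw [dev_H2loc_congr S e hs dev_Eqv_zero, dev_H2loc_zero, Finset.sum_empty]
  | insert a s ha ih =>
    have e : (∑ i ∈ insert a s, g i) = g a + ∑ i ∈ s, g i := Finset.sum_insert ha
    have h2 : dev_Eqv (∑ i ∈ s, g i) := dev_Eqv_sum s fun i _ => hg i
    rw [dev_H2loc_congr S e hs ((hg a).add h2), dev_H2loc_add S (hg a) h2, ih h2,
      Finset.sum_insert ha]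

/-! ### The Tate dual -/

theorem dev_dual_id : dev_dual (LinearMap.id : A →ₗ[ZMod p] A) = LinearMap.id := rfl

theorem dev_dual_comp (g : A →ₗ[ZMod p] B) (h : B →ₗ[ZMod p] C) :
    dev_dual (h ∘ₗ g) = dev_dual g ∘ₗ dev_dual h := rfl

theorem dev_dual_zero : dev_dual (0 : A →ₗ[ZMod p] B) = 0 := by
  apply LinearMap.ext
  intro φ
  apply LinearMap.ext
  intro a
  change (show Module.Dual (ZMod p) B from φ) ((0 : A →ₗ[ZMod p] B) a) = 0
  rw [LinearMap.zero_apply, map_zero]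

theorem dev_dual_add (g h : A →ₗ[ZMod p] B) : dev_dual (g + h) = dev_dual g + dev_dual h := by
  apply LinearMap.ext
  intro φ
  apply LinearMap.ext
  intro a
  change (show Module.Dual (ZMod p) B from φ) ((g + h) a) =
    (show Module.Dual (ZMod p) B from φ) (g a) + (show Module.Dual (ZMod p) B from φ) (h a)
  rw [LinearMap.add_apply, map_add]

theorem dev_dual_smul (c : ZMod p) (g : A →ₗ[ZMod p] B) : dev_dual (c • g) = c • dev_dual g := by
  apply LinearMap.ext
  intro φ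
  apply LinearMap.ext
  intro a
  change (show Module.Dual (ZMod p) B from φ) ((c • g) a) =
    c • (show Module.Dual (ZMod p) B from φ) (g a)
  rw [LinearMap.smul_apply, map_smul]

theorem dev_dual_sum {ι : Type*} (s : Finset ι) (g : ι → (A →ₗ[ZMod p] B)) :
    dev_dual (∑ i ∈ s, g i) = ∑ i ∈ s, dev_dual (g i) := by
  classical
  induction s using Finset.induction_on with
  | empty => rw [Finset.sum_empty, Finset.sum_empty, dev_dual_zero]
  | insert a s ha ih => rw [Finset.sum_insert ha, Finset.sum_insert ha, dev_dual_add, ih]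

/-! ### `H⁰` -/

theorem dev_H0_congr {g h : A →ₗ[ZMod p] B} (e : g = h) (hg : dev_Eqv g) (hh : dev_Eqv h) :
    dev_H0 hg = dev_H0 hh := by
  subst e
  rfl

theorem dev_H0_id (h : dev_Eqv (LinearMap.id : A →ₗ[ZMod p] A)) (m : ↥(A.ρ.invariants)) :
    dev_H0 h m = m := rfl

theorem dev_H0_comp {g : A →ₗ[ZMod p] B} {h : B →ₗ[ZMod p] C} (hg : dev_Eqv g)
    (hh : dev_Eqv h) (hhg : dev_Eqv (h ∘ₗ g)) (m : ↥(A.ρ.invariants)) :
    dev_H0 hhg m = dev_H0 hh (dev_H0 hg m) := rfl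

theorem dev_H0_zero (h : dev_Eqv (0 : A →ₗ[ZMod p] B)) (m : ↥(A.ρ.invariants)) :
    dev_H0 h m = 0 := rfl

theorem dev_H0_add {g h : A →ₗ[ZMod p] B} (hg : dev_Eqv g) (hh : dev_Eqv h)
    (hgh : dev_Eqv (g + h)) (m : ↥(A.ρ.invariants)) :
    dev_H0 hgh m = dev_H0 hg m + dev_H0 hh m := rfl

theorem dev_H0_sum {ι : Type*} (s : Finset ι) {g : ι → (A →ₗ[ZMod p] B)}
    (hg : ∀ i, dev_Eqv (g i)) (hs : dev_Eqv (∑ i ∈ s, g i)) (m : ↥(A.ρ.invariants)) :
    dev_H0 hs m = ∑ i ∈ s, dev_H0 (hg i) m := by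
  classical
  induction s using Finset.induction_on with
  | empty =>
    have e : (∑ i ∈ (∅ : Finset ι), g i) = 0 := Finset.sum_empty
    rw [dev_H0_congr e hs dev_Eqv_zero, dev_H0_zero, Finset.sum_empty]
  | insert a s ha ih =>
    have e : (∑ i ∈ insert a s, g i) = g a + ∑ i ∈ s, g i := Finset.sum_insert ha
    have h2 : dev_Eqv (∑ i ∈ s, g i) := dev_Eqv_sum s fun i _ => hg i
    rw [dev_H0_congr e hs ((hg a).add h2), dev_H0_add (hg a) h2, ih h2,
      Finset.sum_insert ha]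

/-! ### `H¹_S` -/

theorem dev_H1S_congr {g h : A →ₗ[ZMod p] B} (e : g = h) (hg : dev_Eqv g) (hh : dev_Eqv h) :
    dev_H1S S hg = dev_H1S S hh := by
  subst e
  rfl

theorem dev_H1S_exists_cls (y : ↥(continuousH1S S A)) :
    ∃ (z : cocycles₁ A) (hz : IsLevelConstantS₁ S z), y = pt_cls1 S A z hz := by
  obtain ⟨z, hz, e⟩ := (mem_continuousH1S_iff S A y.1).1 y.2
  exact ⟨z, hz, Subtype.ext e.symm⟩

theorem dev_H1S_id (h : dev_Eqv (LinearMap.id : A →ₗ[ZMod p] A)) (y : ↥(continuousH1S S A)) :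
    dev_H1S S h y = y := by
  obtain ⟨z, hz, rfl⟩ := dev_H1S_exists_cls S y
  apply Subtype.ext
  change dev_H1 h ((H1π A).hom z) = (H1π A).hom z
  rw [dev_H1_π]
  rfl

theorem dev_H1S_comp {g : A →ₗ[ZMod p] B} {h : B →ₗ[ZMod p] C} (hg : dev_Eqv g)
    (hh : dev_Eqv h) (hhg : dev_Eqv (h ∘ₗ g)) (y : ↥(continuousH1S S A)) :
    dev_H1S S hhg y = dev_H1S S hh (dev_H1S S hg y) := by
  obtain ⟨z, hz, rfl⟩ := dev_H1S_exists_cls S y
  apply Subtype.ext
  change dev_H1 hhg ((H1π A).hom z) = dev_H1 hh (dev_H1 hg ((H1π A).hom z))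
  rw [dev_H1_π, dev_H1_π, dev_H1_π]
  rfl

theorem dev_H1S_zero (h : dev_Eqv (0 : A →ₗ[ZMod p] B)) (y : ↥(continuousH1S S A)) :
    dev_H1S S h y = 0 := by
  obtain ⟨z, hz, rfl⟩ := dev_H1S_exists_cls S y
  apply Subtype.ext
  change dev_H1 h ((H1π A).hom z) = 0
  rw [dev_H1_π]
  have : dev_Z1 h z = 0 := Subtype.ext rfl
  rw [this, map_zero]

theorem dev_H1S_add {g h : A →ₗ[ZMod p] B} (hg : dev_Eqv g) (hh : dev_Eqv h)
    (hgh : dev_Eqv (g + h)) (y : ↥(continuousH1S S A)) :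
    dev_H1S S hgh y = dev_H1S S hg y + dev_H1S S hh y := by
  obtain ⟨z, hz, rfl⟩ := dev_H1S_exists_cls S y
  apply Subtype.ext
  change dev_H1 hgh ((H1π A).hom z) = dev_H1 hg ((H1π A).hom z) + dev_H1 hh ((H1π A).hom z)
  rw [dev_H1_π, dev_H1_π, dev_H1_π]
  have : dev_Z1 hgh z = dev_Z1 hg z + dev_Z1 hh z := Subtype.ext rfl
  rw [this, map_add]

theorem dev_H1S_sum {ι : Type*} (s : Finset ι) {g : ι → (A →ₗ[ZMod p] B)}
    (hg : ∀ i, dev_Eqv (g i)) (hs : dev_Eqv (∑ i ∈ s, g i)) (y : ↥(continuousH1S S A)) :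
    dev_H1S S hs y = ∑ i ∈ s, dev_H1S S (hg i) y := by
  classical
  induction s using Finset.induction_on with
  | empty =>
    have e : (∑ i ∈ (∅ : Finset ι), g i) = 0 := Finset.sum_empty
    rw [dev_H1S_congr S e hs dev_Eqv_zero, dev_H1S_zero, Finset.sum_empty]
  | insert a s ha ih =>
    have e : (∑ i ∈ insert a s, g i) = g a + ∑ i ∈ s, g i := Finset.sum_insert ha
    have h2 : dev_Eqv (∑ i ∈ s, g i) := dev_Eqv_sum s fun i _ => hg i
    rw [dev_H1S_congr S e hs ((hg a).add h2), dev_H1S_add S (hg a) h2, ih h2,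
      Finset.sum_insert ha]

/-! ### `H²_S` -/

theorem dev_H2S_comp {g : A →ₗ[ZMod p] B} {h : B →ₗ[ZMod p] C} (hg : dev_Eqv g)
    (hh : dev_Eqv h) (hhg : dev_Eqv (h ∘ₗ g)) (z : continuousH2S S A) :
    dev_H2S S hhg z = dev_H2S S hh (dev_H2S S hg z) := by
  obtain ⟨c, rfl⟩ := Submodule.Quotient.mk_surjective _ z
  rfl

end Fermat.Agent.S55
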