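/-
S55 (Poitou-Tate), package [DEV], tools for [N2] (helper16).  Prefix `dnat_`.

* `dnat_cup₂₁_cocycle₃` : the cup product of a 2-cocycle and a 1-cocycle is a 3-cocycle;
* `dnat_cup₂₁_levelS`   : it is level-`S` for admissible coefficients;
* `dnat_exists_eps`     : (from [H3VAN] for `F_p(1)`) for `x ∈ cone_Z S M` and a level-`S` cocycle
                          `y` of `M'` there is a level-`S` cochain `ε` with `d ε = c ∪ y`;
* `dnat_hcoc`           : for such `ε` the local cochains `b_v ∪ loc_v y - loc_v ε` are continuous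
                          2-cocycles (the hypothesis `hcoc` of `pt_IsTheta`).
-/
import Mathlib
import Fermat.Agent.S55.Dev.Defs
import Fermat.Agent.S55.Dev.Funct
import Fermat.Agent.S55.CoverOfField

set_option autoImplicit false
set_option linter.style.haveILetI false
set_option maxHeartbeats 1000000
set_option synthInstance.maxHeartbeats 400000
open CategoryTheory Module groupCohomology ExtCitation

namespace Fermat.Agent.S55

variable {p : ℕ} [Fact p.Prime] (S : Finset Nat.Primes)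

theorem dnat_T_finite : FiniteDimensional (ZMod p) (pt_T p) := by
  change Module.Finite (ZMod p) (ZMod p)
  infer_instance

theorem dnat_dual_finite (M : Rep.{0, 0, 0} (ZMod p) s55_GQ) [FiniteDimensional (ZMod p) M] :
    FiniteDimensional (ZMod p) (M.dualTwist (cycloChar p)) := by
  change Module.Finite (ZMod p) (Module.Dual (ZMod p) M)
  infer_instance

section Cup

variable {k Γ : Type} [CommRing k] [Group Γ] {A A' B : Rep k Γ} {φ : A →ₗ[k] A' →ₗ[k] B}

/-- Leibniz in degrees `(2,1)` for cocycles: the cup product of a 2-cocycle and a 1-cocycle is a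
3-cocycle. -/
theorem dnat_cup₂₁_cocycle₃ (hφ : cup_Equivariant φ) (c : Γ × Γ → A) (y : Γ → A')
    (hc : (d₂₃ A).hom c = 0) (hy : (d₁₂ A').hom y = 0) : pt_IsCocycle₃ B (cup₂₁ φ c y) := by
  intro g h j l
  have h2 : ∀ h j : Γ, y (h * j) = A'.ρ h (y j) + y h :=
    (mem_cocycles₁_iff y).1 (LinearMap.mem_ker.2 hy)
  have h3 : ∀ g h j : Γ, c (g * h, j) + c (g, h) = A.ρ g (c (h, j)) + c (g, h * j) :=
    (mem_cocycles₂_iff c).1 (LinearMap.mem_ker.2 hc)
  have h4 : A.ρ g (c (h, j)) = c (g * h, j) + c (g, h) - c (g, h * j) := by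
    rw [h3]; abel
  have e : ∀ (g : Γ) (a : A) (a' : A'), B.ρ g (φ a a') = φ (A.ρ g a) (A'.ρ g a') :=
    fun g a a' => (hφ g a a').symm
  simp only [cup₂₁_apply, e, h2, h4, map_add, map_sub, map_mul, Module.End.mul_apply,
    LinearMap.add_apply, LinearMap.sub_apply, mul_assoc]
  abel

end Cup

section Level

variable (M : Rep.{0, 0, 0} (ZMod p) s55_GQ)

/-- A common level, unramified outside `S`, on which the Tate dual of an admissible module is
trivial. -/
theorem dnat_dual_level (hD : pt_DualAdmStatement) (hp2 : p ≠ 2) (hpS : pPrime p ∈ S)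
    [FiniteDimensional (ZMod p) M] (hsm : s55_Smooth M) (hur : s55_UnramOutside S M) :
    ∃ F : IntermediateField ℚ (AlgebraicClosure ℚ), F.IsUnramifiedOutside S ∧
      ∀ s ∈ F.fixingSubgroup, ∀ f : M.dualTwist (cycloChar p),
        (M.dualTwist (cycloChar p)).ρ s f = f := by
  obtain ⟨hsm', hur'⟩ := hD hp2 S hpS M hsm hur
  haveI := dnat_dual_finite M
  obtain ⟨h1, _, _, h4⟩ := cov_K_spec p (M.dualTwist (cycloChar p)) hsm' S hpS hur'
  exact ⟨_, h1, h4⟩

variable {S M}

/-- the cup product of a level-`S` 2-cochain and a level-`S` 1-cochain is level-`S`, if the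
action on the second factor is trivial on a level unramified outside `S`. -/
theorem dnat_cup₂₁_levelS
    (hlev : ∃ F : IntermediateField ℚ (AlgebraicClosure ℚ), F.IsUnramifiedOutside S ∧
      ∀ s ∈ F.fixingSubgroup, ∀ f : M.dualTwist (cycloChar p),
        (M.dualTwist (cycloChar p)).ρ s f = f)
    {c : s55_GQ × s55_GQ → M} (hc : IsLevelConstantS₂ S c)
    {y : s55_GQ → M.dualTwist (cycloChar p)} (hy : IsLevelConstantS₁ S y) :
    pt_IsLevelS₃ S (cup₂₁ (pt_ev M) c y) := by
  obtain ⟨F, hF, hfix⟩ := hlev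
  obtain ⟨Fc, hFc, hc'⟩ := hc
  obtain ⟨Fy, hFy, hy'⟩ := hy
  refine ⟨Fc ⊔ Fy ⊔ F, (hFc.sup hFy).sup hF, fun g g' g'' s s' s'' hs hs' hs'' => ?_⟩
  have hs1 : s ∈ Fc.fixingSubgroup :=
    IntermediateField.fixingSubgroup_antitone (le_sup_left.trans le_sup_left) hs
  have hs1' : s' ∈ Fc.fixingSubgroup :=
    IntermediateField.fixingSubgroup_antitone (le_sup_left.trans le_sup_left) hs'
  have hs2'' : s'' ∈ Fy.fixingSubgroup :=
    IntermediateField.fixingSubgroup_antitone (le_sup_right.trans le_sup_left) hs''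
  have hs3 : s ∈ F.fixingSubgroup := IntermediateField.fixingSubgroup_antitone le_sup_right hs
  have hs3' : s' ∈ F.fixingSubgroup := IntermediateField.fixingSubgroup_antitone le_sup_right hs'
  rw [cup₂₁_apply, cup₂₁_apply, hc' g g' s s' hs1 hs1', hy' g'' s'' hs2'']
  congr 1
  rw [map_mul, map_mul, map_mul, map_mul]
  simp only [Module.End.mul_apply]
  rw [hfix s' hs3', hfix s hs3]

end Level

section Local

variable (A : Rep.{0, 0, 0} (ZMod p) s55_GQ) (v : extArithIndex S)

/-- restriction of 3-cochains to the place `v`. -/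
noncomputable def dnat_loc₃ (z : s55_GQ × s55_GQ × s55_GQ → A) :
    extArithLocalGroups S v × extArithLocalGroups S v × extArithLocalGroups S v →
      Rep.res (extArithLoc S v) A :=
  fun x => z (extArithLoc S v x.1, extArithLoc S v x.2.1, extArithLoc S v x.2.2)

/-- restriction commutes with `d₂₃`. -/
theorem dnat_loc₂_d₂₃ (ε : s55_GQ × s55_GQ → A) :
    (d₂₃ (Rep.res (extArithLoc S v) A)).hom (cone_loc₂ S A v ε) =
      dnat_loc₃ S A v ((d₂₃ A).hom ε) := by
  funext ⟨s, t, u⟩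
  simp only [d₂₃_hom_apply, dnat_loc₃, cochainsPullPush₂_apply, LinearMap.id_apply, map_mul]
  rfl

/-- restriction commutes with `d₁₂`. -/
theorem dnat_loc₁_d₁₂ (y : s55_GQ → A) :
    (d₁₂ (Rep.res (extArithLoc S v) A)).hom (cone_loc₁ S A v y) =
      cone_loc₂ S A v ((d₁₂ A).hom y) := by
  funext ⟨s, t⟩
  simp only [d₁₂_hom_apply, cochainsPullPush₂_apply, cochainsPullPush₁_apply,
    LinearMap.id_apply, map_mul]
  rfl

/-- restriction commutes with the cup product in degrees `(2,1)`. -/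
theorem dnat_loc_cup₂₁ (c : s55_GQ × s55_GQ → A) (y : s55_GQ → A.dualTwist (cycloChar p)) :
    cup₂₁ (pt_evv S v A) (cone_loc₂ S A v c) (cone_loc₁ S (A.dualTwist (cycloChar p)) v y) =
      dnat_loc₃ S (pt_T p) v (cup₂₁ (pt_ev A) c y) := by
  funext ⟨s, t, u⟩
  simp only [cup₂₁_apply, dnat_loc₃, cochainsPullPush₂_apply, cochainsPullPush₁_apply,
    LinearMap.id_apply, map_mul]
  rfl

theorem dnat_loc₁_level {X : Type*} {y : s55_GQ → X} (hy : IsLevelConstantS₁ S y) :
    IsLevelConstant₁ (extArithLoc S v) (fun s => y (extArithLoc S v s)) := by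
  obtain ⟨F, hF, h⟩ := hy
  refine ⟨F, hF.1, fun g s hs => ?_⟩
  change y (extArithLoc S v (g * s)) = y (extArithLoc S v g)
  rw [map_mul]
  exact h _ _ hs

theorem dnat_loc₂_level {X : Type*} {ε : s55_GQ × s55_GQ → X} (hε : IsLevelConstantS₂ S ε) :
    IsLevelConstant₂ (extArithLoc S v)
      (fun x => ε (extArithLoc S v x.1, extArithLoc S v x.2)) := by
  obtain ⟨F, hF, h⟩ := hε
  refine ⟨F, hF.1, fun g g' s s' hs hs' => ?_⟩
  change ε (extArithLoc S v (g * s), extArithLoc S v (g' * s')) =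
    ε (extArithLoc S v g, extArithLoc S v g')
  rw [map_mul, map_mul]
  exact h _ _ _ _ hs hs'

end Local

section Eps

variable (M : Rep.{0, 0, 0} (ZMod p) s55_GQ) [FiniteDimensional (ZMod p) M]

/-- **existence of `ε`** (from [H3VAN] for `F_p(1)`). -/
theorem dnat_exists_eps (hT : pt_TAdmStatement) (hD : pt_DualAdmStatement)
    (hH3 : pt_H3VanStatement) (hp2 : p ≠ 2) (hpS : pPrime p ∈ S)
    (hsm : s55_Smooth M) (hur : s55_UnramOutside S M)
    (x : ↥(cone_Z S M)) (y : cocycles₁ (M.dualTwist (cycloChar p)))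
    (hy : IsLevelConstantS₁ S y) :
    ∃ ε : s55_GQ × s55_GQ → pt_T p, IsLevelConstantS₂ S ε ∧
      (d₂₃ (pt_T p)).hom ε = cup₂₁ (pt_ev M) x.1.1 y := by
  haveI := dnat_T_finite (p := p)
  obtain ⟨hTsm, hTur⟩ := hT hp2 S hpS
  have hx := x.2.1
  have hc0 : (d₂₃ M).hom x.1.1 = 0 := hx.1
  have hy0 : (d₁₂ (M.dualTwist (cycloChar p))).hom
      (y : s55_GQ → M.dualTwist (cycloChar p)) = 0 := y.2
  exact hH3 hp2 S hpS (pt_T p) hTsm hTur _
    (dnat_cup₂₁_levelS (dnat_dual_level S M hD hp2 hpS hsm hur) hx.2 hy)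
    (dnat_cup₂₁_cocycle₃ (pt_ev_equivariant M) _ _ hc0 hy0)

/-- **the hypothesis `hcoc` of `pt_IsTheta`** holds for every `ε` with `d ε = c ∪ y`. -/
theorem dnat_hcoc (hCL : pt_CupLevelStatement) (hp2 : p ≠ 2) (hpS : pPrime p ∈ S)
    (hsm : s55_Smooth M) (hur : s55_UnramOutside S M)
    (x : ↥(cone_Z S M)) (y : cocycles₁ (M.dualTwist (cycloChar p)))
    (hy : IsLevelConstantS₁ S y)
    (ε : s55_GQ × s55_GQ → pt_T p) (hε : IsLevelConstantS₂ S ε)
    (hd : (d₂₃ (pt_T p)).hom ε = cup₂₁ (pt_ev M) x.1.1 y) (v : extArithIndex S) :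
    cup₁₁ (pt_evv S v M) (x.1.2 v) (cone_loc₁ S (M.dualTwist (cycloChar p)) v y) -
        cone_loc₂ S (pt_T p) v ε ∈
      levelCocycles₂ (extArithLoc S v) (Rep.res (extArithLoc S v) (pt_T p)) := by
  have hy0 : (d₁₂ (M.dualTwist (cycloChar p))).hom
      (y : s55_GQ → M.dualTwist (cycloChar p)) = 0 := y.2
  have hlocy : (d₁₂ (Rep.res (extArithLoc S v) (M.dualTwist (cycloChar p)))).hom
      (cone_loc₁ S (M.dualTwist (cycloChar p)) v y) = 0 := by
    rw [dnat_loc₁_d₁₂, hy0, map_zero]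
  refine ⟨?_, ?_⟩
  · change (d₂₃ _).hom _ = 0
    rw [map_sub, cup_d₁₁ (pt_evv_equivariant S v M) _ _ hlocy, (x.2.2 v).2, dnat_loc_cup₂₁,
      dnat_loc₂_d₂₃, hd, sub_self]
  · change IsLevelConstant₂ (extArithLoc S v) _
    have h1 : IsLevelConstant₂ (extArithLoc S v)
        (cup₁₁ (pt_evv S v M) (x.1.2 v) (cone_loc₁ S (M.dualTwist (cycloChar p)) v y)) :=
      hCL hp2 S hpS M hsm hur v _ _ (x.2.2 v).1 (dnat_loc₁_level S v hy)
    have h2 : IsLevelConstant₂ (extArithLoc S v) (cone_loc₂ S (pt_T p) v ε) :=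
      dnat_loc₂_level S v hε
    exact Submodule.sub_mem
      (levelCochains₂ (extArithLoc S v) (Rep.res (extArithLoc S v) (pt_T p))) h1 h2

end Eps

end Fermat.Agent.S55
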