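/-
S55 (Poitou-Tate), package [DEV], sub-package [TH3-EX] (helper7).  Prefix `dth3_`.

`dth3_main : dev_Theta3ExStatement` : for every module `M` there is a linear map
`Θ₃ : ∏_v H²_cts(ℚ_v, M) → Dual H⁰(G_ℚ, M')` with `pt_IsTheta3`, namely
`Θ₃ ([c_v])_v m' = ∑_v inv_v [c_v ∪ m']`.
-/
import Mathlib
import Fermat.Agent.S55.Dev.Defs

set_option autoImplicit false
set_option linter.style.haveILetI false
set_option maxHeartbeats 1000000
set_option synthInstance.maxHeartbeats 400000
open CategoryTheory Module groupCohomology ExtCitation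

namespace Fermat.Agent.S55

variable {p : ℕ} [Fact p.Prime]

section local_part

variable (S : Finset Nat.Primes) (v : extArithIndex S) (M : Rep.{0, 0, 0} (ZMod p) s55_GQ)

/-- An invariant of `M'` is invariant under the local group. -/
theorem dth3_inv_apply (m' : ↥((M.dualTwist (cycloChar p)).ρ.invariants))
    (g : extArithLocalGroups S v) :
    (Rep.res (extArithLoc S v) (M.dualTwist (cycloChar p))).ρ g
      (m'.1 : Rep.res (extArithLoc S v) (M.dualTwist (cycloChar p))) = m'.1 :=
  m'.2 (extArithLoc S v g)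

theorem dth3_d₀₁ (m' : ↥((M.dualTwist (cycloChar p)).ρ.invariants)) :
    (d₀₁ (Rep.res (extArithLoc S v) (M.dualTwist (cycloChar p)))).hom
      (m'.1 : Rep.res (extArithLoc S v) (M.dualTwist (cycloChar p))) = 0 := by
  funext g
  rw [d₀₁_hom_apply]
  rw [dth3_inv_apply S v M m' g, sub_self]
  rfl

/-- `c ∪ m'` as a composition. -/
theorem dth3_cup₂₀_eq (c : extArithLocalGroups S v × extArithLocalGroups S v →
      Rep.res (extArithLoc S v) M)
    (m' : ↥((M.dualTwist (cycloChar p)).ρ.invariants)) :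
    cup₂₀ (pt_evv S v M) c
        (m'.1 : Rep.res (extArithLoc S v) (M.dualTwist (cycloChar p))) =
      (fun a : Rep.res (extArithLoc S v) M => pt_evv S v M a
        (m'.1 : Rep.res (extArithLoc S v) (M.dualTwist (cycloChar p)))) ∘ c := by
  funext x
  rw [cup₂₀, Function.comp_apply, dth3_inv_apply S v M m' (x.1 * x.2)]

theorem dth3_cup₁₀_eq (b : extArithLocalGroups S v → Rep.res (extArithLoc S v) M)
    (m' : ↥((M.dualTwist (cycloChar p)).ρ.invariants)) :
    cup₁₀ (pt_evv S v M) b
        (m'.1 : Rep.res (extArithLoc S v) (M.dualTwist (cycloChar p))) =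
      (fun a : Rep.res (extArithLoc S v) M => pt_evv S v M a
        (m'.1 : Rep.res (extArithLoc S v) (M.dualTwist (cycloChar p)))) ∘ b := by
  funext x
  rw [cup₁₀, Function.comp_apply, dth3_inv_apply S v M m' x]

/-- The cup product of a continuous local 2-cocycle with an invariant is a continuous local
2-cocycle. -/
theorem dth3_mem (c : extArithLocalGroups S v × extArithLocalGroups S v →
      Rep.res (extArithLoc S v) M)
    (hc : c ∈ levelCocycles₂ (extArithLoc S v) (Rep.res (extArithLoc S v) M))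
    (m' : ↥((M.dualTwist (cycloChar p)).ρ.invariants)) :
    cup₂₀ (pt_evv S v M) c
        (m'.1 : Rep.res (extArithLoc S v) (M.dualTwist (cycloChar p))) ∈
      levelCocycles₂ (extArithLoc S v) (Rep.res (extArithLoc S v) (pt_T p)) := by
  refine ⟨?_, ?_⟩
  · change (d₂₃ _).hom _ = 0
    have hc0 : (d₂₃ (Rep.res (extArithLoc S v) M)).hom c = 0 := hc.1
    rw [cup_d₂₀ (pt_evv_equivariant S v M) c _ hc0, dth3_d₀₁]
    funext ⟨g, h, j⟩
    rw [cup₂₁_apply, Pi.zero_apply, map_zero, map_zero]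
    rfl
  · rw [dth3_cup₂₀_eq]
    exact (IsLevelConstant₂.comp hc.2 _ :)

/-- The bilinear map `(c, m') ↦ c ∪ m'` on continuous local cocycles. -/
noncomputable def dth3_cupZ :
    ↥(levelCocycles₂ (extArithLoc S v) (Rep.res (extArithLoc S v) M)) →ₗ[ZMod p]
      ↥((M.dualTwist (cycloChar p)).ρ.invariants) →ₗ[ZMod p]
        ↥(levelCocycles₂ (extArithLoc S v) (Rep.res (extArithLoc S v) (pt_T p))) :=
  LinearMap.mk₂ (ZMod p)
    (fun c m' => ⟨cup₂₀ (pt_evv S v M) c.1
      (m'.1 : Rep.res (extArithLoc S v) (M.dualTwist (cycloChar p))), dth3_mem S v M c.1 c.2 m'⟩)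
    (fun c c' m' => by
      apply Subtype.ext
      funext x
      show cup₂₀ (pt_evv S v M) (c.1 + c'.1) _ x = cup₂₀ (pt_evv S v M) c.1 _ x +
        cup₂₀ (pt_evv S v M) c'.1 _ x
      simp only [cup₂₀, Pi.add_apply, map_add, LinearMap.add_apply])
    (fun a c m' => by
      apply Subtype.ext
      funext x
      show cup₂₀ (pt_evv S v M) (a • c.1) _ x = a • cup₂₀ (pt_evv S v M) c.1 _ x
      simp only [cup₂₀, Pi.smul_apply, map_smul, LinearMap.smul_apply])
    (fun c m' m'' => by
      apply Subtype.ext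
      funext x
      show cup₂₀ (pt_evv S v M) c.1 ((m' + m'' : ↥((M.dualTwist (cycloChar p)).ρ.invariants)).1 :
          Rep.res (extArithLoc S v) (M.dualTwist (cycloChar p))) x =
        cup₂₀ (pt_evv S v M) c.1 _ x + cup₂₀ (pt_evv S v M) c.1 _ x
      simp only [cup₂₀, Submodule.coe_add, map_add])
    (fun a c m' => by
      apply Subtype.ext
      funext x
      show cup₂₀ (pt_evv S v M) c.1 ((a • m' : ↥((M.dualTwist (cycloChar p)).ρ.invariants)).1 :
          Rep.res (extArithLoc S v) (M.dualTwist (cycloChar p))) x =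
        a • cup₂₀ (pt_evv S v M) c.1 _ x
      simp only [cup₂₀, Submodule.coe_smul, map_smul])

theorem dth3_cupZ_coe (c : ↥(levelCocycles₂ (extArithLoc S v) (Rep.res (extArithLoc S v) M)))
    (m' : ↥((M.dualTwist (cycloChar p)).ρ.invariants)) :
    ((dth3_cupZ S v M c m' : ↥(levelCocycles₂ (extArithLoc S v)
        (Rep.res (extArithLoc S v) (pt_T p)))) :
      extArithLocalGroups S v × extArithLocalGroups S v → Rep.res (extArithLoc S v) (pt_T p)) =
      cup₂₀ (pt_evv S v M) c.1
        (m'.1 : Rep.res (extArithLoc S v) (M.dualTwist (cycloChar p))) := rfl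

/-- `(c, m') ↦ inv_v [c ∪ m']` on cocycles. -/
noncomputable def dth3_L (inv : pt_InvFamily) :
    ↥(levelCocycles₂ (extArithLoc S v) (Rep.res (extArithLoc S v) M)) →ₗ[ZMod p]
      Module.Dual (ZMod p) ↥((M.dualTwist (cycloChar p)).ρ.invariants) :=
  (dth3_cupZ S v M).compr₂ ((inv p S v) ∘ₗ continuousH2π _ _)

theorem dth3_L_apply (inv : pt_InvFamily)
    (c : ↥(levelCocycles₂ (extArithLoc S v) (Rep.res (extArithLoc S v) M)))
    (m' : ↥((M.dualTwist (cycloChar p)).ρ.invariants)) :
    dth3_L S v M inv c m' = inv p S v (continuousH2π _ _ (dth3_cupZ S v M c m')) := rfl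

theorem dth3_L_ker (inv : pt_InvFamily) :
    (levelCoboundaries₂ (extArithLoc S v) (Rep.res (extArithLoc S v) M)).comap
        (levelCocycles₂ (extArithLoc S v) (Rep.res (extArithLoc S v) M)).subtype ≤
      LinearMap.ker (dth3_L S v M inv) := by
  intro c hc
  rw [LinearMap.mem_ker]
  ext m'
  rw [dth3_L_apply, LinearMap.zero_apply]
  have h0 : continuousH2π (extArithLoc S v) (Rep.res (extArithLoc S v) (pt_T p))
      (dth3_cupZ S v M c m') = 0 := by
    rw [continuousH2π_eq_zero_iff, dth3_cupZ_coe]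
    obtain ⟨b, hb, hbc⟩ := (mem_levelCoboundaries₂_iff _ _ _).1 hc
    rw [mem_levelCoboundaries₂_iff]
    refine ⟨cup₁₀ (pt_evv S v M) b
      (m'.1 : Rep.res (extArithLoc S v) (M.dualTwist (cycloChar p))), ?_, ?_⟩
    · rw [dth3_cup₁₀_eq]
      exact (IsLevelConstant₁.comp hb _ :)
    · rw [cup_d₁₀ (pt_evv_equivariant S v M), dth3_d₀₁]
      have hbc' : (d₁₂ (Rep.res (extArithLoc S v) M)).hom b = c.1 := hbc
      rw [hbc']
      funext ⟨g, h⟩
      rw [Pi.sub_apply, cup₁₁_apply, Pi.zero_apply, map_zero, map_zero, sub_zero]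
  rw [h0, map_zero]

/-- The local component of `Θ₃`. -/
noncomputable def dth3_Θv (inv : pt_InvFamily) :
    continuousH2 (extArithLoc S v) (Rep.res (extArithLoc S v) M) →ₗ[ZMod p]
      Module.Dual (ZMod p) ↥((M.dualTwist (cycloChar p)).ρ.invariants) :=
  Submodule.liftQ _ (dth3_L S v M inv) (dth3_L_ker S v M inv)

theorem dth3_Θv_mk (inv : pt_InvFamily)
    (c : ↥(levelCocycles₂ (extArithLoc S v) (Rep.res (extArithLoc S v) M)))
    (m' : ↥((M.dualTwist (cycloChar p)).ρ.invariants)) :
    dth3_Θv S v M inv (continuousH2π _ _ c) m' =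
      inv p S v (continuousH2π _ _ (dth3_cupZ S v M c m')) := rfl

end local_part

/-- `Θ₃`. -/
noncomputable def dth3_Θ (inv : pt_InvFamily) (S : Finset Nat.Primes)
    (M : Rep.{0, 0, 0} (ZMod p) s55_GQ) : dev_Th3 S M :=
  ∑ v : extArithIndex S, (dth3_Θv S v M inv) ∘ₗ LinearMap.proj v

theorem dth3_isTheta3 (inv : pt_InvFamily) (S : Finset Nat.Primes)
    (M : Rep.{0, 0, 0} (ZMod p) s55_GQ) : pt_IsTheta3 inv S M (dth3_Θ inv S M) := by
  intro c m' hcoc
  rw [dth3_Θ, LinearMap.sum_apply, LinearMap.sum_apply]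
  refine Finset.sum_congr rfl fun v _ => ?_
  rw [LinearMap.comp_apply, LinearMap.proj_apply, dth3_Θv_mk]
  rfl

/-- **[TH3-EX]** `Θ₃` exists (for every module; no hypothesis is needed). -/
theorem dth3_main : dev_Theta3ExStatement := by
  intro inv _ p _ _ S _ M _ _
  exact ⟨dth3_Θ inv S M, dth3_isTheta3 inv S M⟩

end Fermat.Agent.S55
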