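/-
S55 (Poitou-Tate), package [DEV], tools for the lifting arguments [E2] and [Δ0] (helper24).
Prefix `dlift_`.

* `dlift_exists_section`, `dlift_exists_retraction` : linear sections / retractions;
* `dlift_inv_d₁₂`, `dlift_inv_d₂₃` : the coboundary of a cochain which is right-invariant under a
  normal subgroup acting trivially on the coefficients is right-invariant;
* `dlift_d₂₃_isCocycle₃` : `d ∘ d = 0` in degree `2 → 3 → 4`;
* `dlift_adm_level` : an admissible module has a normal level field unramified outside `S`;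
* `dlift_level_d₁₂`, `dlift_level_d₂₃` (local), `dlift_levelS_d₂₃` (global): levels of coboundaries.
-/
import Mathlib
import Fermat.Agent.S55.Dev.Defs
import Fermat.Agent.S55.Dev.Funct
import Fermat.Agent.S55.Adm
import Fermat.Agent.S55.H3Grp
import Fermat.Agent.S55.Bridge.FinLevelG

set_option autoImplicit false
set_option linter.style.haveILetI false
set_option maxHeartbeats 1000000
set_option synthInstance.maxHeartbeats 400000
open CategoryTheory Module groupCohomology ExtCitation

namespace Fermat.Agent.S55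

local notation "Qbar" => AlgebraicClosure ℚ

/-! ### Linear algebra -/

section LinAlg

variable {k : Type*} [Field k] {N I X : Type*} [AddCommGroup N] [Module k N]
  [AddCommGroup I] [Module k I] [AddCommGroup X] [Module k X]

theorem dlift_exists_section (f : I →ₗ[k] X) (hf : Function.Surjective f) :
    ∃ s : X →ₗ[k] I, ∀ x, f (s x) = x := by
  obtain ⟨s, hs⟩ := f.exists_rightInverse_of_surjective (LinearMap.range_eq_top.2 hf)
  exact ⟨s, fun x => LinearMap.congr_fun hs x⟩

theorem dlift_exists_retraction (ι : N →ₗ[k] I) (hι : Function.Injective ι) :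
    ∃ r : I →ₗ[k] N, ∀ n, r (ι n) = n := by
  obtain ⟨r, hr⟩ := ι.exists_leftInverse_of_injective (LinearMap.ker_eq_bot.2 hι)
  exact ⟨r, fun n => LinearMap.congr_fun hr n⟩

end LinAlg

/-! ### Invariance of coboundaries under a normal subgroup -/

section Invariance

universe u

variable {k H : Type u} [CommRing k] [Group H] (A : Rep k H) (N : Subgroup H) [hN : N.Normal]

include hN in
theorem dlift_conj_mem (g s : H) (hs : s ∈ N) : g⁻¹ * s * g ∈ N := by
  have := hN.conj_mem s hs g⁻¹
  rwa [inv_inv] at this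

include hN in
/-- `g s g' s' = g g' t` with `t ∈ N`. -/
theorem dlift_mul_mul (g g' s s' : H) (hs : s ∈ N) (hs' : s' ∈ N) :
    ∃ t ∈ N, g * s * (g' * s') = g * g' * t :=
  ⟨g'⁻¹ * s * g' * s', N.mul_mem (dlift_conj_mem N g' s hs) hs', by group⟩

include hN in
theorem dlift_inv_d₁₂ (hA : ∀ s ∈ N, ∀ m : A, A.ρ s m = m) (b : H → A)
    (hb : ∀ g, ∀ s ∈ N, b (g * s) = b g) (g g' s s' : H) (hs : s ∈ N) (hs' : s' ∈ N) :
    (d₁₂ A).hom b (g * s, g' * s') = (d₁₂ A).hom b (g, g') := by
  obtain ⟨t, ht, e⟩ := dlift_mul_mul N g g' s s' hs hs'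
  simp only [d₁₂_hom_apply]
  rw [e, hb _ t ht, hb g' s' hs', hb g s hs, map_mul, Module.End.mul_apply, hA s hs]

include hN in
theorem dlift_inv_d₂₃ (hA : ∀ s ∈ N, ∀ m : A, A.ρ s m = m) (a : H × H → A)
    (ha : ∀ g g', ∀ s ∈ N, ∀ s' ∈ N, a (g * s, g' * s') = a (g, g'))
    (g g' g'' s s' s'' : H) (hs : s ∈ N) (hs' : s' ∈ N) (hs'' : s'' ∈ N) :
    (d₂₃ A).hom a (g * s, g' * s', g'' * s'') = (d₂₃ A).hom a (g, g', g'') := by
  obtain ⟨t, ht, e⟩ := dlift_mul_mul N g g' s s' hs hs'
  obtain ⟨t', ht', e'⟩ := dlift_mul_mul N g' g'' s' s'' hs' hs''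
  simp only [d₂₃_hom_apply]
  rw [e, e', ha _ _ t ht s'' hs'', ha g' g'' s' hs' s'' hs'', ha g _ s hs t' ht',
    ha g g' s hs s' hs', map_mul, Module.End.mul_apply, hA s hs]

end Invariance

/-! ### `d ∘ d = 0` in degree 3 -/

theorem dlift_d₂₃_isCocycle₃ {k H : Type} [CommRing k] [Group H] (A : Rep k H)
    (a : H × H → A) : pt_IsCocycle₃ A ((d₂₃ A).hom a) := by
  intro g h j l
  simp only [d₂₃_hom_apply, map_sub, map_add, mul_assoc]
  have e : ∀ x : A, A.ρ g (A.ρ h x) = A.ρ (g * h) x := fun x => by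
    rw [map_mul, Module.End.mul_apply]
  rw [e]
  abel

/-- a cochain which becomes a 3-cocycle after an injective equivariant map is a 3-cocycle. -/
theorem dlift_isCocycle₃_of_inj {k H : Type} [CommRing k] [Group H] {N I : Rep k H}
    (ι : N →ₗ[k] I) (hι : dev_Eqv ι) (hinj : Function.Injective ι) (z : H × H × H → N)
    (hz : pt_IsCocycle₃ I (fun x => ι (z x))) : pt_IsCocycle₃ N z := by
  intro g h j l
  apply hinj
  have e : ∀ s a, ι (N.ρ s a) = I.ρ s (ι a) := hι
  rw [map_zero, map_add, map_sub, map_add, map_sub, e]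
  exact hz g h j l

/-! ### Levels -/

section Levels

variable {p : ℕ} [Fact p.Prime]

/-- **admissible level**: an admissible module is fixed pointwise by the fixing subgroup of a
finite normal extension unramified outside `S`. -/
theorem dlift_adm_level (S : Finset Nat.Primes) (M : Rep (ZMod p) s55_GQ)
    [FiniteDimensional (ZMod p) M] (hM : dev_Adm S M) :
    ∃ (F : IntermediateField ℚ Qbar) (_ : Normal ℚ F), F.IsUnramifiedOutside S ∧
      ∀ s ∈ F.fixingSubgroup, ∀ m : M, M.ρ s m = m := by
  obtain ⟨F₀, hF₀, hfix⟩ := adm_uniform p M hM.1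
  haveI := hF₀
  -- the kernel of the action
  let P : Subgroup s55_GQ :=
    { carrier := {g | ∀ m : M, M.ρ g m = m}
      one_mem' := fun m => by rw [map_one]; rfl
      mul_mem' := fun {a b} ha hb m => by
        show M.ρ (a * b) m = m
        rw [map_mul, Module.End.mul_apply, hb m, ha m]
      inv_mem' := fun {a} ha m => by
        show M.ρ a⁻¹ m = m
        have h1 : M.ρ a⁻¹ (M.ρ a m) = m := by
          rw [← Module.End.mul_apply, ← map_mul, inv_mul_cancel, map_one]; rfl
        rw [ha m] at h1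
        exact h1 }
  have hle : F₀.fixingSubgroup ≤ P := fun s hs m => hfix s hs m
  obtain ⟨hPfix, hPle⟩ := h3g_fix_fixed P F₀ hle
  have hK : (IntermediateField.fixedField P).IsUnramifiedOutside S := by
    refine ⟨FiniteDimensional.of_injective (IntermediateField.inclusion hPle).toLinearMap
      (IntermediateField.inclusion_injective hPle), fun q hq A hA g hg => ?_⟩
    rw [hPfix]
    intro m
    have := hM.2 q hq A hA g hg
    rw [this]
    rfl
  obtain ⟨F, hn, hKF, -, hF⟩ := brg_common_level hK hK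
  refine ⟨F, hn, hF, fun s hs m => ?_⟩
  have h1 : s ∈ (IntermediateField.fixedField P).fixingSubgroup :=
    IntermediateField.fixingSubgroup_antitone hKF hs
  rw [hPfix] at h1
  exact h1 m

/-- the fixing subgroup of a normal subfield is a normal subgroup. -/
theorem dlift_fix_normal (F : IntermediateField ℚ Qbar) [hF : Normal ℚ F] :
    F.fixingSubgroup.Normal := by
  constructor
  intro s hs g
  rw [← brg_res_eq_one_iff] at hs ⊢
  rw [map_mul, map_mul, hs, mul_one, map_inv, mul_inv_cancel]

/-- the preimage of the fixing subgroup of a normal subfield. -/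
theorem dlift_comap_normal {H : Type*} [Group H] (φ : H →* s55_GQ)
    (F : IntermediateField ℚ Qbar) [hF : Normal ℚ F] : (F.fixingSubgroup.comap φ).Normal :=
  haveI := dlift_fix_normal F
  inferInstance

/-- a common finite normal level of two finite extensions. -/
theorem dlift_common_normal (F₀ F₁ : IntermediateField ℚ Qbar) (h₀ : FiniteDimensional ℚ F₀)
    (h₁ : FiniteDimensional ℚ F₁) :
    ∃ (F : IntermediateField ℚ Qbar) (_ : Normal ℚ F),
      F₀ ≤ F ∧ F₁ ≤ F ∧ FiniteDimensional ℚ F := by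
  -- every finite extension is unramified outside the set of ALL primes it needs; use `S = ∅`
  -- is not available, so build the normal closure directly
  haveI := h₀; haveI := h₁
  haveI : FiniteDimensional ℚ ↥(F₀ ⊔ F₁) := IntermediateField.finiteDimensional_sup F₀ F₁
  haveI : Normal ℚ Qbar := by
    haveI := h3g_isGalois
    exact IsGalois.to_normal
  exact ⟨IntermediateField.normalClosure ℚ ↥(F₀ ⊔ F₁) Qbar, normalClosure.normal ℚ _ Qbar,
    le_sup_left.trans (IntermediateField.le_normalClosure _),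
    le_sup_right.trans (IntermediateField.le_normalClosure _),
    normalClosure.is_finiteDimensional ℚ _ Qbar⟩

/-- **local level of `d₁₂`**: the coboundary of a continuous 1-cochain with values in a uniformly
smooth module is continuous. -/
theorem dlift_level_d₁₂ {H : Type} [Group H] (φ : H →* s55_GQ) (M : Rep (ZMod p) s55_GQ)
    (FM : IntermediateField ℚ Qbar) (hFM : FiniteDimensional ℚ FM)
    (hfix : ∀ s ∈ FM.fixingSubgroup, ∀ m : M, M.ρ s m = m)
    (b : H → Rep.res φ M) (hb : IsLevelConstant₁ φ b) :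
    IsLevelConstant₂ φ ((d₁₂ (Rep.res φ M)).hom b) := by
  obtain ⟨Fb, hFb, hb'⟩ := hb
  obtain ⟨F, hn, h0, h1, hF⟩ := dlift_common_normal Fb FM hFb hFM
  haveI := dlift_comap_normal φ F
  refine ⟨F, hF, fun g g' s s' hs hs' => ?_⟩
  exact dlift_inv_d₁₂ (Rep.res φ M) (F.fixingSubgroup.comap φ)
    (fun t ht m => hfix (φ t) (IntermediateField.fixingSubgroup_antitone h1 ht) m) b
    (fun g t ht => hb' g t (IntermediateField.fixingSubgroup_antitone h0 ht)) g g' s s' hs hs'

/-- **local level of `d₂₃`**. -/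
theorem dlift_level_d₂₃ {H : Type} [Group H] (φ : H →* s55_GQ) (M : Rep (ZMod p) s55_GQ)
    (FM : IntermediateField ℚ Qbar) (hFM : FiniteDimensional ℚ FM)
    (hfix : ∀ s ∈ FM.fixingSubgroup, ∀ m : M, M.ρ s m = m)
    (a : H × H → Rep.res φ M) (ha : IsLevelConstant₂ φ a) :
    pt_IsLevel₃ φ ((d₂₃ (Rep.res φ M)).hom a) := by
  obtain ⟨Fa, hFa, ha'⟩ := ha
  obtain ⟨F, hn, h0, h1, hF⟩ := dlift_common_normal Fa FM hFa hFM
  haveI := dlift_comap_normal φ F
  refine ⟨F, hF, fun g g' g'' s s' s'' hs hs' hs'' => ?_⟩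
  exact dlift_inv_d₂₃ (Rep.res φ M) (F.fixingSubgroup.comap φ)
    (fun t ht m => hfix (φ t) (IntermediateField.fixingSubgroup_antitone h1 ht) m) a
    (fun g g' t ht t' ht' => ha' g g' t t' (IntermediateField.fixingSubgroup_antitone h0 ht)
      (IntermediateField.fixingSubgroup_antitone h0 ht')) g g' g'' s s' s'' hs hs' hs''

/-- **global level of `d₂₃`**: the coboundary of a level-`S` 2-cochain with values in an
admissible module is level-`S`. -/
theorem dlift_levelS_d₂₃ (S : Finset Nat.Primes) (M : Rep (ZMod p) s55_GQ)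
    [FiniteDimensional (ZMod p) M] (hM : dev_Adm S M)
    (a : s55_GQ × s55_GQ → M) (ha : IsLevelConstantS₂ S a) :
    pt_IsLevelS₃ S ((d₂₃ M).hom a) := by
  obtain ⟨Fa, hFa, ha'⟩ := ha
  obtain ⟨FM, -, hFM, hfix⟩ := dlift_adm_level S M hM
  obtain ⟨F, hn, h0, h1, hF⟩ := brg_common_level hFa hFM
  haveI := dlift_fix_normal F
  refine ⟨F, hF, fun g g' g'' s s' s'' hs hs' hs'' => ?_⟩
  exact dlift_inv_d₂₃ M F.fixingSubgroup
    (fun t ht m => hfix t (IntermediateField.fixingSubgroup_antitone h1 ht) m) a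
    (fun g g' t ht t' ht' => ha' g g' t t' (IntermediateField.fixingSubgroup_antitone h0 ht)
      (IntermediateField.fixingSubgroup_antitone h0 ht')) g g' g'' s s' s'' hs hs' hs''

/-- **global level of `d₁₂`**. -/
theorem dlift_levelS_d₁₂ (S : Finset Nat.Primes) (M : Rep (ZMod p) s55_GQ)
    [FiniteDimensional (ZMod p) M] (hM : dev_Adm S M)
    (b : s55_GQ → M) (hb : IsLevelConstantS₁ S b) :
    IsLevelConstantS₂ S ((d₁₂ M).hom b) := by
  obtain ⟨Fb, hFb, hb'⟩ := hb
  obtain ⟨FM, -, hFM, hfix⟩ := dlift_adm_level S M hM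
  obtain ⟨F, hn, h0, h1, hF⟩ := brg_common_level hFb hFM
  haveI := dlift_fix_normal F
  refine ⟨F, hF, fun g g' s s' hs hs' => ?_⟩
  exact dlift_inv_d₁₂ M F.fixingSubgroup
    (fun t ht m => hfix t (IntermediateField.fixingSubgroup_antitone h1 ht) m) b
    (fun g t ht => hb' g t (IntermediateField.fixingSubgroup_antitone h0 ht)) g g' s s' hs hs'

end Levels

end Fermat.Agent.S55
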