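/-
S55 (Poitou-Tate), package [DEV], sub-package [N3] (helper16).  Prefix `dnat_`.

`dnat_nat3 : dev_Nat3Statement` : naturality of `Θ₃` in the coefficient module,
`Θ₃^B (g_* η) m = Θ₃^A η (g' m)`.
Both sides are given by the formula of `pt_IsTheta3` on representatives, and the two cochains
`(g ∘ c) ∪ m` and `c ∪ g'(m)` are equal as functions.  No leaf is used.
-/
import Mathlib
import Fermat.Agent.S55.Dev.Defs
import Fermat.Agent.S55.Dev.Funct

set_option autoImplicit false
set_option linter.style.haveILetI false
set_option maxHeartbeats 1000000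
set_option synthInstance.maxHeartbeats 400000
open CategoryTheory Module groupCohomology ExtCitation

namespace Fermat.Agent.S55

variable {p : ℕ} [Fact p.Prime] (S : Finset Nat.Primes)

/-- the cup product of a continuous local 2-cocycle with an invariant of the Tate dual is a
continuous local 2-cocycle with values in `F_p(1)`. -/
theorem dnat_cup₂₀_mem (M : Rep.{0, 0, 0} (ZMod p) s55_GQ) (v : extArithIndex S)
    (c : ↥(levelCocycles₂ (extArithLoc S v) (Rep.res (extArithLoc S v) M)))
    (m' : ↥((M.dualTwist (cycloChar p)).ρ.invariants)) :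
    cup₂₀ (pt_evv S v M)
        ((c : extArithLocalGroups S v × extArithLocalGroups S v → Rep.res (extArithLoc S v) M))
        (m'.1 : Rep.res (extArithLoc S v) (M.dualTwist (cycloChar p))) ∈
      levelCocycles₂ (extArithLoc S v) (Rep.res (extArithLoc S v) (pt_T p)) := by
  have hinv : ∀ s : extArithLocalGroups S v,
      (Rep.res (extArithLoc S v) (M.dualTwist (cycloChar p))).ρ s
        (m'.1 : Rep.res (extArithLoc S v) (M.dualTwist (cycloChar p))) = m'.1 :=
    fun s => m'.2 (extArithLoc S v s)
  have hfun : cup₂₀ (pt_evv S v M)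
        ((c : extArithLocalGroups S v × extArithLocalGroups S v → Rep.res (extArithLoc S v) M))
        (m'.1 : Rep.res (extArithLoc S v) (M.dualTwist (cycloChar p))) =
      (fun a : Rep.res (extArithLoc S v) M => pt_evv S v M a m'.1) ∘
        (c : extArithLocalGroups S v × extArithLocalGroups S v →
          Rep.res (extArithLoc S v) M) := by
    funext ⟨s, t⟩
    rw [cup₂₀_apply, hinv]
    rfl
  refine ⟨?_, ?_⟩
  · change (d₂₃ _).hom _ = 0
    have hc0 : (d₂₃ (Rep.res (extArithLoc S v) M)).hom
        (c : extArithLocalGroups S v × extArithLocalGroups S v →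
          Rep.res (extArithLoc S v) M) = 0 := c.2.1
    rw [cup_d₂₀ (pt_evv_equivariant S v M) _ _ hc0]
    funext ⟨s, t, u⟩
    rw [cup₂₁_apply, d₀₁_hom_apply, hinv, sub_self, map_zero, map_zero]
    rfl
  · change IsLevelConstant₂ (extArithLoc S v) _
    rw [hfun]
    exact IsLevelConstant₂.comp c.2.2 _

/-- **[N3]**. -/
theorem dnat_nat3 : dev_Nat3Statement := by
  intro inv _ p _ _ S _ A B _ _ _ _ g hg ΘA ΘB hΘA hΘB η m
  have hrep : ∀ v : extArithIndex S,
      ∃ c₀ : ↥(levelCocycles₂ (extArithLoc S v) (Rep.res (extArithLoc S v) A)),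
        continuousH2π _ _ c₀ = η v := fun v => Submodule.Quotient.mk_surjective _ (η v)
  choose c hc using hrep
  have hη : η = fun v => continuousH2π _ _ (c v) := funext (fun v => (hc v).symm)
  rw [hη]
  -- the `A` side
  rw [hΘA c (dev_H0 (dev_dual_eqv hg) m)
    (fun v => dnat_cup₂₀_mem S A v (c v) (dev_H0 (dev_dual_eqv hg) m))]
  -- the `B` side
  have h1 : dev_H2loc S hg (fun v => continuousH2π _ _ (c v)) =
      fun v => continuousH2π _ _
        (levelCocycles₂Map (MonoidHom.id (extArithLocalGroups S v))
          (fun _ => rfl) (A := Rep.res (extArithLoc S v) A)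
          (B := Rep.res (extArithLoc S v) B) g
          (fun s a => hg (extArithLoc S v s) a) (c v)) := rfl
  rw [h1, hΘB _ m (fun v => dnat_cup₂₀_mem S B v _ m)]
  refine Finset.sum_congr rfl (fun v _ => ?_)
  congr 2
  apply Subtype.ext
  funext ⟨s, t⟩
  change pt_ev B (g ((c v).1 (s, t)))
      ((B.dualTwist (cycloChar p)).ρ (extArithLoc S v (s * t)) m.1) =
    pt_ev A ((c v).1 (s, t))
      ((A.dualTwist (cycloChar p)).ρ (extArithLoc S v (s * t)) (dev_dual g m.1))
  rw [dev_ev_dual, dev_dual_eqv hg]

end Fermat.Agent.S55
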