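/-
S55 (Poitou-Tate), package [DEV] (Serre's devissage).  Owner: helper12.  Prefix `dev_`.

ASM: the four-lemma chase.  From the sub-packages of `Dev/Defs.lean`, [PAIR] and [COVER]:
  (S1) `Θ₃` is onto;  (S2) `ker Θ₃ = range loc`;  (S3) `Θ²` is onto;  (S4) `Θ²` is injective.
-/
import Mathlib
import Fermat.Agent.S55.Dev.Defs
import Fermat.Agent.S55.Dev.Funct

set_option autoImplicit false
set_option maxHeartbeats 1000000
set_option synthInstance.maxHeartbeats 400000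
open CategoryTheory Module groupCohomology ExtCitation

namespace Fermat.Agent.S55

section LinearAlgebra

variable {k : Type*} [Field k] {V W : Type*} [AddCommGroup V] [Module k V]
  [AddCommGroup W] [Module k W]

/-- Extension of a functional along an injection. -/
theorem dev_exists_extend (j : V →ₗ[k] W) (hj : Function.Injective j) (φ : Module.Dual k V) :
    ∃ ψ : Module.Dual k W, ∀ v, ψ (j v) = φ v := by
  obtain ⟨r, hr⟩ := LinearMap.exists_leftInverse_of_injective j (LinearMap.ker_eq_bot.2 hj)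
  refine ⟨φ ∘ₗ r, fun v => ?_⟩
  have := congrArg (fun f => f v) hr
  simp only [LinearMap.comp_apply, LinearMap.id_apply] at this
  rw [LinearMap.comp_apply, this]

/-- A functional vanishing on the kernel of `q` factors through `q`. -/
theorem dev_exists_factor (q : V →ₗ[k] W) (φ : Module.Dual k V)
    (h : ∀ v, q v = 0 → φ v = 0) : ∃ ψ : Module.Dual k W, ∀ v, ψ (q v) = φ v := by
  have hφ : φ ∈ (LinearMap.ker q).dualAnnihilator := by
    rw [Submodule.mem_dualAnnihilator]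
    intro v hv
    exact h v (LinearMap.mem_ker.1 hv)
  rw [← LinearMap.range_dualMap_eq_dualAnnihilator_ker] at hφ
  obtain ⟨ψ, hψ⟩ := hφ
  refine ⟨ψ, fun v => ?_⟩
  rw [← hψ]
  rfl

end LinearAlgebra

variable {p : ℕ} [Fact p.Prime] (S : Finset Nat.Primes) {A B C : Rep (ZMod p) s55_GQ}

/-! ### Functoriality lemmas -/

theorem dev_coneH_comp_zero {g : A →ₗ[ZMod p] B} (hg : dev_Eqv g) {h : B →ₗ[ZMod p] C}
    (hh : dev_Eqv h) (h0 : ∀ a, h (g a) = 0) (t : cone_H S A) :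
    dev_coneH S hh (dev_coneH S hg t) = 0 := by
  obtain ⟨x, rfl⟩ := Submodule.Quotient.mk_surjective _ t
  rw [dev_coneH_mk, dev_coneH_mk]
  have : dev_coneZ S hh (dev_coneZ S hg x) = 0 := by
    apply Subtype.ext
    rw [dev_coneZ_coe, dev_coneZ_coe]
    refine Prod.ext ?_ ?_
    · funext y
      exact h0 _
    · funext v y
      exact h0 _
  rw [this]
  rfl

theorem dev_H2loc_comp_zero {g : A →ₗ[ZMod p] B} (hg : dev_Eqv g) {h : B →ₗ[ZMod p] C}
    (hh : dev_Eqv h) (h0 : ∀ a, h (g a) = 0) (ν : dev_H2locT S A) :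
    dev_H2loc S hh (dev_H2loc S hg ν) = 0 := by
  funext v
  rw [dev_H2loc_apply, dev_H2loc_apply]
  obtain ⟨c, hc⟩ := Submodule.Quotient.mk_surjective _ (ν v)
  rw [← hc]
  change continuousH2π _ _ _ = 0
  rw [continuousH2π_eq_zero_iff]
  have : ∀ y, (levelCocycles₂Map (MonoidHom.id (extArithLocalGroups S v)) (fun _ => rfl)
      (A := Rep.res (extArithLoc S v) B) (B := Rep.res (extArithLoc S v) C) h
      (fun s a => hh (extArithLoc S v s) a)
      (levelCocycles₂Map (MonoidHom.id (extArithLocalGroups S v)) (fun _ => rfl)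
      (A := Rep.res (extArithLoc S v) A) (B := Rep.res (extArithLoc S v) B) g
      (fun s a => hg (extArithLoc S v s) a) c)).1 y = 0 := fun y => h0 _
  have e : ((levelCocycles₂Map (MonoidHom.id (extArithLocalGroups S v)) (fun _ => rfl)
      (A := Rep.res (extArithLoc S v) B) (B := Rep.res (extArithLoc S v) C) h
      (fun s a => hh (extArithLoc S v s) a)
      (levelCocycles₂Map (MonoidHom.id (extArithLocalGroups S v)) (fun _ => rfl)
      (A := Rep.res (extArithLoc S v) A) (B := Rep.res (extArithLoc S v) B) g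
      (fun s a => hg (extArithLoc S v s) a) c)).1) = 0 := funext this
  rw [e]
  exact Submodule.zero_mem _

theorem dev_H2loc_locTotal {g : A →ₗ[ZMod p] B} (hg : dev_Eqv g) (z : continuousH2S S A) :
    dev_H2loc S hg (locTotal₂S S A z) = locTotal₂S S B (dev_H2S S hg z) := by
  obtain ⟨c, rfl⟩ := Submodule.Quotient.mk_surjective _ z
  rfl

theorem dev_dual_injective {g : A →ₗ[ZMod p] B} (hg : Function.Surjective g) :
    Function.Injective (dev_dual g) :=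
  LinearMap.dualMap_injective_of_surjective hg

theorem dev_H0_dual_injective {g : A →ₗ[ZMod p] B} (hge : dev_Eqv g)
    (hg : Function.Surjective g) : Function.Injective (dev_H0 (dev_dual_eqv hge)) := by
  intro m m' h
  apply Subtype.ext
  apply dev_dual_injective hg
  have := congrArg Subtype.val h
  exact this

/-- Left exactness of `H⁰`. -/
theorem dev_H0_exact {ι : A →ₗ[ZMod p] B} {f : B →ₗ[ZMod p] C} (h : dev_SES ι f)
    (m : ↥(B.ρ.invariants)) (hm : dev_H0 h.2.1 m = 0) :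
    ∃ n : ↥(A.ρ.invariants), dev_H0 h.1 n = m := by
  have hι := h.1
  have hinj := h.2.2.1
  have hex := h.2.2.2.2
  have h1 : f m.1 = 0 := congrArg Subtype.val hm
  obtain ⟨n, hn⟩ := (hex m.1).1 h1
  refine ⟨⟨n, fun s => ?_⟩, Subtype.ext hn⟩
  apply hinj
  rw [hι, hn]
  exact m.2 s


/-! ### The chase -/

section Chase

variable {p : ℕ} [Fact p.Prime]

theorem dev_SES_comp_zero {N I X : Rep (ZMod p) s55_GQ} {ι : N →ₗ[ZMod p] I}
    {f : I →ₗ[ZMod p] X} (h : dev_SES ι f) (n : N) : f (ι n) = 0 :=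
  (h.2.2.2.2 (ι n)).2 ⟨n, rfl⟩

/-- The devissage datum of `X`: a short exact sequence `0 → N → I → X → 0` of admissible modules
with global duality for `I`. -/
theorem dev_cover_data (inv : pt_InvFamily) (hCov : pt_CoverStatement inv)
    (hKer : dev_KerStatement) (hp2 : p ≠ 2) (S : Finset Nat.Primes) (hpS : pPrime p ∈ S)
    (X : Rep.{0, 0, 0} (ZMod p) s55_GQ) [FiniteDimensional (ZMod p) X] (hX : dev_Adm S X) :
    ∃ (N I : Rep.{0, 0, 0} (ZMod p) s55_GQ) (_ : FiniteDimensional (ZMod p) N)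
      (_ : FiniteDimensional (ZMod p) I) (ι : N →ₗ[ZMod p] I) (f : I →ₗ[ZMod p] X),
      dev_Adm S N ∧ dev_Adm S I ∧ dev_SES ι f ∧
      (∀ Θ : dev_Th2 S I, pt_IsTheta inv S I Θ → Function.Bijective Θ) ∧
      (∀ Θ : dev_Th3 S I, pt_IsTheta3 inv S I Θ →
        LinearMap.ker Θ = LinearMap.range (locTotal₂S S I) ∧ Function.Surjective Θ) := by
  obtain ⟨I, hI, f, hsm, hur, hf, h2, h3⟩ := hCov hp2 S hpS X hX.1 hX.2
  haveI := hI
  obtain ⟨N, hN, ι, hNadm, hses⟩ :=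
    hKer S I X ⟨hsm, hur⟩ (f.hom : I →ₗ[ZMod p] X) (dev_Eqv_hom f) hf
  exact ⟨N, I, hN, hI, ι, (f.hom : I →ₗ[ZMod p] X), hNadm, ⟨hsm, hur⟩, hses, h2, h3⟩

/-- **(S1)** `Θ₃` is onto. -/
theorem dev_S1 (inv : pt_InvFamily) (hL : dev_Leaves inv) (hCov : pt_CoverStatement inv)
    (hKer : dev_KerStatement) (hT3 : dev_Theta3ExStatement) (hN3 : dev_Nat3Statement)
    (hp2 : p ≠ 2) (S : Finset Nat.Primes) (hpS : pPrime p ∈ S)
    (X : Rep.{0, 0, 0} (ZMod p) s55_GQ) [FiniteDimensional (ZMod p) X] (hX : dev_Adm S X)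
    (Θ : dev_Th3 S X) (hΘ : pt_IsTheta3 inv S X Θ) : Function.Surjective Θ := by
  obtain ⟨N, I, hN, hI, ι, f, hNa, hIa, hses, h2, h3⟩ :=
    dev_cover_data inv hCov hKer hp2 S hpS X hX
  haveI := hN
  haveI := hI
  obtain ⟨ΘI, hΘI⟩ := hT3 inv hL hp2 S hpS I hIa
  intro φ
  obtain ⟨ψ, hψ⟩ := dev_exists_extend (dev_H0 (dev_dual_eqv hses.2.1))
    (dev_H0_dual_injective hses.2.1 hses.2.2.2.1) φ
  obtain ⟨η, hη⟩ := (h3 ΘI hΘI).2 ψ
  refine ⟨dev_H2loc S hses.2.1 η, ?_⟩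
  apply LinearMap.ext
  intro m
  rw [hN3 inv hL hp2 S hpS I X hIa hX f hses.2.1 ΘI Θ hΘI hΘ η m, hη, hψ]

/-- **(S2)** `ker Θ₃ = range loc`. -/
theorem dev_S2 (inv : pt_InvFamily) (hL : dev_Leaves inv) (hCov : pt_CoverStatement inv)
    (hKer : dev_KerStatement) (hDS : dev_DualSESStatement) (hT3 : dev_Theta3ExStatement)
    (hN3 : dev_Nat3Statement) (hR3 : dev_Rec3Statement) (hE2 : dev_E2Statement)
    (hp2 : p ≠ 2) (S : Finset Nat.Primes) (hpS : pPrime p ∈ S)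
    (X : Rep.{0, 0, 0} (ZMod p) s55_GQ) [FiniteDimensional (ZMod p) X] (hX : dev_Adm S X)
    (Θ : dev_Th3 S X) (hΘ : pt_IsTheta3 inv S X Θ) :
    LinearMap.ker Θ = LinearMap.range (locTotal₂S S X) := by
  apply le_antisymm
  · intro ξ hξ
    rw [LinearMap.mem_ker] at hξ
    obtain ⟨N, I, hN, hI, ι, f, hNa, hIa, hses, h2, h3⟩ :=
      dev_cover_data inv hCov hKer hp2 S hpS X hX
    haveI := hN
    haveI := hI
    obtain ⟨ΘI, hΘI⟩ := hT3 inv hL hp2 S hpS I hIa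
    obtain ⟨ΘN, hΘN⟩ := hT3 inv hL hp2 S hpS N hNa
    obtain ⟨η, rfl⟩ := hE2 inv hL hp2 S hpS N I X hNa hIa hX ι f hses ξ
    have hd := hDS N I X ι f hses
    have hvan : ∀ m, dev_H0 (dev_dual_eqv hses.1) m = 0 → ΘI η m = 0 := by
      intro m hm
      obtain ⟨n, rfl⟩ := dev_H0_exact hd m hm
      have e := hN3 inv hL hp2 S hpS I X hIa hX f hses.2.1 ΘI Θ hΘI hΘ η n
      rw [hξ] at e
      exact e.symm
    obtain ⟨ψ, hψ⟩ := dev_exists_factor (dev_H0 (dev_dual_eqv hses.1)) (ΘI η) hvan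
    obtain ⟨ν, hν⟩ := dev_S1 inv hL hCov hKer hT3 hN3 hp2 S hpS N hNa ΘN hΘN ψ
    have h1 : ΘI (η - dev_H2loc S hses.1 ν) = 0 := by
      apply LinearMap.ext
      intro m
      rw [ΘI.map_sub η (dev_H2loc S hses.1 ν), LinearMap.sub_apply,
        hN3 inv hL hp2 S hpS N I hNa hIa ι hses.1 ΘN ΘI hΘN hΘI ν m, hν, hψ, sub_self]
      rfl
    have h2' : η - dev_H2loc S hses.1 ν ∈ LinearMap.range (locTotal₂S S I) := by
      rw [← (h3 ΘI hΘI).1]
      exact h1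
    obtain ⟨z, hz⟩ := h2'
    refine ⟨dev_H2S S hses.2.1 z, ?_⟩
    have hη : η = locTotal₂S S I z + dev_H2loc S hses.1 ν := by
      rw [hz]
      exact (sub_add_cancel η (dev_H2loc S hses.1 ν)).symm
    have e1 : dev_H2loc S hses.2.1 (locTotal₂S S I z + dev_H2loc S hses.1 ν) =
        dev_H2loc S hses.2.1 (locTotal₂S S I z) +
          dev_H2loc S hses.2.1 (dev_H2loc S hses.1 ν) :=
      (dev_H2loc S hses.2.1).map_add _ _
    rw [← dev_H2loc_locTotal, hη, e1,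
      dev_H2loc_comp_zero S hses.1 hses.2.1 (dev_SES_comp_zero hses)]
    exact (add_zero (dev_H2loc S hses.2.1 (locTotal₂S S I z))).symm
  · rintro _ ⟨z, rfl⟩
    exact hR3 inv hL hp2 S hpS X hX Θ hΘ z

/-- **(S3)** `Θ²` is onto. -/
theorem dev_S3 (inv : pt_InvFamily) (hL : dev_Leaves inv) (hCov : pt_CoverStatement inv)
    (hPair : pt_PairStatement inv)
    (hKer : dev_KerStatement) (hDS : dev_DualSESStatement) (hT3 : dev_Theta3ExStatement)
    (hN2 : dev_Nat2Statement) (hN3 : dev_Nat3Statement) (hE1 : dev_E1Statement)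
    (hD2 : dev_Conn2AdjStatement) (hD3 : dev_Conn2RangeStatement)
    (hp2 : p ≠ 2) (S : Finset Nat.Primes) (hpS : pPrime p ∈ S)
    (X : Rep.{0, 0, 0} (ZMod p) s55_GQ) [FiniteDimensional (ZMod p) X] (hX : dev_Adm S X)
    (Θ : dev_Th2 S X) (hΘ : pt_IsTheta inv S X Θ) : Function.Surjective Θ := by
  obtain ⟨N, I, hN, hI, ι, f, hNa, hIa, hses, h2, h3⟩ :=
    dev_cover_data inv hCov hKer hp2 S hpS X hX
  haveI := hN
  haveI := hI
  obtain ⟨ΘI3, hΘI3⟩ := hT3 inv hL hp2 S hpS I hIa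
  obtain ⟨ΘN3, hΘN3⟩ := hT3 inv hL hp2 S hpS N hNa
  obtain ⟨ΘI, hΘI⟩ := hPair hp2 S hpS I hIa.1 hIa.2
  have hd := hDS N I X ι f hses
  have hX' : dev_Adm S (X.dualTwist (cycloChar p)) := hL.2.1 hp2 S hpS X hX.1 hX.2
  have hI' : dev_Adm S (I.dualTwist (cycloChar p)) := hL.2.1 hp2 S hpS I hIa.1 hIa.2
  have hN' : dev_Adm S (N.dualTwist (cycloChar p)) := hL.2.1 hp2 S hpS N hNa.1 hNa.2
  obtain ⟨δ, hδ1, -, hδ3, hδ4, -⟩ := hE1 S (X.dualTwist (cycloChar p))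
    (I.dualTwist (cycloChar p)) (N.dualTwist (cycloChar p)) hX' hI' hN'
    (dev_dual f) (dev_dual ι) hd
  intro φ
  obtain ⟨ν, hν⟩ := dev_S1 inv hL hCov hKer hT3 hN3 hp2 S hpS N hNa ΘN3 hΘN3 (φ ∘ₗ δ)
  have h1 : ΘI3 (dev_H2loc S hses.1 ν) = 0 := by
    apply LinearMap.ext
    intro m
    rw [hN3 inv hL hp2 S hpS N I hNa hIa ι hses.1 ΘN3 ΘI3 hΘN3 hΘI3 ν m, hν,
      LinearMap.comp_apply]
    have e : δ (dev_H0 (dev_dual_eqv hses.1) m) = 0 := hδ3 m
    rw [e, map_zero]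
    rfl
  have h2' : dev_H2loc S hses.1 ν ∈ LinearMap.range (locTotal₂S S I) := by
    rw [← (h3 ΘI3 hΘI3).1]
    exact h1
  obtain ⟨w, hw⟩ := hD3 S N I X ι f hses ν h2'
  have hadj : ∀ m, φ (δ m) = - Θ w (δ m) := by
    intro m
    have e := hD2 inv hL hp2 S hpS N I X hNa hIa hX ι f hses Θ ΘN3 hΘ hΘN3 w ν hw m (δ m)
      (hδ1 m)
    rw [hν] at e
    exact e
  have hvan : ∀ y, dev_H1S S (dev_dual_eqv hses.2.1) y = 0 → (φ + Θ w) y = 0 := by
    intro y hy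
    obtain ⟨m, rfl⟩ := hδ4 y hy
    rw [LinearMap.add_apply, hadj, neg_add_cancel]
  obtain ⟨ψ, hψ⟩ := dev_exists_factor (dev_H1S S (dev_dual_eqv hses.2.1)) (φ + Θ w) hvan
  obtain ⟨u, hu⟩ := (h2 ΘI hΘI).2 ψ
  refine ⟨dev_coneH S hses.2.1 u - w, ?_⟩
  apply LinearMap.ext
  intro y
  rw [Θ.map_sub (dev_coneH S hses.2.1 u) w, LinearMap.sub_apply,
    hN2 inv hL hp2 S hpS I X hIa hX f hses.2.1 ΘI Θ hΘI hΘ u y, hu, hψ, LinearMap.add_apply,
    add_sub_cancel_right]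

/-- **(S4)** `Θ²` is injective. -/
theorem dev_S4 (inv : pt_InvFamily) (hL : dev_Leaves inv) (hCov : pt_CoverStatement inv)
    (hPair : pt_PairStatement inv)
    (hKer : dev_KerStatement) (hDS : dev_DualSESStatement) (hT3 : dev_Theta3ExStatement)
    (hN2 : dev_Nat2Statement) (hN3 : dev_Nat3Statement) (hR3 : dev_Rec3Statement)
    (hE1 : dev_E1Statement) (hE2 : dev_E2Statement) (hD0 : dev_Conn2ExStatement)
    (hD1 : dev_Conn2KerStatement) (hD2 : dev_Conn2AdjStatement) (hD3 : dev_Conn2RangeStatement)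
    (hp2 : p ≠ 2) (S : Finset Nat.Primes) (hpS : pPrime p ∈ S)
    (X : Rep.{0, 0, 0} (ZMod p) s55_GQ) [FiniteDimensional (ZMod p) X] (hX : dev_Adm S X)
    (Θ : dev_Th2 S X) (hΘ : pt_IsTheta inv S X Θ) : Function.Injective Θ := by
  rw [injective_iff_map_eq_zero]
  intro w hw
  obtain ⟨N, I, hN, hI, ι, f, hNa, hIa, hses, h2, h3⟩ :=
    dev_cover_data inv hCov hKer hp2 S hpS X hX
  haveI := hN
  haveI := hI
  obtain ⟨ΘN3, hΘN3⟩ := hT3 inv hL hp2 S hpS N hNa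
  obtain ⟨ΘI, hΘI⟩ := hPair hp2 S hpS I hIa.1 hIa.2
  obtain ⟨ΘN, hΘN⟩ := hPair hp2 S hpS N hNa.1 hNa.2
  have hd := hDS N I X ι f hses
  have hX' : dev_Adm S (X.dualTwist (cycloChar p)) := hL.2.1 hp2 S hpS X hX.1 hX.2
  have hI' : dev_Adm S (I.dualTwist (cycloChar p)) := hL.2.1 hp2 S hpS I hIa.1 hIa.2
  have hN' : dev_Adm S (N.dualTwist (cycloChar p)) := hL.2.1 hp2 S hpS N hNa.1 hNa.2
  obtain ⟨δ, hδ1, -, -, -, hδ5⟩ := hE1 S (X.dualTwist (cycloChar p))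
    (I.dualTwist (cycloChar p)) (N.dualTwist (cycloChar p)) hX' hI' hN'
    (dev_dual f) (dev_dual ι) hd
  obtain ⟨ν, hν⟩ := hD0 inv hL hp2 S hpS N I X hNa hIa hX ι f hses w
  have h1 : ΘN3 ν = 0 := by
    apply LinearMap.ext
    intro m
    rw [hD2 inv hL hp2 S hpS N I X hNa hIa hX ι f hses Θ ΘN3 hΘ hΘN3 w ν hν m (δ m) (hδ1 m),
      hw, LinearMap.zero_apply, neg_zero]
    rfl
  have h2' : ν ∈ LinearMap.range (locTotal₂S S N) := by
    rw [← dev_S2 inv hL hCov hKer hDS hT3 hN3 hR3 hE2 hp2 S hpS N hNa ΘN3 hΘN3]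
    exact h1
  obtain ⟨u, rfl⟩ := hD1 S N I X ι f hses w ν hν h2'
  have hvan : ∀ y, dev_H1S S (dev_dual_eqv hses.1) y = 0 → ΘI u y = 0 := by
    intro y hy
    obtain ⟨x, rfl⟩ := hδ5 y hy
    have e := hN2 inv hL hp2 S hpS I X hIa hX f hses.2.1 ΘI Θ hΘI hΘ u x
    rw [hw] at e
    exact e.symm
  obtain ⟨ψ, hψ⟩ := dev_exists_factor (dev_H1S S (dev_dual_eqv hses.1)) (ΘI u) hvan
  obtain ⟨t, ht⟩ := dev_S3 inv hL hCov hPair hKer hDS hT3 hN2 hN3 hE1 hD2 hD3 hp2 S hpS N hNa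
    ΘN hΘN ψ
  have h3' : ΘI (dev_coneH S hses.1 t) = ΘI u := by
    apply LinearMap.ext
    intro y
    rw [hN2 inv hL hp2 S hpS N I hNa hIa ι hses.1 ΘN ΘI hΘN hΘI t y, ht, hψ]
  have hu : dev_coneH S hses.1 t = u := (h2 ΘI hΘI).1 h3'
  rw [← hu]
  exact dev_coneH_comp_zero S hses.1 hses.2.1 (dev_SES_comp_zero hses) t

end Chase

/-- **[DEV]** Serre's devissage, from the sub-packages of `Dev/Defs.lean` and [PAIR-OF]. -/
theorem dev_main_of (hPO : pt_PairOfStatement)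
    (hKer : dev_KerStatement) (hDS : dev_DualSESStatement) (hT3 : dev_Theta3ExStatement)
    (hN2 : dev_Nat2Statement) (hN3 : dev_Nat3Statement) (hR3 : dev_Rec3Statement)
    (hE1 : dev_E1Statement) (hE2 : dev_E2Statement) (hD0 : dev_Conn2ExStatement)
    (hD1 : dev_Conn2KerStatement) (hD2 : dev_Conn2AdjStatement)
    (hD3 : dev_Conn2RangeStatement) : pt_DevStatement := by
  intro inv hT hD hCL hREC hH3 hLCD hCOV
  have hL : dev_Leaves inv := ⟨hT, hD, hCL, hREC, hH3, hLCD⟩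
  have hPair : pt_PairStatement inv := hPO inv hT hD hCL hREC hH3
  intro p _ hp2 S hpS M _ hsm hur Θ hΘ
  exact ⟨dev_S4 inv hL hCOV hPair hKer hDS hT3 hN2 hN3 hR3 hE1 hE2 hD0 hD1 hD2 hD3 hp2 S hpS M
      ⟨hsm, hur⟩ Θ hΘ,
    dev_S3 inv hL hCOV hPair hKer hDS hT3 hN2 hN3 hE1 hD2 hD3 hp2 S hpS M ⟨hsm, hur⟩ Θ hΘ⟩

end Fermat.Agent.S55
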