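/-
S55 (Poitou-Tate), package [DEV] (Serre's devissage).  Owner: helper12.  Prefix `devt_`.

TOOLS: the uniform level of an admissible module (a finite extension `F/ℚ`, unramified outside
`S`, normal, whose fixing subgroup acts trivially), linear sections and retractions, and the
level of `g ↦ ρ(g) b - b`.
-/
import Mathlib
import Fermat.Agent.S55.Dev.Defs
import Fermat.Agent.S55.Adm
import Fermat.Agent.S55.H3Grp
import Fermat.Agent.S55.Bridge.FinLevelG

set_option autoImplicit false
set_option maxHeartbeats 1000000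
set_option synthInstance.maxHeartbeats 400000
open CategoryTheory Module groupCohomology ExtCitation

namespace Fermat.Agent.S55

variable {p : ℕ} [Fact p.Prime]

/-- **Uniform level** of an admissible module: a finite extension of `ℚ`, unramified outside
`S`, whose fixing subgroup acts trivially. -/
theorem devt_level (S : Finset Nat.Primes) (M : Rep.{0, 0, 0} (ZMod p) s55_GQ)
    [FiniteDimensional (ZMod p) M] (hM : dev_Adm S M) :
    ∃ F : IntermediateField ℚ (AlgebraicClosure ℚ), F.IsUnramifiedOutside S ∧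
      ∀ s ∈ F.fixingSubgroup, ∀ m : M, M.ρ s m = m := by
  obtain ⟨F₀, hF₀, h₀⟩ := adm_uniform p M hM.1
  haveI := hF₀
  have hle : F₀.fixingSubgroup ≤ MonoidHom.ker M.ρ := by
    intro s hs
    rw [MonoidHom.mem_ker]
    apply LinearMap.ext
    intro m
    exact h₀ s hs m
  obtain ⟨h1, h2⟩ := h3g_fix_fixed (MonoidHom.ker M.ρ) F₀ hle
  refine ⟨IntermediateField.fixedField (MonoidHom.ker M.ρ), ⟨?_, ?_⟩, ?_⟩
  · exact FiniteDimensional.of_injective (IntermediateField.inclusion h2).toLinearMap
      (IntermediateField.inclusion_injective h2)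
  · intro q hq A hA g hg
    rw [h1, MonoidHom.mem_ker]
    exact hM.2 q hq A hA g hg
  · intro s hs m
    rw [h1, MonoidHom.mem_ker] at hs
    rw [hs]
    rfl

/-- **Uniform normal level** of an admissible module. -/
theorem devt_level_normal (S : Finset Nat.Primes) (M : Rep.{0, 0, 0} (ZMod p) s55_GQ)
    [FiniteDimensional (ZMod p) M] (hM : dev_Adm S M) :
    ∃ (F : IntermediateField ℚ (AlgebraicClosure ℚ)) (_ : Normal ℚ F),
      F.IsUnramifiedOutside S ∧ ∀ s ∈ F.fixingSubgroup, ∀ m : M, M.ρ s m = m := by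
  obtain ⟨F₀, hF₀, h₀⟩ := devt_level S M hM
  obtain ⟨F, hn, hle, -, hF⟩ := brg_common_level hF₀ hF₀
  exact ⟨F, hn, hF, fun s hs m => h₀ s (IntermediateField.fixingSubgroup_antitone hle hs) m⟩

/-- The orbit map `g ↦ ρ(g) b` of an admissible module is of level `S`. -/
theorem devt_orbit_level (S : Finset Nat.Primes) (M : Rep.{0, 0, 0} (ZMod p) s55_GQ)
    [FiniteDimensional (ZMod p) M] (hM : dev_Adm S M) (b : M) :
    IsLevelConstantS₁ S (fun g : s55_GQ => M.ρ g b) := by
  obtain ⟨F, hF, h⟩ := devt_level S M hM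
  refine ⟨F, hF, fun g s hs => ?_⟩
  change M.ρ (g * s) b = M.ρ g b
  rw [map_mul, Module.End.mul_apply, h s hs]

/-- The coboundary `d₀₁ b` of an admissible module is of level `S`. -/
theorem devt_d₀₁_level (S : Finset Nat.Primes) (M : Rep.{0, 0, 0} (ZMod p) s55_GQ)
    [FiniteDimensional (ZMod p) M] (hM : dev_Adm S M) (b : M) :
    IsLevelConstantS₁ S ((d₀₁ M).hom b) :=
  (devt_orbit_level S M hM b).comp (fun x => x - b)

/-- A linear section of a surjection. -/
theorem devt_section {k V W : Type*} [Field k] [AddCommGroup V] [Module k V] [AddCommGroup W]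
    [Module k W] (f : V →ₗ[k] W) (hf : Function.Surjective f) :
    ∃ s : W →ₗ[k] V, ∀ w, f (s w) = w := by
  obtain ⟨s, hs⟩ := LinearMap.exists_rightInverse_of_surjective f (LinearMap.range_eq_top.2 hf)
  exact ⟨s, fun w => by
    have := congrArg (fun g => g w) hs
    exact this⟩

/-- A linear retraction of an injection. -/
theorem devt_retraction {k V W : Type*} [Field k] [AddCommGroup V] [Module k V]
    [AddCommGroup W] [Module k W] (j : V →ₗ[k] W) (hj : Function.Injective j) :
    ∃ r : W →ₗ[k] V, ∀ v, r (j v) = v := by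
  obtain ⟨r, hr⟩ := LinearMap.exists_leftInverse_of_injective j (LinearMap.ker_eq_bot.2 hj)
  exact ⟨r, fun v => by
    have := congrArg (fun g => g v) hr
    exact this⟩

/-- For a short exact sequence, a retraction `r` of `ι` satisfies `ι (r x) = x` on `ker f`. -/
theorem devt_retraction_spec {N I X : Rep (ZMod p) s55_GQ} {ι : N →ₗ[ZMod p] I}
    {f : I →ₗ[ZMod p] X} (h : dev_SES ι f) {r : I →ₗ[ZMod p] N} (hr : ∀ n, r (ι n) = n)
    {x : I} (hx : f x = 0) : ι (r x) = x := by
  obtain ⟨n, rfl⟩ := (h.2.2.2.2 x).1 hx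
  rw [hr]

end Fermat.Agent.S55
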