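/-
S55 (Poitou-Tate), package [DEV] (Serre's devissage).  Owner: helper12.  Prefix `dc2a_`.

CONN2ADJ = [Δ2]: the connecting maps `H²_c(X) → H³_c(N)` and `H⁰(N') → H¹_S(X')` of a short
exact sequence `0 → N → I → X → 0` are adjoint up to sign for the Poitou-Tate pairings:
`Θ₃^N ν m = - Θ²_X w y`.
-/
import Mathlib
import Fermat.Agent.S55.Dev.Tools
import Fermat.Agent.S55.Dev.Funct

set_option autoImplicit false
set_option maxHeartbeats 1000000
set_option synthInstance.maxHeartbeats 400000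
open CategoryTheory Module groupCohomology ExtCitation

namespace Fermat.Agent.S55

variable {p : ℕ} [Fact p.Prime]

section Local

variable (S : Finset Nat.Primes) {N I X : Rep.{0, 0, 0} (ZMod p) s55_GQ}
  {ι : N →ₗ[ZMod p] I} {f : I →ₗ[ZMod p] X}

/-- The local cochain identity behind [Δ2]. -/
theorem dc2a_local (hι : dev_Eqv ι) (hf : dev_Eqv f) (v : extArithIndex S)
    (ct : s55_GQ × s55_GQ → I)
    (bt : extArithLocalGroups S v → Rep.res (extArithLoc S v) I)
    (n : extArithLocalGroups S v × extArithLocalGroups S v → Rep.res (extArithLoc S v) N)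
    (hn : dev_pushv₂ S v ι n =
      cone_loc₂ S I v ct - (d₁₂ (Rep.res (extArithLoc S v) I)).hom bt)
    (mt : I.dualTwist (cycloChar p)) (z : s55_GQ → X.dualTwist (cycloChar p))
    (hzm : ∀ s, dev_dual f (z s) = (I.dualTwist (cycloChar p)).ρ s mt - mt) :
    cup₂₀ (pt_evv S v N) n
        (dev_dual ι mt : Rep.res (extArithLoc S v) (N.dualTwist (cycloChar p))) +
      (cup₁₁ (pt_evv S v X) (dev_pushv₁ S v f bt)
          (cone_loc₁ S (X.dualTwist (cycloChar p)) v z) -
        cone_loc₂ S (pt_T p) v (cup₂₀ (pt_ev I) ct mt)) =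
    - (d₁₂ (Rep.res (extArithLoc S v) (pt_T p))).hom
        (cup₁₀ (pt_evv S v I) bt
          (mt : Rep.res (extArithLoc S v) (I.dualTwist (cycloChar p)))) := by
  funext ⟨g, h⟩
  have e1 : ∀ s φ, (N.dualTwist (cycloChar p)).ρ s (dev_dual ι φ) =
      dev_dual ι ((I.dualTwist (cycloChar p)).ρ s φ) := fun s φ => (dev_dual_eqv hι s φ).symm
  have e5 : ∀ s ψ, dev_dual f ((X.dualTwist (cycloChar p)).ρ s ψ) =
      (I.dualTwist (cycloChar p)).ρ s (dev_dual f ψ) := fun s ψ => dev_dual_eqv hf s ψ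
  have e7 : ∀ s a φ, (pt_T p).ρ s (pt_ev I a φ) =
      pt_ev I (I.ρ s a) ((I.dualTwist (cycloChar p)).ρ s φ) :=
    fun s a φ => (pt_ev_equivariant I s a φ).symm
  have e3 : ι (n (g, h)) = ct (extArithLoc S v g, extArithLoc S v h) -
      (I.ρ (extArithLoc S v g) (bt h) - bt (g * h) + bt g) := congrFun hn (g, h)
  change pt_ev N (n (g, h)) ((N.dualTwist (cycloChar p)).ρ (extArithLoc S v (g * h))
        (dev_dual ι mt)) +
      (pt_ev X (f (bt g)) ((X.dualTwist (cycloChar p)).ρ (extArithLoc S v g)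
          (z (extArithLoc S v h))) -
        pt_ev I (ct (extArithLoc S v g, extArithLoc S v h))
          ((I.dualTwist (cycloChar p)).ρ (extArithLoc S v g * extArithLoc S v h) mt)) =
    - ((pt_T p).ρ (extArithLoc S v g)
          (pt_ev I (bt h) ((I.dualTwist (cycloChar p)).ρ (extArithLoc S v h) mt)) -
        pt_ev I (bt (g * h)) ((I.dualTwist (cycloChar p)).ρ (extArithLoc S v (g * h)) mt) +
        pt_ev I (bt g) ((I.dualTwist (cycloChar p)).ρ (extArithLoc S v g) mt))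
  rw [e1, e7, map_mul]
  change pt_ev I (ι (n (g, h)))
        ((I.dualTwist (cycloChar p)).ρ (extArithLoc S v g * extArithLoc S v h) mt) +
      (pt_ev I (bt g) (dev_dual f ((X.dualTwist (cycloChar p)).ρ (extArithLoc S v g)
          (z (extArithLoc S v h)))) -
        pt_ev I (ct (extArithLoc S v g, extArithLoc S v h))
          ((I.dualTwist (cycloChar p)).ρ (extArithLoc S v g * extArithLoc S v h) mt)) =
    -(pt_ev I (I.ρ (extArithLoc S v g) (bt h))
          ((I.dualTwist (cycloChar p)).ρ (extArithLoc S v g)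
            ((I.dualTwist (cycloChar p)).ρ (extArithLoc S v h) mt)) -
        pt_ev I (bt (g * h))
          ((I.dualTwist (cycloChar p)).ρ (extArithLoc S v g * extArithLoc S v h) mt) +
        pt_ev I (bt g) ((I.dualTwist (cycloChar p)).ρ (extArithLoc S v g) mt))
  rw [e3, e5, hzm, map_mul, Module.End.mul_apply]
  simp only [map_sub, map_add, LinearMap.sub_apply, LinearMap.add_apply]
  abel

/-- `ε = c̃ ∪ m̃` has the right coboundary. -/
theorem dc2a_eps_d (hf : dev_Eqv f) (ct : s55_GQ × s55_GQ → I)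
    (hct : (d₂₃ I).hom ct = 0)
    (mt : I.dualTwist (cycloChar p)) (z : s55_GQ → X.dualTwist (cycloChar p))
    (hzm : ∀ s, dev_dual f (z s) = (I.dualTwist (cycloChar p)).ρ s mt - mt) :
    (d₂₃ (pt_T p)).hom (cup₂₀ (pt_ev I) ct mt) =
      cup₂₁ (pt_ev X) (dev_push (s55_GQ × s55_GQ) f ct) z := by
  rw [cup_d₂₀ (pt_ev_equivariant I) ct mt hct]
  funext ⟨g, h, j⟩
  have e5 : ∀ s ψ, dev_dual f ((X.dualTwist (cycloChar p)).ρ s ψ) =
      (I.dualTwist (cycloChar p)).ρ s (dev_dual f ψ) := fun s ψ => dev_dual_eqv hf s ψ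
  change pt_ev I (ct (g, h)) ((I.dualTwist (cycloChar p)).ρ (g * h)
      ((I.dualTwist (cycloChar p)).ρ j mt - mt)) =
    pt_ev I (ct (g, h)) (dev_dual f ((X.dualTwist (cycloChar p)).ρ (g * h) (z j)))
  rw [e5, hzm]

/-- `ε = c̃ ∪ m̃` is of level `S`. -/
theorem dc2a_eps_level [FiniteDimensional (ZMod p) I]
    (hI' : dev_Adm S (I.dualTwist (cycloChar p)))
    (ct : s55_GQ × s55_GQ → I) (hct : IsLevelConstantS₂ S ct)
    (mt : I.dualTwist (cycloChar p)) :
    IsLevelConstantS₂ S (cup₂₀ (pt_ev I) ct mt) := by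
  obtain ⟨F₁, hF₁, h₁⟩ := hct
  obtain ⟨F₂, hF₂, h₂⟩ := devt_level S (I.dualTwist (cycloChar p)) hI'
  refine ⟨F₁ ⊔ F₂, hF₁.sup hF₂, fun g g' s s' hs hs' => ?_⟩
  have hs1 := IntermediateField.fixingSubgroup_antitone (le_sup_left : F₁ ≤ F₁ ⊔ F₂) hs
  have hs1' := IntermediateField.fixingSubgroup_antitone (le_sup_left : F₁ ≤ F₁ ⊔ F₂) hs'
  have hs2 := IntermediateField.fixingSubgroup_antitone (le_sup_right : F₂ ≤ F₁ ⊔ F₂) hs
  have hs2' := IntermediateField.fixingSubgroup_antitone (le_sup_right : F₂ ≤ F₁ ⊔ F₂) hs'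
  change pt_ev I (ct (g * s, g' * s')) ((I.dualTwist (cycloChar p)).ρ (g * s * (g' * s')) mt) =
    pt_ev I (ct (g, g')) ((I.dualTwist (cycloChar p)).ρ (g * g') mt)
  rw [h₁ g g' s s' hs1 hs1']
  have e : (I.dualTwist (cycloChar p)).ρ (g * s * (g' * s')) mt =
      (I.dualTwist (cycloChar p)).ρ (g * g') mt := by
    rw [map_mul, map_mul, map_mul, map_mul, Module.End.mul_apply, Module.End.mul_apply,
      Module.End.mul_apply, Module.End.mul_apply, h₂ s' hs2', h₂ s hs2]
  rw [e]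

/-- `b̃_v ∪ m̃` is continuous. -/
theorem dc2a_e_level [FiniteDimensional (ZMod p) I]
    (hI' : dev_Adm S (I.dualTwist (cycloChar p))) (v : extArithIndex S)
    (bt : extArithLocalGroups S v → Rep.res (extArithLoc S v) I)
    (hbt : IsLevelConstant₁ (extArithLoc S v) bt) (mt : I.dualTwist (cycloChar p)) :
    IsLevelConstant₁ (extArithLoc S v) (cup₁₀ (pt_evv S v I) bt
      (mt : Rep.res (extArithLoc S v) (I.dualTwist (cycloChar p)))) := by
  obtain ⟨F₁, hF₁, h₁⟩ := hbt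
  obtain ⟨F₂, hF₂, h₂⟩ := devt_level S (I.dualTwist (cycloChar p)) hI'
  haveI := hF₁
  haveI := hF₂.1
  refine ⟨F₁ ⊔ F₂, inferInstance, fun g s hs => ?_⟩
  have hs1 := IntermediateField.fixingSubgroup_antitone (le_sup_left : F₁ ≤ F₁ ⊔ F₂) hs
  have hs2 := IntermediateField.fixingSubgroup_antitone (le_sup_right : F₂ ≤ F₁ ⊔ F₂) hs
  change pt_ev I (bt (g * s)) ((I.dualTwist (cycloChar p)).ρ (extArithLoc S v (g * s)) mt) =
    pt_ev I (bt g) ((I.dualTwist (cycloChar p)).ρ (extArithLoc S v g) mt)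
  rw [h₁ g s hs1, map_mul, map_mul, Module.End.mul_apply, h₂ _ hs2]

/-- `n_v ∪ m` is a continuous cocycle for an invariant `m`. -/
theorem dc2a_cup_mem (v : extArithIndex S)
    (n : ↥(levelCocycles₂ (extArithLoc S v) (Rep.res (extArithLoc S v) N)))
    (m : ↥((N.dualTwist (cycloChar p)).ρ.invariants)) :
    cup₂₀ (pt_evv S v N)
        ((n : extArithLocalGroups S v × extArithLocalGroups S v →
          Rep.res (extArithLoc S v) N))
        (m.1 : Rep.res (extArithLoc S v) (N.dualTwist (cycloChar p))) ∈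
      levelCocycles₂ (extArithLoc S v) (Rep.res (extArithLoc S v) (pt_T p)) := by
  have hm : ∀ s, (N.dualTwist (cycloChar p)).ρ s m.1 = m.1 := m.2
  have e : cup₂₀ (pt_evv S v N)
        ((n : extArithLocalGroups S v × extArithLocalGroups S v →
          Rep.res (extArithLoc S v) N))
        (m.1 : Rep.res (extArithLoc S v) (N.dualTwist (cycloChar p))) =
      (fun a => pt_ev N a m.1) ∘ n.1 := by
    funext ⟨g, h⟩
    change pt_ev N (n.1 (g, h)) ((N.dualTwist (cycloChar p)).ρ (extArithLoc S v (g * h)) m.1) =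
      pt_ev N (n.1 (g, h)) m.1
    rw [hm]
  refine ⟨?_, ?_⟩
  · change (d₂₃ _).hom _ = 0
    rw [cup_d₂₀ (pt_evv_equivariant S v N) _ _ n.2.1]
    funext ⟨g, h, j⟩
    change pt_ev N (n.1 (g, h)) ((N.dualTwist (cycloChar p)).ρ (extArithLoc S v (g * h))
      ((N.dualTwist (cycloChar p)).ρ (extArithLoc S v j) m.1 - m.1)) = 0
    rw [hm, sub_self, map_zero, map_zero]
  · rw [e]
    exact n.2.2.comp _

end Local

/-- **[Δ2]** -/
theorem dc2a_main : dev_Conn2AdjStatement := by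
  intro inv hL p _ hp2 S hpS N I X _ _ _ hN hI hX ι f h ΘX ΘN hΘX hΘN w ν hwν m y hmy
  obtain ⟨x, ct, bt, n, hw, hct, hbt, hn, hν⟩ := hwν
  obtain ⟨mt, z, hz, hm, hzm, hy⟩ := hmy
  have hI' : dev_Adm S (I.dualTwist (cycloChar p)) := hL.2.1 hp2 S hpS I hI.1 hI.2
  have hm' : dev_dual ι mt = m.1 := hm
  -- the two pairing values
  have hcoc3 := fun v => dc2a_cup_mem S v (n v) m
  have hεlev := dc2a_eps_level S hI' ct.1 ct.2.2 mt
  have hdε : (d₂₃ (pt_T p)).hom (cup₂₀ (pt_ev I) ct.1 mt) = cup₂₁ (pt_ev X) x.1.1 z := by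
    rw [dc2a_eps_d h.2.1 ct.1 ct.2.1 mt z hzm, hct]
  -- the local identity
  have hloc : ∀ v, cup₂₀ (pt_evv S v N)
        ((n v : extArithLocalGroups S v × extArithLocalGroups S v →
          Rep.res (extArithLoc S v) N))
        (m.1 : Rep.res (extArithLoc S v) (N.dualTwist (cycloChar p))) +
      (cup₁₁ (pt_evv S v X) (x.1.2 v) (cone_loc₁ S (X.dualTwist (cycloChar p)) v z) -
        cone_loc₂ S (pt_T p) v (cup₂₀ (pt_ev I) ct.1 mt)) =
      - (d₁₂ (Rep.res (extArithLoc S v) (pt_T p))).hom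
        (cup₁₀ (pt_evv S v I) (bt v).1
          (mt : Rep.res (extArithLoc S v) (I.dualTwist (cycloChar p)))) := by
    intro v
    rw [← hm', ← hbt v]
    exact dc2a_local S h.1 h.2.1 v ct.1 (bt v).1 (n v).1 (hn v) mt z hzm
  have hcoc2 : ∀ v : extArithIndex S,
      cup₁₁ (pt_evv S v X) (x.1.2 v) (cone_loc₁ S (X.dualTwist (cycloChar p)) v z) -
          cone_loc₂ S (pt_T p) v (cup₂₀ (pt_ev I) ct.1 mt) ∈
        levelCocycles₂ (extArithLoc S v) (Rep.res (extArithLoc S v) (pt_T p)) := by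
    intro v
    refine ⟨?_, ?_⟩
    · have e := eq_sub_of_add_eq' (hloc v)
      rw [e]
      exact Submodule.sub_mem _ (Submodule.neg_mem _ (d₁₂_apply_mem_cocycles₂ _)) (hcoc3 v).1
    · refine Submodule.sub_mem (levelCochains₂ (extArithLoc S v)
        (Rep.res (extArithLoc S v) (pt_T p))) ?_ ?_
      · refine hL.2.2.1 hp2 S hpS X hX.1 hX.2 v _ _ (x.2.2 v).1 ?_
        obtain ⟨F, hF, hFz⟩ := hz
        refine ⟨F, hF.1, fun g s hs => ?_⟩
        change z.1 (extArithLoc S v (g * s)) = z.1 (extArithLoc S v g)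
        rw [map_mul]
        exact hFz _ _ hs
      · obtain ⟨F, hF, hFε⟩ := hεlev
        refine ⟨F, hF.1, fun g g' s s' hs hs' => ?_⟩
        change cup₂₀ (pt_ev I) ct.1 mt (extArithLoc S v (g * s), extArithLoc S v (g' * s')) =
          cup₂₀ (pt_ev I) ct.1 mt (extArithLoc S v g, extArithLoc S v g')
        rw [map_mul, map_mul]
        exact hFε _ _ _ _ hs hs'
  rw [hw, hν, hy, hΘN n m hcoc3, hΘX x z hz _ hεlev hdε hcoc2, ← Finset.sum_neg_distrib]
  refine Finset.sum_congr rfl fun v _ => ?_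
  rw [← map_neg]
  congr 1
  rw [eq_neg_iff_add_eq_zero, ← map_add, continuousH2π_eq_zero_iff]
  refine (mem_levelCoboundaries₂_iff _ _ _).2
    ⟨-(cup₁₀ (pt_evv S v I) (bt v).1
      (mt : Rep.res (extArithLoc S v) (I.dualTwist (cycloChar p)))),
      (dc2a_e_level S hI' v (bt v).1 (bt v).2 mt).comp (fun t => -t), ?_⟩
  rw [map_neg]
  exact (hloc v).symm

end Fermat.Agent.S55
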