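/-
S55 (Poitou-Tate), package [DEV], sub-package [Δ0] (helper24).  Prefix `dc2x_`.

`dc2x_main : dev_Conn2ExStatement` : the connecting map `H²_c(X) → H³_c(N)` of a short exact
sequence `0 → N → I → X → 0` of admissible modules is defined everywhere.

Proof: for a cone cocycle `(c, b)` of `X` lift `c` to a level-`S` COCYCLE `c̃` of `I`
(`dc2x_lift`: linear section + [H3VAN] for `N`), lift `b v` by the linear section, and put
`n v := ι⁻¹ (loc_v c̃ - d (b̃ v))`.
-/
import Mathlib
import Fermat.Agent.S55.Dev.Lift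

set_option autoImplicit false
set_option linter.style.haveILetI false
set_option maxHeartbeats 1000000
set_option synthInstance.maxHeartbeats 400000
open CategoryTheory Module groupCohomology ExtCitation

namespace Fermat.Agent.S55

local notation "Qbar" => AlgebraicClosure ℚ

variable {p : ℕ} [Fact p.Prime]

/-- composition preserves level-`S` in three variables. -/
theorem dc2x_levelS₃_comp (S : Finset Nat.Primes) {X Y : Type*}
    {z : s55_GQ × s55_GQ × s55_GQ → X} (hz : pt_IsLevelS₃ S z) (F : X → Y) :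
    pt_IsLevelS₃ S (fun x => F (z x)) := by
  obtain ⟨E, hE, h⟩ := hz
  exact ⟨E, hE, fun g g' g'' s s' s'' hs hs' hs'' => congrArg F (h g g' g'' s s' s'' hs hs' hs'')⟩

/-- **the global lifting lemma**: a level-`S` 2-cocycle of `X` lifts to a level-`S` 2-cocycle
of `I`. -/
theorem dc2x_lift (hH3 : pt_H3VanStatement) (hp2 : p ≠ 2) (S : Finset Nat.Primes)
    (hpS : pPrime p ∈ S) (N I X : Rep.{0, 0, 0} (ZMod p) s55_GQ)
    [FiniteDimensional (ZMod p) N] [FiniteDimensional (ZMod p) I]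
    (hN : dev_Adm S N) (hI : dev_Adm S I)
    (ι : N →ₗ[ZMod p] I) (f : I →ₗ[ZMod p] X) (h : dev_SES ι f)
    (c : s55_GQ × s55_GQ → X) (hc : c ∈ levelCocyclesS₂ S X) :
    ∃ ct : s55_GQ × s55_GQ → I, ct ∈ levelCocyclesS₂ S I ∧
      dev_push (s55_GQ × s55_GQ) f ct = c := by
  obtain ⟨hι, hf, hinj, hsurj, hex⟩ := h
  obtain ⟨s, hs⟩ := dlift_exists_section f hsurj
  obtain ⟨r, hr⟩ := dlift_exists_retraction ι hinj
  have hrι : ∀ y : I, f y = 0 → ι (r y) = y := by
    intro y hy
    obtain ⟨n, rfl⟩ := (hex y).1 hy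
    rw [hr]
  set c₀ : s55_GQ × s55_GQ → I := dev_push (s55_GQ × s55_GQ) s c with hc₀
  have hc₀l : IsLevelConstantS₂ S c₀ := hc.2.comp s
  have hfc₀ : dev_push (s55_GQ × s55_GQ) f c₀ = c := by
    funext x
    exact hs (c x)
  set z := (d₂₃ I).hom c₀ with hz
  have hfz : ∀ x, f (z x) = 0 := by
    intro x
    have h1 := dev_push_d₂₃ hf c₀
    have h2 : (d₂₃ X).hom c = 0 := hc.1
    rw [hfc₀, h2] at h1
    have h3 := congrFun h1 x
    exact h3.symm
  have hzl : pt_IsLevelS₃ S z := dlift_levelS_d₂₃ S I hI c₀ hc₀l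
  set zN : s55_GQ × s55_GQ × s55_GQ → N := fun x => r (z x) with hzN
  have hιzN : (fun x => ι (zN x)) = z := by
    funext x
    exact hrι (z x) (hfz x)
  have hzNl : pt_IsLevelS₃ S zN := dc2x_levelS₃_comp S hzl r
  have hzNc : pt_IsCocycle₃ N zN := by
    apply dlift_isCocycle₃_of_inj ι hι hinj
    rw [hιzN]
    exact dlift_d₂₃_isCocycle₃ _ c₀
  obtain ⟨a, hal, haz⟩ := hH3 hp2 S hpS N hN.1 hN.2 zN hzNl hzNc
  refine ⟨c₀ - dev_push (s55_GQ × s55_GQ) ι a, ⟨?_, ?_⟩, ?_⟩
  · change (d₂₃ I).hom _ = 0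
    rw [map_sub, dev_push_d₂₃ hι a, haz]
    have : dev_push _ ι zN = z := hιzN
    rw [this, sub_self]
  · exact (levelCochainsS₂ S I).sub_mem hc₀l (hal.comp ι)
  · rw [map_sub, hfc₀]
    have : dev_push (s55_GQ × s55_GQ) f (dev_push (s55_GQ × s55_GQ) ι a) = 0 := by
      funext x
      exact (hex _).2 ⟨a x, rfl⟩
    rw [this, sub_zero]

/-- **[Δ0]** -/
theorem dc2x_main : dev_Conn2ExStatement := by
  intro inv hL p _ hp2 S hpS N I X _ _ _ hN hI hX ι f h w
  have hH3 : pt_H3VanStatement := hL.2.2.2.2.1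
  obtain ⟨x, rfl⟩ := Submodule.Quotient.mk_surjective _ w
  obtain ⟨ct, hct, hfct⟩ := dc2x_lift hH3 hp2 S hpS N I X hN hI ι f h x.1.1 x.2.1
  obtain ⟨hι, hf, hinj, hsurj, hex⟩ := h
  obtain ⟨s, hs⟩ := dlift_exists_section f hsurj
  obtain ⟨r, hr⟩ := dlift_exists_retraction ι hinj
  have hrι : ∀ y : I, f y = 0 → ι (r y) = y := by
    intro y hy
    obtain ⟨n, rfl⟩ := (hex y).1 hy
    rw [hr]
  obtain ⟨FI, hFI, hfixI⟩ := adm_uniform p I hI.1
  -- local lifts of the cochains `b v`
  let bt : ∀ v : extArithIndex S,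
      ↥(levelCochains₁ (extArithLoc S v) (Rep.res (extArithLoc S v) I)) :=
    fun v => ⟨dev_pushv₁ S v s (x.1.2 v), (x.2.2 v).1.comp s⟩
  have hbt : ∀ v, dev_pushv₁ S v f (bt v).1 = x.1.2 v := by
    intro v
    funext g
    exact hs (x.1.2 v g)
  -- the differences
  let y : ∀ v : extArithIndex S,
      extArithLocalGroups S v × extArithLocalGroups S v → Rep.res (extArithLoc S v) I :=
    fun v => cone_loc₂ S I v ct - (d₁₂ (Rep.res (extArithLoc S v) I)).hom (bt v).1
  have hfy : ∀ v t, f (y v t) = 0 := by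
    intro v t
    have h1 : dev_pushv₂ S v f (y v) = 0 := by
      show dev_pushv₂ S v f (cone_loc₂ S I v ct -
        (d₁₂ (Rep.res (extArithLoc S v) I)).hom (bt v).1) = 0
      rw [map_sub, ← dev_push_d₁₂ (dev_Eqv_res S hf v), hbt v, (x.2.2 v).2, ← hfct]
      exact sub_self _
    exact congrFun h1 t
  have hyc : ∀ v, (d₂₃ (Rep.res (extArithLoc S v) I)).hom (y v) = 0 := by
    intro v
    show (d₂₃ (Rep.res (extArithLoc S v) I)).hom (cone_loc₂ S I v ct -
      (d₁₂ (Rep.res (extArithLoc S v) I)).hom (bt v).1) = 0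
    rw [map_sub]
    have h1 : cone_loc₂ S I v ct ∈ cocycles₂ (Rep.res (extArithLoc S v) I) := by
      rw [mem_cocycles₂_iff]
      intro g g' j
      have h0 := (mem_cocycles₂_iff (A := I) ct).1 hct.1 (extArithLoc S v g)
        (extArithLoc S v g') (extArithLoc S v j)
      show ct (extArithLoc S v (g * g'), extArithLoc S v j) +
          ct (extArithLoc S v g, extArithLoc S v g') =
        I.ρ (extArithLoc S v g) (ct (extArithLoc S v g', extArithLoc S v j)) +
          ct (extArithLoc S v g, extArithLoc S v (g' * j))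
      rw [map_mul, map_mul]
      exact h0
    have h2 : (d₂₃ (Rep.res (extArithLoc S v) I)).hom
        ((d₁₂ (Rep.res (extArithLoc S v) I)).hom (bt v).1) = 0 :=
      d₁₂_apply_mem_cocycles₂ _
    have h1' : (d₂₃ (Rep.res (extArithLoc S v) I)).hom (cone_loc₂ S I v ct) = 0 := h1
    rw [h1', h2, sub_zero]
  have hyl : ∀ v, IsLevelConstant₂ (extArithLoc S v) (y v) := by
    intro v
    have h1 : cone_loc₂ S I v ct ∈
        levelCochains₂ (extArithLoc S v) (Rep.res (extArithLoc S v) I) := by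
      obtain ⟨F, hF, h⟩ := hct.2
      refine ⟨F, hF.1, fun g g' s s' hs hs' => ?_⟩
      show ct (extArithLoc S v (g * s), extArithLoc S v (g' * s')) =
        ct (extArithLoc S v g, extArithLoc S v g')
      rw [map_mul, map_mul]
      exact h _ _ _ _ hs hs'
    have h2 : IsLevelConstant₂ (extArithLoc S v)
        ((d₁₂ (Rep.res (extArithLoc S v) I)).hom (bt v).1) :=
      dlift_level_d₁₂ (extArithLoc S v) I FI hFI hfixI (bt v).1 (bt v).2
    exact (levelCochains₂ (extArithLoc S v) (Rep.res (extArithLoc S v) I)).sub_mem h1 h2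
  -- the local cocycles with values in `N`
  have hn : ∀ v, dev_pushv₂ S v r (y v) ∈
      levelCocycles₂ (extArithLoc S v) (Rep.res (extArithLoc S v) N) := by
    intro v
    refine ⟨?_, (hyl v).comp r⟩
    change (d₂₃ (Rep.res (extArithLoc S v) N)).hom _ = 0
    have hinj' : Function.Injective (dev_push (A := Rep.res (extArithLoc S v) N)
        (B := Rep.res (extArithLoc S v) I)
        (extArithLocalGroups S v × extArithLocalGroups S v × extArithLocalGroups S v) ι) := by
      intro u u' huu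
      funext t
      exact hinj (congrFun huu t)
    apply hinj'
    rw [map_zero, ← dev_push_d₂₃ (dev_Eqv_res S hι v)]
    have : dev_pushv₂ S v ι (dev_pushv₂ S v r (y v)) = y v := by
      funext t
      exact hrι _ (hfy v t)
    rw [this]
    exact hyc v
  refine ⟨fun v => continuousH2π _ _ ⟨_, hn v⟩, x, ⟨ct, hct⟩, bt, fun v => ⟨_, hn v⟩, rfl, hfct,
    hbt, fun v => ?_, rfl⟩
  funext t
  exact hrι _ (hfy v t)

end Fermat.Agent.S55
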