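/-
S55 (Poitou-Tate), package [DEV] (Serre's devissage), sub-package [Δ1].  Owner: helper28.
Prefix `dc2k_`.

`dc2k_main : dev_Conn2KerStatement` : exactness of `H²_c(I) → H²_c(X) → H³_c(N)` at the middle.
If `ν = [n_v]` is a value at `w` of the connecting map (witnessed by `x = (c, b)`, `c̃`, `b̃_v`,
`n_v` with `ι n_v = loc_v c̃ - d b̃_v`) and `ν = loc [a]` for a level-`S` cocycle `a` of `N`,
i.e. `n_v = loc_v a + d e_v`, then `(c̃ - ι a, b̃_v + ι e_v)` is a cone cocycle of `I` lifting `x`.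
-/
import Mathlib
import Fermat.Agent.S55.Dev.Defs
import Fermat.Agent.S55.Dev.Funct

set_option autoImplicit false
set_option maxHeartbeats 1000000
set_option synthInstance.maxHeartbeats 400000
open CategoryTheory Module groupCohomology ExtCitation

namespace Fermat.Agent.S55

variable {p : ℕ} [Fact p.Prime] (S : Finset Nat.Primes) {A B : Rep (ZMod p) s55_GQ}

/-- In a short exact sequence, `f ∘ ι = 0`. -/
theorem dc2k_comp_zero {N I X : Rep (ZMod p) s55_GQ} {ι : N →ₗ[ZMod p] I} {f : I →ₗ[ZMod p] X}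
    (h : dev_SES ι f) (n : N) : f (ι n) = 0 :=
  (h.2.2.2.2 (ι n)).2 ⟨n, rfl⟩

/-- Localisation commutes with push-forward (2-cochains). -/
theorem dc2k_loc₂_push (v : extArithIndex S) (g : A →ₗ[ZMod p] B) (c : s55_GQ × s55_GQ → A) :
    dev_pushv₂ S v g (cone_loc₂ S A v c) = cone_loc₂ S B v (dev_push (s55_GQ × s55_GQ) g c) :=
  rfl

/-- The localisation of a level-`S` cocycle is a continuous local cocycle. -/
theorem dc2k_loc₂_mem (M : Rep (ZMod p) s55_GQ) (v : extArithIndex S)
    {a : s55_GQ × s55_GQ → M} (ha : a ∈ levelCocyclesS₂ S M) :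
    cone_loc₂ S M v a ∈ levelCocycles₂ (extArithLoc S v) (Rep.res (extArithLoc S v) M) :=
  cochainsPullPush₂_mem_levelCocycles₂ (rH := MonoidHom.id _) (rG := extArithLoc S v)
    (A := M) (B := Rep.res (extArithLoc S v) M) (extArithLoc S v) (fun _ => rfl)
    (LinearMap.id : M →ₗ[ZMod p] Rep.res (extArithLoc S v) M) (fun _ _ => rfl)
    (levelCocyclesS₂_le_levelCocycles₂ S M ha)

/-- The localisation of the class of a level-`S` cocycle. -/
theorem dc2k_locTotal_mk (M : Rep (ZMod p) s55_GQ) (a : ↥(levelCocyclesS₂ S M))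
    (v : extArithIndex S) :
    locTotal₂S S M (continuousH2Sπ S M a) v =
      continuousH2π _ _ ⟨cone_loc₂ S M v a.1, dc2k_loc₂_mem S M v a.2⟩ := rfl

/-- Two continuous local cocycles with the same class differ by a continuous coboundary. -/
theorem dc2k_exists_of_eq (M : Rep (ZMod p) s55_GQ) (v : extArithIndex S)
    (c c' : ↥(levelCocycles₂ (extArithLoc S v) (Rep.res (extArithLoc S v) M)))
    (h : continuousH2π _ _ c = continuousH2π _ _ c') :
    ∃ e : extArithLocalGroups S v → Rep.res (extArithLoc S v) M,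
      IsLevelConstant₁ (extArithLoc S v) e ∧
        (d₁₂ (Rep.res (extArithLoc S v) M)).hom e = c.1 - c'.1 := by
  have h1 : continuousH2π (extArithLoc S v) (Rep.res (extArithLoc S v) M) (c - c') = 0 := by
    rw [map_sub, h, sub_self]
  rw [continuousH2π_eq_zero_iff] at h1
  exact (mem_levelCoboundaries₂_iff _ _ _).1 h1

/-- **[Δ1]** exactness of `H²_c(I) → H²_c(X) → H³_c(N)` at the middle. -/
theorem dc2k_main : dev_Conn2KerStatement := by
  intro p _ S N I X ι f h w ν hconn hν
  obtain ⟨x, ct, bt, n, hw, hct, hbt, hn, hνn⟩ := hconn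
  obtain ⟨z, hz⟩ := hν
  obtain ⟨a, rfl⟩ := Submodule.Quotient.mk_surjective _ z
  -- the local cochains `e v` with `n v = loc_v a + d (e v)`
  have he : ∀ v : extArithIndex S, ∃ e : extArithLocalGroups S v → Rep.res (extArithLoc S v) N,
      IsLevelConstant₁ (extArithLoc S v) e ∧
        (d₁₂ (Rep.res (extArithLoc S v) N)).hom e = (n v).1 - cone_loc₂ S N v a.1 := by
    intro v
    have hv : continuousH2π _ _ (n v) =
        continuousH2π _ _ ⟨cone_loc₂ S N v a.1, dc2k_loc₂_mem S N v a.2⟩ := by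
      rw [← dc2k_locTotal_mk S N a v]
      have := congrFun hz v
      rw [hνn] at this
      exact this.symm
    exact dc2k_exists_of_eq S N v _ _ hv
  choose e he1 he2 using he
  -- the lifted cone cocycle
  have hmem : ((ct.1 - dev_push (s55_GQ × s55_GQ) ι a.1,
      fun v => (bt v).1 + dev_pushv₁ S v ι (e v)) : cone_Amb S I) ∈ cone_Z S I := by
    refine ⟨Submodule.sub_mem _ ct.2 (dev_push_mem_levelCocyclesS₂ S h.1 a.2), fun v => ⟨?_, ?_⟩⟩
    · exact Submodule.add_mem (levelCochains₁ (extArithLoc S v) (Rep.res (extArithLoc S v) I))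
        (bt v).2 ((he1 v).comp ι)
    · have h1 := dev_push_d₁₂ (dev_Eqv_res S h.1 v) (e v)
      change (d₁₂ (Rep.res (extArithLoc S v) I)).hom ((bt v).1 + dev_pushv₁ S v ι (e v)) =
        cone_loc₂ S I v (ct.1 - dev_push (s55_GQ × s55_GQ) ι a.1)
      rw [map_add, map_sub, h1, he2 v, map_sub, hn v, dc2k_loc₂_push]
      abel
  refine ⟨Submodule.Quotient.mk ⟨_, hmem⟩, ?_⟩
  rw [dev_coneH_mk, hw]
  congr 1
  apply Subtype.ext
  rw [dev_coneZ_coe]
  refine Prod.ext ?_ ?_
  · rw [dev_coneAmb_fst]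
    change dev_push (s55_GQ × s55_GQ) f (ct.1 - dev_push (s55_GQ × s55_GQ) ι a.1) = x.1.1
    rw [map_sub, hct]
    have h0 : dev_push (s55_GQ × s55_GQ) f (dev_push (s55_GQ × s55_GQ) ι a.1) = 0 := by
      funext g
      exact dc2k_comp_zero h _
    rw [h0, sub_zero]
  · funext v
    rw [dev_coneAmb_snd]
    change dev_pushv₁ S v f ((bt v).1 + dev_pushv₁ S v ι (e v)) = x.1.2 v
    rw [map_add, hbt v]
    have h0 : dev_pushv₁ S v f (dev_pushv₁ S v ι (e v)) = 0 := by
      funext g
      exact dc2k_comp_zero h _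
    rw [h0, add_zero]

end Fermat.Agent.S55
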