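/-
S55 (Poitou-Tate), package [DEV] (Serre's devissage), sub-package [Δ3].  Owner: helper28.
Prefix `dc2r_`.

`dc2r_main : dev_Conn2RangeStatement` : exactness of `H²_c(X) → H³_c(N) → H³_c(I)` at the middle.
If `η = [n_v]` and `ι_* η = loc [c̃]` for a level-`S` cocycle `c̃` of `I`, i.e.
`ι n_v = loc_v c̃ + d e_v`, then with `b̃_v := - e_v` the pair `(f ∘ c̃, f ∘ b̃_v)` is a cone
cocycle of `X` whose class `w` has `η` as a value of the connecting map.
-/
import Mathlib
import Fermat.Agent.S55.Dev.Defs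
import Fermat.Agent.S55.Dev.Funct
import Fermat.Agent.S55.Dev.Conn2Ker

set_option autoImplicit false
set_option maxHeartbeats 1000000
set_option synthInstance.maxHeartbeats 400000
open CategoryTheory Module groupCohomology ExtCitation

namespace Fermat.Agent.S55

variable {p : ℕ} [Fact p.Prime] (S : Finset Nat.Primes) {A B : Rep (ZMod p) s55_GQ}

/-- The push-forward of a continuous local cocycle is a continuous local cocycle. -/
theorem dc2r_pushv₂_mem {g : A →ₗ[ZMod p] B} (hg : dev_Eqv g) (v : extArithIndex S)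
    {c : extArithLocalGroups S v × extArithLocalGroups S v → Rep.res (extArithLoc S v) A}
    (hc : c ∈ levelCocycles₂ (extArithLoc S v) (Rep.res (extArithLoc S v) A)) :
    dev_pushv₂ S v g c ∈ levelCocycles₂ (extArithLoc S v) (Rep.res (extArithLoc S v) B) :=
  (levelCocycles₂Map (rH := extArithLoc S v) (rG := extArithLoc S v)
    (MonoidHom.id (extArithLocalGroups S v)) (fun _ => rfl)
    (A := Rep.res (extArithLoc S v) A) (B := Rep.res (extArithLoc S v) B) g
    (fun s a => hg (extArithLoc S v s) a) ⟨c, hc⟩).2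

/-- **[Δ3]** exactness of `H²_c(X) → H³_c(N) → H³_c(I)` at the middle. -/
theorem dc2r_main : dev_Conn2RangeStatement := by
  intro p _ S N I X ι f h η hη
  obtain ⟨z, hz⟩ := hη
  obtain ⟨ct, rfl⟩ := Submodule.Quotient.mk_surjective _ z
  -- representatives of `η`
  have hn : ∀ v : extArithIndex S,
      ∃ n : ↥(levelCocycles₂ (extArithLoc S v) (Rep.res (extArithLoc S v) N)),
        continuousH2π _ _ n = η v := fun v => Submodule.Quotient.mk_surjective _ (η v)
  choose n hn using hn
  -- the local cochains `e v` with `ι (n v) = loc_v c̃ + d (e v)`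
  have he : ∀ v : extArithIndex S, ∃ e : extArithLocalGroups S v → Rep.res (extArithLoc S v) I,
      IsLevelConstant₁ (extArithLoc S v) e ∧
        (d₁₂ (Rep.res (extArithLoc S v) I)).hom e =
          dev_pushv₂ S v ι (n v).1 - cone_loc₂ S I v ct.1 := by
    intro v
    have hv : continuousH2π _ _ ⟨dev_pushv₂ S v ι (n v).1, dc2r_pushv₂_mem S h.1 v (n v).2⟩ =
        continuousH2π _ _ ⟨cone_loc₂ S I v ct.1, dc2k_loc₂_mem S I v ct.2⟩ := by
      rw [← dc2k_locTotal_mk S I ct v]
      have := congrFun hz v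
      rw [dev_H2loc_apply, ← hn v] at this
      exact this.symm
    exact dc2k_exists_of_eq S I v _ _ hv
  choose e he1 he2 using he
  -- the cone cocycle of `X`
  have hmem : ((dev_push (s55_GQ × s55_GQ) f ct.1,
      fun v => dev_pushv₁ S v f (-(e v))) : cone_Amb S X) ∈ cone_Z S X := by
    refine ⟨dev_push_mem_levelCocyclesS₂ S h.2.1 ct.2, fun v => ⟨?_, ?_⟩⟩
    · exact ((he1 v).comp (fun y => -y)).comp f
    · have h1 := dev_push_d₁₂ (dev_Eqv_res S h.2.1 v) (-(e v))
      change (d₁₂ (Rep.res (extArithLoc S v) X)).hom (dev_pushv₁ S v f (-(e v))) =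
        cone_loc₂ S X v (dev_push (s55_GQ × s55_GQ) f ct.1)
      rw [h1, map_neg, he2 v, map_neg, map_sub, dc2k_loc₂_push]
      have h0 : dev_pushv₂ S v f (dev_pushv₂ S v ι (n v).1) = 0 := by
        funext g
        exact dc2k_comp_zero h _
      rw [h0, zero_sub, neg_neg]
  refine ⟨Submodule.Quotient.mk ⟨_, hmem⟩, ⟨_, hmem⟩, ct,
    fun v => ⟨-(e v), (he1 v).comp (fun y => -y)⟩, n, rfl, rfl, fun v => rfl, fun v => ?_, ?_⟩
  · change dev_pushv₂ S v ι (n v).1 =
      cone_loc₂ S I v ct.1 - (d₁₂ (Rep.res (extArithLoc S v) I)).hom (-(e v))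
    rw [map_neg, he2 v]
    abel
  · funext v
    exact (hn v).symm

end Fermat.Agent.S55
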