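/-
S55 (Poitou-Tate), package [DEV] (Serre's devissage).  Owner: helper12.  Prefix `de1_`.

E1: the connecting map `δ : H⁰(C) → H¹_S(A)` of a short exact sequence `0 → A → B → C → 0` of
admissible modules and the exactness of `H⁰(B) → H⁰(C) → H¹_S(A) → H¹_S(B) → H¹_S(C)`.
-/
import Mathlib
import Fermat.Agent.S55.Dev.Tools
import Fermat.Agent.S55.Dev.Funct

set_option autoImplicit false
set_option maxHeartbeats 1000000
set_option synthInstance.maxHeartbeats 400000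
open CategoryTheory Module groupCohomology ExtCitation

namespace Fermat.Agent.S55

variable {p : ℕ} [Fact p.Prime]

section

variable {A B C : Rep.{0, 0, 0} (ZMod p) s55_GQ} {ι : A →ₗ[ZMod p] B} {f : B →ₗ[ZMod p] C}

/-- Values of the connecting cochain. -/
theorem de1_spec (h : dev_SES ι f) {r : B →ₗ[ZMod p] A} (hr : ∀ n, r (ι n) = n) (b : B)
    (hb : ∀ g, C.ρ g (f b) = f b) (g : s55_GQ) : ι (r (B.ρ g b - b)) = B.ρ g b - b := by
  have hf : ∀ g b, f (B.ρ g b) = C.ρ g (f b) := h.2.1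
  apply devt_retraction_spec h hr
  rw [map_sub, hf, hb, sub_self]

/-- A cochain of `A` whose image in `B` is a cocycle is a cocycle. -/
theorem de1_cocycle_of (h : dev_SES ι f) (x : s55_GQ → A)
    (hx : (fun g => ι (x g)) ∈ cocycles₁ B) : x ∈ cocycles₁ A := by
  have hι : ∀ g a, ι (A.ρ g a) = B.ρ g (ι a) := h.1
  rw [mem_cocycles₁_iff] at hx ⊢
  intro g g'
  apply h.2.2.1
  rw [map_add, hι]
  exact hx g g'

/-- Two cochains of `A` with the same image in `B` up to `d₀₁ (ι a)`. -/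
theorem de1_class_eq (h : dev_SES ι f) (z z' : cocycles₁ A) (a : A)
    (hz : ∀ g, ι (z'.1 g) - ι (z.1 g) = B.ρ g (ι a) - ι a) :
    (H1π A).hom z = (H1π A).hom z' := by
  have hι : ∀ g a, ι (A.ρ g a) = B.ρ g (ι a) := h.1
  refine (H1π_eq_iff z z').2 ⟨-a, ?_⟩
  funext g
  apply h.2.2.1
  change ι (A.ρ g (-a) - (-a)) = ι (z.1 g - z'.1 g)
  rw [map_sub, map_sub, hι, map_neg, map_neg, ← neg_sub (ι (z'.1 g)), hz g]
  abel

end

/-- **[E1]** -/
theorem de1_main : dev_E1Statement := by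
  intro p _ S A B C _ _ _ hA hB hC ι f h
  obtain ⟨s, hs⟩ := devt_section f h.2.2.2.1
  obtain ⟨r, hr⟩ := devt_retraction ι h.2.2.1
  have hι : ∀ g a, ι (A.ρ g a) = B.ρ g (ι a) := h.1
  have hf : ∀ g b, f (B.ρ g b) = C.ρ g (f b) := h.2.1
  have hex := h.2.2.2.2
  -- the connecting cochain of `b`
  have hcoc : ∀ b : B, (∀ g, C.ρ g (f b) = f b) →
      (dev_push s55_GQ r ((d₀₁ B).hom b)) ∈ cocycles₁ A := by
    intro b hb
    apply de1_cocycle_of h
    have e : (fun g => ι (dev_push s55_GQ r ((d₀₁ B).hom b) g)) = (d₀₁ B).hom b := by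
      funext g
      exact de1_spec h hr b hb g
    rw [e]
    exact d₀₁_apply_mem_cocycles₁ b
  have hlev : ∀ b : B, IsLevelConstantS₁ S (dev_push s55_GQ r ((d₀₁ B).hom b)) :=
    fun b => (devt_d₀₁_level S B hB b).comp r
  have hinv : ∀ m : ↥(C.ρ.invariants), ∀ g, C.ρ g (f (s m.1)) = f (s m.1) := by
    intro m g
    rw [hs]
    exact m.2 g
  -- uniqueness
  have key : ∀ (b : B) (z : cocycles₁ A), (∀ g, ι (z.1 g) = B.ρ g b - b) →
      ∀ (b' : B) (z' : cocycles₁ A), (∀ g, ι (z'.1 g) = B.ρ g b' - b') → f b = f b' →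
      (H1π A).hom z = (H1π A).hom z' := by
    intro b z hz b' z' hz' hbb
    obtain ⟨a, ha⟩ := (hex (b' - b)).1 (by rw [map_sub, hbb, sub_self])
    apply de1_class_eq h z z' a
    intro g
    rw [hz, hz', ha, map_sub]
    abel
  let Zlin : ↥(C.ρ.invariants) →ₗ[ZMod p] ↥(cocycles₁ A) :=
    LinearMap.codRestrict (cocycles₁ A)
      ((dev_push s55_GQ r) ∘ₗ (d₀₁ B).hom ∘ₗ s ∘ₗ (C.ρ.invariants).subtype)
      (fun m => hcoc (s m.1) (hinv m))
  have hZ : ∀ m g, ι ((Zlin m).1 g) = B.ρ g (s m.1) - s m.1 :=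
    fun m g => de1_spec h hr (s m.1) (hinv m) g
  let δ : ↥(C.ρ.invariants) →ₗ[ZMod p] ↥(continuousH1S S A) :=
    LinearMap.codRestrict (continuousH1S S A) ((H1π A).hom ∘ₗ Zlin)
      (fun m => (mem_continuousH1S_iff S A _).2 ⟨Zlin m, hlev (s m.1), rfl⟩)
  have huniq : ∀ m y, dev_IsConn1 S ι f m y → y = δ m := by
    rintro m y ⟨b, z, hz, hb, hzb, rfl⟩
    apply Subtype.ext
    change (H1π A).hom z = (H1π A).hom (Zlin m)
    exact key b z hzb (s m.1) (Zlin m) (hZ m) (by rw [hb, hs])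
  refine ⟨δ, ?_, huniq, ?_, ?_, ?_⟩
  · intro m
    exact ⟨s m.1, Zlin m, hlev (s m.1), hs m.1, hZ m, Subtype.ext rfl⟩
  · intro b
    symm
    apply huniq
    refine ⟨b.1, 0, isLevelConstantS₁_const S (0 : A), rfl, fun g => ?_, ?_⟩
    · rw [b.2 g, sub_self]
      exact map_zero ι
    · apply Subtype.ext
      exact (map_zero (H1π A).hom).symm
  · intro y hy
    obtain ⟨z, hz, rfl⟩ := dev_H1S_exists_cls S y
    rw [dev_H1S_cls] at hy
    have h1 : (H1π B).hom (dev_Z1 h.1 z) = 0 := congrArg Subtype.val hy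
    obtain ⟨b, hb⟩ := (H1π_eq_zero_iff (dev_Z1 h.1 z)).1 h1
    have hb' : ∀ g, ι (z.1 g) = B.ρ g b - b := fun g => (congrFun hb g).symm
    have hfb : ∀ g, C.ρ g (f b) = f b := by
      intro g
      have e : B.ρ g b = b + ι (z.1 g) := by
        rw [hb']
        abel
      rw [← hf, e, map_add, (hex (ι (z.1 g))).2 ⟨_, rfl⟩, add_zero]
    refine ⟨⟨f b, hfb⟩, ?_⟩
    symm
    apply huniq
    exact ⟨b, z, hz, rfl, hb', rfl⟩
  · intro y hy
    obtain ⟨z, hz, rfl⟩ := dev_H1S_exists_cls S y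
    rw [dev_H1S_cls] at hy
    have h1 : (H1π C).hom (dev_Z1 h.2.1 z) = 0 := congrArg Subtype.val hy
    obtain ⟨c, hc⟩ := (H1π_eq_zero_iff (dev_Z1 h.2.1 z)).1 h1
    have hc' : ∀ g, f (z.1 g) = C.ρ g c - c := fun g => (congrFun hc g).symm
    -- the corrected cocycle
    have hz'mem : (z.1 - (d₀₁ B).hom (s c)) ∈ cocycles₁ B :=
      Submodule.sub_mem _ z.2 (d₀₁_apply_mem_cocycles₁ (s c))
    have hker : ∀ g, f ((z.1 - (d₀₁ B).hom (s c)) g) = 0 := by
      intro g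
      change f (z.1 g - (B.ρ g (s c) - s c)) = 0
      rw [map_sub, map_sub, hf, hs, hc', sub_self]
    have hιx : ∀ g, ι (r ((z.1 - (d₀₁ B).hom (s c)) g)) = (z.1 - (d₀₁ B).hom (s c)) g :=
      fun g => devt_retraction_spec h hr (hker g)
    have hxmem : (dev_push s55_GQ r (z.1 - (d₀₁ B).hom (s c))) ∈ cocycles₁ A := by
      apply de1_cocycle_of h
      have e : (fun g => ι (dev_push s55_GQ r (z.1 - (d₀₁ B).hom (s c)) g)) =
          z.1 - (d₀₁ B).hom (s c) := funext hιx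
      rw [e]
      exact hz'mem
    have hxlev : IsLevelConstantS₁ S (dev_push s55_GQ r (z.1 - (d₀₁ B).hom (s c))) := by
      have h2 : IsLevelConstantS₁ S (z.1 + (fun x => -x) ∘ (d₀₁ B).hom (s c)) :=
        hz.add ((devt_d₀₁_level S B hB (s c)).comp (fun x => -x))
      have e : z.1 - (d₀₁ B).hom (s c) = z.1 + (fun x => -x) ∘ (d₀₁ B).hom (s c) := by
        funext g
        exact sub_eq_add_neg _ _
      rw [e]
      exact h2.comp r
    refine ⟨pt_cls1 S A ⟨_, hxmem⟩ hxlev, ?_⟩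
    rw [dev_H1S_cls]
    apply Subtype.ext
    change (H1π B).hom (dev_Z1 h.1 ⟨_, hxmem⟩) = (H1π B).hom z
    refine (H1π_eq_iff _ _).2 ⟨-(s c), ?_⟩
    funext g
    change B.ρ g (-(s c)) - (-(s c)) = ι (r ((z.1 - (d₀₁ B).hom (s c)) g)) - z.1 g
    rw [hιx]
    change B.ρ g (-(s c)) - (-(s c)) = (z.1 g - (B.ρ g (s c) - s c)) - z.1 g
    rw [map_neg]
    abel

end Fermat.Agent.S55
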