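/-
S55 (Poitou-Tate), package [DEV], sub-package [E2] (helper24).  Prefix `de2_`.

`de2_main : dev_E2Statement` : for a short exact sequence `0 → N → I → X → 0` of admissible
modules the map `∏_v H²_cts(ℚ_v, I) → ∏_v H²_cts(ℚ_v, X)` is onto.

Proof: lift a continuous local cocycle `c` by a linear section `s` of `f`; `d (s ∘ c)` has values
in `N` and is a continuous 3-cocycle, hence `= d a` by [LCD] for `N`; `c̃ := s ∘ c - ι ∘ a`.
-/
import Mathlib
import Fermat.Agent.S55.Dev.Lift

set_option autoImplicit false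
set_option linter.style.haveILetI false
set_option maxHeartbeats 1000000
set_option synthInstance.maxHeartbeats 400000
open CategoryTheory Module groupCohomology ExtCitation

namespace Fermat.Agent.S55

local notation "Qbar" => AlgebraicClosure ℚ

variable {p : ℕ} [Fact p.Prime]

/-- composition preserves continuity in three variables. -/
theorem de2_level₃_comp {H : Type} [Group H] (φ : H →* s55_GQ) {X Y : Type*}
    {z : H × H × H → X} (hz : pt_IsLevel₃ φ z) (F : X → Y) : pt_IsLevel₃ φ (fun x => F (z x)) := by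
  obtain ⟨E, hE, h⟩ := hz
  exact ⟨E, hE, fun g g' g'' s s' s'' hs hs' hs'' => congrArg F (h g g' g'' s s' s'' hs hs' hs'')⟩

/-- **the local lifting lemma**: a continuous local 2-cocycle of `X` lifts to a continuous local
2-cocycle of `I`. -/
theorem de2_lift (hLCD : pt_LCDStatement) (hp2 : p ≠ 2) (S : Finset Nat.Primes)
    (hpS : pPrime p ∈ S) (N I X : Rep.{0, 0, 0} (ZMod p) s55_GQ)
    [FiniteDimensional (ZMod p) N] [FiniteDimensional (ZMod p) I]
    (hN : dev_Adm S N) (hI : dev_Adm S I)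
    (ι : N →ₗ[ZMod p] I) (f : I →ₗ[ZMod p] X) (h : dev_SES ι f) (v : extArithIndex S)
    (c : extArithLocalGroups S v × extArithLocalGroups S v → Rep.res (extArithLoc S v) X)
    (hc : c ∈ levelCocycles₂ (extArithLoc S v) (Rep.res (extArithLoc S v) X)) :
    ∃ ct : extArithLocalGroups S v × extArithLocalGroups S v → Rep.res (extArithLoc S v) I,
      ct ∈ levelCocycles₂ (extArithLoc S v) (Rep.res (extArithLoc S v) I) ∧
        dev_pushv₂ S v f ct = c := by
  obtain ⟨hι, hf, hinj, hsurj, hex⟩ := h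
  obtain ⟨s, hs⟩ := dlift_exists_section f hsurj
  obtain ⟨r, hr⟩ := dlift_exists_retraction ι hinj
  have hrι : ∀ y : I, f y = 0 → ι (r y) = y := by
    intro y hy
    obtain ⟨n, rfl⟩ := (hex y).1 hy
    rw [hr]
  obtain ⟨FI, hFI, hfixI⟩ := adm_uniform p I hI.1
  -- the set-theoretic lift
  set c₀ : extArithLocalGroups S v × extArithLocalGroups S v → Rep.res (extArithLoc S v) I :=
    dev_pushv₂ S v s c with hc₀
  have hc₀l : IsLevelConstant₂ (extArithLoc S v) c₀ := hc.2.comp s
  have hfc₀ : dev_pushv₂ S v f c₀ = c := by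
    funext x
    exact hs (c x)
  set z := (d₂₃ (Rep.res (extArithLoc S v) I)).hom c₀ with hz
  have hfz : ∀ x, f (z x) = 0 := by
    intro x
    have h1 := dev_push_d₂₃ (dev_Eqv_res S hf v) c₀
    have h2 : (d₂₃ (Rep.res (extArithLoc S v) X)).hom c = 0 := hc.1
    rw [hfc₀, h2] at h1
    have h3 := congrFun h1 x
    exact h3.symm
  have hzl : pt_IsLevel₃ (extArithLoc S v) z :=
    dlift_level_d₂₃ (extArithLoc S v) I FI hFI hfixI c₀ hc₀l
  -- the 3-cocycle with values in `N`
  set zN : extArithLocalGroups S v × extArithLocalGroups S v × extArithLocalGroups S v →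
      Rep.res (extArithLoc S v) N := fun x => r (z x) with hzN
  have hιzN : (fun x => ι (zN x)) = z := by
    funext x
    exact hrι (z x) (hfz x)
  have hzNl : pt_IsLevel₃ (extArithLoc S v) zN := de2_level₃_comp (extArithLoc S v) hzl r
  have hzNc : pt_IsCocycle₃ (Rep.res (extArithLoc S v) N) zN := by
    apply dlift_isCocycle₃_of_inj (N := Rep.res (extArithLoc S v) N)
      (I := Rep.res (extArithLoc S v) I) ι (dev_Eqv_res S hι v) hinj
    rw [hιzN]
    exact dlift_d₂₃_isCocycle₃ _ c₀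
  obtain ⟨a, hal, haz⟩ := hLCD hp2 S hpS N hN.1 hN.2 v zN hzNl hzNc
  refine ⟨c₀ - dev_pushv₂ S v ι a, ⟨?_, ?_⟩, ?_⟩
  · -- cocycle
    change (d₂₃ (Rep.res (extArithLoc S v) I)).hom _ = 0
    rw [map_sub, dev_push_d₂₃ (dev_Eqv_res S hι v) a, haz]
    have : dev_push _ ι zN = z := hιzN
    rw [this, sub_self]
  · -- level
    exact (levelCochains₂ (extArithLoc S v) (Rep.res (extArithLoc S v) I)).sub_mem hc₀l
      (hal.comp ι)
  · rw [map_sub, hfc₀]
    have : dev_pushv₂ S v f (dev_pushv₂ S v ι a) = 0 := by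
      funext x
      exact (hex _).2 ⟨a x, rfl⟩
    rw [this, sub_zero]

/-- **[E2]** -/
theorem de2_main : dev_E2Statement := by
  intro inv hL p _ hp2 S hpS N I X _ _ _ hN hI hX ι f h η
  have hLCD : pt_LCDStatement := hL.2.2.2.2.2
  have key : ∀ v, ∃ ξ : continuousH2 (extArithLoc S v) (Rep.res (extArithLoc S v) I),
      dev_H2v S h.2.1 v ξ = η v := by
    intro v
    obtain ⟨c, hc⟩ := Submodule.Quotient.mk_surjective _ (η v)
    obtain ⟨ct, hct, hfc⟩ := de2_lift hLCD hp2 S hpS N I X hN hI ι f h v c.1 c.2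
    refine ⟨continuousH2π _ _ ⟨ct, hct⟩, ?_⟩
    have hmem : dev_pushv₂ S v f ct ∈
        levelCocycles₂ (extArithLoc S v) (Rep.res (extArithLoc S v) X) := by
      rw [hfc]; exact c.2
    have hsub : (⟨dev_pushv₂ S v f ct, hmem⟩ :
        ↥(levelCocycles₂ (extArithLoc S v) (Rep.res (extArithLoc S v) X))) = c :=
      Subtype.ext hfc
    rw [dev_H2v_mk S h.2.1 v ⟨ct, hct⟩ hmem, hsub, ← hc]
    rfl
  choose ξ hξ using key
  exact ⟨ξ, funext fun v => hξ v⟩

end Fermat.Agent.S55
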