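/-
S55 (Poitou-Tate), package [DEV] (Serre's devissage).  Owner: helper12.  Prefix `devk_`.

KER: the sub-packages [KER] (the kernel of a surjection of admissible modules is admissible and
sits in a short exact sequence) and [DSES] (the Tate dual of a short exact sequence is short
exact).
-/
import Mathlib
import Fermat.Agent.S55.Dev.Defs

set_option autoImplicit false
set_option maxHeartbeats 1000000
set_option synthInstance.maxHeartbeats 400000
open CategoryTheory Module groupCohomology ExtCitation

namespace Fermat.Agent.S55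

/-- **[DSES]** the Tate dual of a short exact sequence is short exact. -/
theorem devk_dses_main : dev_DualSESStatement := by
  intro p _ N I X ι f h
  refine ⟨dev_dual_eqv h.2.1, dev_dual_eqv h.1, ?_, ?_, ?_⟩
  · exact LinearMap.dualMap_injective_of_surjective h.2.2.2.1
  · exact LinearMap.dualMap_surjective_of_injective h.2.2.1
  · intro φ
    constructor
    · intro hφ
      have h0 : ∀ n : N, (show Module.Dual (ZMod p) I from φ) (ι n) = 0 := by
        intro n
        have := congrArg (fun ψ : N.dualTwist (cycloChar p) =>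
          (show Module.Dual (ZMod p) N from ψ) n) hφ
        exact this
      have hmem : (show Module.Dual (ZMod p) I from φ) ∈ (LinearMap.ker f).dualAnnihilator := by
        rw [Submodule.mem_dualAnnihilator]
        intro x hx
        obtain ⟨n, rfl⟩ := (h.2.2.2.2 x).1 (LinearMap.mem_ker.1 hx)
        exact h0 n
      rw [← LinearMap.range_dualMap_eq_dualAnnihilator_ker] at hmem
      obtain ⟨ψ, hψ⟩ := hmem
      exact ⟨ψ, hψ⟩
    · rintro ⟨ψ, rfl⟩
      apply LinearMap.ext
      intro n
      change (show Module.Dual (ZMod p) X from ψ) (f (ι n)) = 0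
      rw [(h.2.2.2.2 (ι n)).2 ⟨n, rfl⟩, map_zero]

/-- **[KER]** the kernel of a surjection of admissible modules is admissible. -/
theorem devk_ker_main : dev_KerStatement := by
  intro p _ S I X _ hI f hf hsurj
  have hfe : ∀ s a, f (I.ρ s a) = X.ρ s (f a) := hf
  have hle : ∀ g : s55_GQ, LinearMap.ker f ≤ (LinearMap.ker f).comap (I.ρ g) := by
    intro g x hx
    rw [Submodule.mem_comap, LinearMap.mem_ker, hfe, LinearMap.mem_ker.1 hx, map_zero]
  refine ⟨Rep.of (I.ρ.subrepresentation (LinearMap.ker f) hle),
    inferInstanceAs (FiniteDimensional (ZMod p) ↥(LinearMap.ker f)),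
    (LinearMap.ker f).subtype, ⟨?_, ?_⟩, ?_, hf, ?_, hsurj, ?_⟩
  · intro m
    obtain ⟨F, hF, hFm⟩ := hI.1 (m : ↥(LinearMap.ker f)).1
    refine ⟨F, hF, fun s hs => ?_⟩
    apply Subtype.ext
    exact hFm s hs
  · intro q hq A hA g hg
    have h1 := hI.2 q hq A hA g hg
    apply LinearMap.ext
    intro m
    apply Subtype.ext
    change I.ρ g (m : ↥(LinearMap.ker f)).1 = (m : ↥(LinearMap.ker f)).1
    rw [h1]
    rfl
  · intro s a
    rfl
  · exact Subtype.val_injective
  · intro x
    constructor
    · intro hx
      exact ⟨⟨x, LinearMap.mem_ker.2 hx⟩, rfl⟩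
    · rintro ⟨n, rfl⟩
      exact LinearMap.mem_ker.1 (n : ↥(LinearMap.ker f)).2

end Fermat.Agent.S55
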