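/-
S55 (Poitou-Tate), package [DEV], sub-package [N2] (helper16).  Prefix `dnat_`.

`dnat_nat2 : dev_Nat2Statement` : naturality of `Θ²` in the coefficient module,
`Θ²_B (g_* w) y = Θ²_A w (g'_* y)`.
For `w = [x]`, `y = [y₀]` a cochain `ε` with `d ε = (g ∘ c) ∪ y₀` exists by [H3VAN] for `F_p(1)`
(`dnat_exists_eps`); the SAME `ε` serves the pair `(x, g' ∘ y₀)` because
`(g ∘ c) ∪ y₀ = c ∪ (g' ∘ y₀)` as functions, and then both sides are the same sum of local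
invariants.
-/
import Mathlib
import Fermat.Agent.S55.Dev.NatTools

set_option autoImplicit false
set_option linter.style.haveILetI false
set_option maxHeartbeats 1000000
set_option synthInstance.maxHeartbeats 400000
open CategoryTheory Module groupCohomology ExtCitation

namespace Fermat.Agent.S55

variable {p : ℕ} [Fact p.Prime] (S : Finset Nat.Primes)

/-- the adjunction formula `⟨g a, s • φ⟩_B = ⟨a, s • g'(φ)⟩_A`. -/
theorem dnat_ev_adj {A B : Rep.{0, 0, 0} (ZMod p) s55_GQ} {g : A →ₗ[ZMod p] B}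
    (hg : dev_Eqv g) (a : A) (s : s55_GQ) (φ : B.dualTwist (cycloChar p)) :
    pt_ev B (g a) ((B.dualTwist (cycloChar p)).ρ s φ) =
      pt_ev A a ((A.dualTwist (cycloChar p)).ρ s (dev_dual g φ)) := by
  rw [dev_ev_dual, dev_dual_eqv hg]

/-- **[N2]**. -/
theorem dnat_nat2 : dev_Nat2Statement := by
  intro inv hL p _ hp2 S hpS A B _ _ hA hB g hg ΘA ΘB hΘA hΘB w y
  obtain ⟨hT, hD, hCL, -, hH3, -⟩ := hL
  obtain ⟨x, rfl⟩ := Submodule.Quotient.mk_surjective _ w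
  obtain ⟨y₀, hy₀, rfl⟩ := dev_H1S_exists_cls S y
  rw [dev_coneH_mk, dev_H1S_cls]
  obtain ⟨ε, hε, hd⟩ :=
    dnat_exists_eps S B hT hD hH3 hp2 hpS hB.1 hB.2 (dev_coneZ S hg x) y₀ hy₀
  have hcocB := dnat_hcoc S B hCL hp2 hpS hB.1 hB.2 (dev_coneZ S hg x) y₀ hy₀ ε hε hd
  rw [hΘB (dev_coneZ S hg x) y₀ hy₀ ε hε hd hcocB]
  have hdA : (d₂₃ (pt_T p)).hom ε =
      cup₂₁ (pt_ev A) x.1.1 (dev_Z1 (dev_dual_eqv hg) y₀) := by
    rw [hd]
    funext ⟨s, t, u⟩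
    rw [cup₂₁_apply, cup₂₁_apply]
    exact dnat_ev_adj hg (x.1.1 (s, t)) (s * t) (y₀.1 u)
  have hyA : IsLevelConstantS₁ S (dev_Z1 (dev_dual_eqv hg) y₀) := hy₀.comp (dev_dual g)
  have hcocA := dnat_hcoc S A hCL hp2 hpS hA.1 hA.2 x (dev_Z1 (dev_dual_eqv hg) y₀)
    hyA ε hε hdA
  rw [hΘA x (dev_Z1 (dev_dual_eqv hg) y₀) hyA ε hε hdA hcocA]
  refine Finset.sum_congr rfl (fun v _ => ?_)
  congr 2
  apply Subtype.ext
  change cup₁₁ (pt_evv S v B) ((dev_coneZ S hg x).1.2 v)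
        (cone_loc₁ S (B.dualTwist (cycloChar p)) v y₀) - cone_loc₂ S (pt_T p) v ε =
    cup₁₁ (pt_evv S v A) (x.1.2 v)
        (cone_loc₁ S (A.dualTwist (cycloChar p)) v (dev_Z1 (dev_dual_eqv hg) y₀)) -
      cone_loc₂ S (pt_T p) v ε
  congr 1
  funext ⟨s, t⟩
  rw [cup₁₁_apply, cup₁₁_apply]
  exact dnat_ev_adj hg (x.1.2 v s) (extArithLoc S v s) (y₀.1 (extArithLoc S v t))

end Fermat.Agent.S55
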