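/-
S55 (Poitou-Tate), package [DEV], sub-package [REC3] (helper7).  Prefix `drec3_`.

`drec3_main : dev_Rec3Statement` : every `Θ₃` with `pt_IsTheta3` kills the image of `H²_S(M)`
(global reciprocity [REC] applied to the level-`S` cocycle `c ∪ m'`).
-/
import Mathlib
import Fermat.Agent.S55.Dev.Defs
import Fermat.Agent.S55.Dev.Theta3Ex

set_option autoImplicit false
set_option linter.style.haveILetI false
set_option maxHeartbeats 1000000
set_option synthInstance.maxHeartbeats 400000
open CategoryTheory Module groupCohomology ExtCitation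

namespace Fermat.Agent.S55

variable {p : ℕ} [Fact p.Prime]

section

variable (S : Finset Nat.Primes) (M : Rep.{0, 0, 0} (ZMod p) s55_GQ)

theorem drec3_d₀₁ (m' : ↥((M.dualTwist (cycloChar p)).ρ.invariants)) :
    (d₀₁ (M.dualTwist (cycloChar p))).hom (m'.1 : M.dualTwist (cycloChar p)) = 0 := by
  funext g
  rw [d₀₁_hom_apply, m'.2 g, sub_self]
  rfl

theorem drec3_cup₂₀_eq (c : s55_GQ × s55_GQ → M)
    (m' : ↥((M.dualTwist (cycloChar p)).ρ.invariants)) :
    cup₂₀ (pt_ev M) c (m'.1 : M.dualTwist (cycloChar p)) =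
      (fun a : M => pt_ev M a (m'.1 : M.dualTwist (cycloChar p))) ∘ c := by
  funext x
  rw [cup₂₀, Function.comp_apply, m'.2 (x.1 * x.2)]

/-- The cup product of a level-`S` 2-cocycle with an invariant is a level-`S` 2-cocycle. -/
theorem drec3_mem (c : s55_GQ × s55_GQ → M) (hc : c ∈ levelCocyclesS₂ S M)
    (m' : ↥((M.dualTwist (cycloChar p)).ρ.invariants)) :
    cup₂₀ (pt_ev M) c (m'.1 : M.dualTwist (cycloChar p)) ∈ levelCocyclesS₂ S (pt_T p) := by
  refine ⟨?_, ?_⟩
  · change (d₂₃ _).hom _ = 0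
    have hc0 : (d₂₃ M).hom c = 0 := hc.1
    rw [cup_d₂₀ (pt_ev_equivariant M) c _ hc0, drec3_d₀₁]
    funext ⟨g, h, j⟩
    rw [cup₂₁_apply, Pi.zero_apply, map_zero, map_zero]
    rfl
  · rw [drec3_cup₂₀_eq]
    exact (IsLevelConstantS₂.comp hc.2 _ :)

/-- The localisation at `v` of a level-`S` cocycle. -/
noncomputable def drec3_loc (A : Rep.{0, 0, 0} (ZMod p) s55_GQ) (v : extArithIndex S)
    (c : ↥(levelCocyclesS₂ S A)) :
    ↥(levelCocycles₂ (extArithLoc S v) (Rep.res (extArithLoc S v) A)) :=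
  levelCocycles₂Map (rH := MonoidHom.id _) (rG := extArithLoc S v) (extArithLoc S v)
    (fun _ => rfl) (LinearMap.id : A →ₗ[ZMod p] Rep.res (extArithLoc S v) A) (fun _ _ => rfl)
    (levelCocyclesS₂ToLevelCocycles₂ S A c)

theorem drec3_locTotal (A : Rep.{0, 0, 0} (ZMod p) s55_GQ) (c : ↥(levelCocyclesS₂ S A)) :
    locTotal₂S S A (continuousH2Sπ S A c) =
      fun v => continuousH2π _ _ (drec3_loc S A v c) := by
  funext v
  rfl

end

/-- **[REC3]** `Θ₃` kills the image of `H²_S(M)`. -/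
theorem drec3_main : dev_Rec3Statement := by
  intro inv hL p _ hp2 S hpS M _ _ Θ hΘ z
  obtain ⟨c, rfl⟩ := Submodule.mkQ_surjective _ z
  have hrec : pt_RecStatement inv := hL.2.2.2.1
  ext m'
  rw [LinearMap.zero_apply]
  have h1 := drec3_locTotal S M c
  change Θ (locTotal₂S S M (continuousH2Sπ S M c)) m' = 0
  rw [h1]
  have hcoc : ∀ v : extArithIndex S,
      cup₂₀ (pt_evv S v M)
          ((drec3_loc S M v c : ↥(levelCocycles₂ (extArithLoc S v)
            (Rep.res (extArithLoc S v) M))) :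
            extArithLocalGroups S v × extArithLocalGroups S v → Rep.res (extArithLoc S v) M)
          (m'.1 : Rep.res (extArithLoc S v) (M.dualTwist (cycloChar p))) ∈
        levelCocycles₂ (extArithLoc S v) (Rep.res (extArithLoc S v) (pt_T p)) :=
    fun v => dth3_mem S v M _ (drec3_loc S M v c).2 m'
  rw [hΘ (fun v => drec3_loc S M v c) m' hcoc]
  -- the global cocycle
  have he := drec3_mem S M c.1 c.2 m'
  have h2 := hrec hp2 S hpS (continuousH2Sπ S (pt_T p) ⟨_, he⟩)
  rw [← h2, drec3_locTotal S (pt_T p) ⟨_, he⟩]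
  refine Finset.sum_congr rfl fun v _ => ?_
  congr 2
  apply Subtype.ext
  funext ⟨g, h⟩
  change (pt_ev M) (c.1 (extArithLoc S v g, extArithLoc S v h))
      ((M.dualTwist (cycloChar p)).ρ (extArithLoc S v (g * h)) m'.1) =
    (pt_ev M) (c.1 (extArithLoc S v g, extArithLoc S v h))
      ((M.dualTwist (cycloChar p)).ρ (extArithLoc S v g * extArithLoc S v h) m'.1)
  rw [map_mul]

end Fermat.Agent.S55
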