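/-
S55 (Poitou-Tate), package [DEV] (Serre's devissage).  Owner: helper12.  Prefix `dev_`.

MAIN: the package [DEV], hypothesis-free up to [PAIR-OF]:
  `dev_main : pt_PairOfStatement → pt_DevStatement`.
The twelve sub-packages: [KER], [DSES], [E1], [Δ2] (helper12), [TH3-EX], [REC3] (helper7),
[N2], [N3] (helper16), [E2], [Δ0] (helper24), [Δ1], [Δ3] (helper28).
-/
import Mathlib
import Fermat.Agent.S55.Dev.Asm
import Fermat.Agent.S55.Dev.Ker
import Fermat.Agent.S55.Dev.E1
import Fermat.Agent.S55.Dev.E2
import Fermat.Agent.S55.Dev.Theta3Ex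
import Fermat.Agent.S55.Dev.Rec3
import Fermat.Agent.S55.Dev.Nat2
import Fermat.Agent.S55.Dev.Nat3
import Fermat.Agent.S55.Dev.Conn2Ex
import Fermat.Agent.S55.Dev.Conn2Ker
import Fermat.Agent.S55.Dev.Conn2Adj
import Fermat.Agent.S55.Dev.Conn2Range

set_option autoImplicit false

namespace Fermat.Agent.S55

/-- **[DEV]** Serre's devissage: global duality for all admissible modules from the covers. -/
theorem dev_main (hPO : pt_PairOfStatement) : pt_DevStatement :=
  dev_main_of hPO devk_ker_main devk_dses_main dth3_main dnat_nat2 dnat_nat3 drec3_main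
    de1_main de2_main dc2x_main dc2k_main dc2a_main dc2r_main

end Fermat.Agent.S55
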